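/-
S56 / LOC, cohomological wraps (helper48).

`N` a module of `G_ℚ` discrete at level `T`, `c` a level-`T` 1-cocycle with values in `N`,
`v ∈ T`, `Γ_v = primeLocalGaloisGroup v`, `r_v = primeLocalToGlobal v`, `resT T N v` the
restriction map `H¹(level T, N) → H¹(Γ_v, N)` (`GW/LevelLowerUr`; it is `(dataS ..).r1 N v`).

* `resZ c v`                  : the restricted cocycle `c ∘ r_v`, `resT_mk : resT (mk c) = mk (resZ c v)`;
* `resT_mem_H1ur_of_inertia`  : if `c σ = σ m - m` for all `σ` in the inertia group of the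
  distinguished place above `v`, the restriction of the class of `c` at `v` is unramified
  (no hypothesis on the action of inertia on `N`);
* `resT_mem_range_H1map`      : if `i : U ⟶ N|Γ_v` is injective and `c (r_v g) = g m - m + i (s g)`
  for a function `s : Γ_v → U`, the restriction of the class of `c` at `v` lies in the image of
  `H¹(Γ_v, U) → H¹(Γ_v, N)`;
* `r1_mem_H1ur_of_inertia`, `map_r1_le_range_H1map` : the same for the counting data `dataS`,
  in the shape of the hypotheses `hur` / `hp_loc` of `GW/Numeric.finrank_le_card_mul`.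
-/
import Fermat.Agent.S56.GW.UrRam

set_option autoImplicit false

open CategoryTheory groupCohomology ExtCitation

namespace Fermat.Agent.S56.Loc.LocWrap

open Fermat.Agent.S55 Fermat.Agent.S55.Abs Fermat.Agent.S55.Count Fermat.Agent.S55.Base
  Fermat.Agent.S55.Base.EvalQ Fermat.Agent.S55.Glue Fermat.Agent.S56.GW.LevelLowerUr

local notation "Qb" => AlgebraicClosure ℚ

section Generic

variable {k : Type} [Field k] {T : Finset Nat.Primes} {N : Rep.{0} k GQ}

/-- The restriction at `v ∈ T` of a level-`T` cocycle, as a level cocycle of the local group. -/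
noncomputable def resZ (c : ↥(Z1 (globalLevel T) N)) (v : ↥T) :
    ↥(Z1 (localLevel (primeLocalToGlobal v.1)) (Rep.res (primeLocalToGlobal v.1) N)) :=
  ⟨res₁ (fun q : ↥T => primeLocalToGlobal q.1) N v c.1,
    res₁_mem_Z1 (globalLevel T) (fun q : ↥T => primeLocalToGlobal q.1)
      (fun q : ↥T => localLevel (primeLocalToGlobal q.1))
      (fun q : ↥T => isLevelMap_localLevel (primeLocalToGlobal q.1) T) N v c.2⟩

theorem resZ_apply (c : ↥(Z1 (globalLevel T) N)) (v : ↥T) (g : primeLocalGaloisGroup v.1) :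
    (resZ c v : primeLocalGaloisGroup v.1 → Rep.res (primeLocalToGlobal v.1) N) g
      = (c : GQ → N) (primeLocalToGlobal v.1 g) :=
  rfl

theorem resT_mk (c : ↥(Z1 (globalLevel T) N)) (v : ↥T) :
    resT T N v (Submodule.Quotient.mk c) = Submodule.Quotient.mk (resZ c v) :=
  rfl

theorem isDisc_res_local (hN : IsDisc (globalLevel T) N) (w : Nat.Primes) :
    IsDisc (localLevel (primeLocalToGlobal w)) (Rep.res (primeLocalToGlobal w) N) :=
  isDisc_res (globalLevel T) (localLevel (primeLocalToGlobal w)) (primeLocalToGlobal w)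
    (isLevelMap_localLevel (primeLocalToGlobal w) T) hN

/-- **Unramified restriction.**  A level-`T` cocycle which is the coboundary of `m` on the
inertia group of the distinguished place above `v` restricts to an unramified class at `v`. -/
theorem resT_mem_H1ur_of_inertia (hN : IsDisc (globalLevel T) N)
    (c : ↥(Z1 (globalLevel T) N)) (v : ↥T) (m : N)
    (h : ∀ σ ∈ (primeLocalPlace v.1).inertiaSubgroupIn ℚ, (c : GQ → N) σ = N.ρ σ m - m) :
    resT T N v (Submodule.Quotient.mk c) ∈ H1ur v.1 (Rep.res (primeLocalToGlobal v.1) N) := by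
  rw [resT_mk]
  exact Fermat.Agent.S56.GW.UrRam.mk_mem_H1ur_of_inertia (resZ c v) m
    (fun ι hι => h (primeLocalToGlobal v.1 ι) hι)
    (Fermat.Agent.S56.GW.UrRam.d₀₁_mem_C1_localLevel (isDisc_res_local hN v.1) m)

/-- **Restriction with values in a submodule.**  If `c ∘ r_v` is, up to the coboundary of `m`,
of the form `i ∘ s` for an injective morphism `i : U ⟶ N|Γ_v`, then the restriction at `v` of
the class of `c` is in the image of `H¹(Γ_v, U)`. -/
theorem resT_mem_range_H1map (hN : IsDisc (globalLevel T) N)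
    (c : ↥(Z1 (globalLevel T) N)) (v : ↥T)
    {U : Rep.{0} k (primeLocalGaloisGroup v.1)} (i : U ⟶ Rep.res (primeLocalToGlobal v.1) N)
    (hi : Function.Injective i.hom) (m : N) (s : primeLocalGaloisGroup v.1 → U)
    (h : ∀ g : primeLocalGaloisGroup v.1, (c : GQ → N) (primeLocalToGlobal v.1 g)
      = N.ρ (primeLocalToGlobal v.1 g) m - m + i.hom (s g)) :
    resT T N v (Submodule.Quotient.mk c)
      ∈ LinearMap.range (H1map (localLevel (primeLocalToGlobal v.1)) i) := by
  have hdisc := isDisc_res_local hN v.1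
  -- `i ∘ s = res c - d m`
  have hcs : cmap₁ i s = (resZ c v : primeLocalGaloisGroup v.1 → Rep.res (primeLocalToGlobal v.1) N)
      - (d₀₁ (Rep.res (primeLocalToGlobal v.1) N)).hom m := by
    funext g
    rw [cmap₁_apply, Pi.sub_apply, d₀₁_hom_apply, eq_sub_iff_add_eq, add_comm]
    exact (h g).symm
  have hZ : cmap₁ i s ∈ Z1 (localLevel (primeLocalToGlobal v.1))
      (Rep.res (primeLocalToGlobal v.1) N) := by
    rw [hcs]
    exact Submodule.sub_mem _ (resZ c v).2
      ⟨Fermat.Agent.S56.GW.UrRam.d₀₁_mem_C1_localLevel hdisc m,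
        coboundaries₁_le_cocycles₁ (Rep.res (primeLocalToGlobal v.1) N) ⟨m, rfl⟩⟩
  -- `s` is a level cocycle
  have hs : s ∈ Z1 (localLevel (primeLocalToGlobal v.1)) U := by
    refine ⟨?_, ?_⟩
    · obtain ⟨V, hV, hVs⟩ := hZ.1
      refine ⟨V, hV, fun g x hx => hi ?_⟩
      have h3 := hVs g x hx
      simp only [cmap₁_apply] at h3
      exact h3
    · have h2 := (mem_cocycles₁_iff (cmap₁ i s)).1 hZ.2
      refine (mem_cocycles₁_iff s).2 fun g g' => hi ?_
      have h3 := h2 g g'
      simp only [cmap₁_apply] at h3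
      rw [map_add, Rep.hom_comm_apply]
      exact h3
  refine ⟨Submodule.Quotient.mk ⟨s, hs⟩, ?_⟩
  rw [resT_mk]
  show (Submodule.Quotient.mk ⟨cmap₁ i s, hZ⟩ :
      Abs.H1 (localLevel (primeLocalToGlobal v.1)) (Rep.res (primeLocalToGlobal v.1) N))
    = Submodule.Quotient.mk (resZ c v)
  refine (Submodule.Quotient.eq _).2 ?_
  refine ⟨-m, ?_⟩
  rw [map_neg]
  simp [hcs]

end Generic

section Data

variable {p : ℕ} [Fact p.Prime] {T : Finset Nat.Primes} {N : Rep.{0} (ZMod p) GQ}

/-- `hur` of `GW/Numeric.finrank_le_card_mul`, from a coboundary on inertia. -/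
theorem r1_mem_H1ur_of_inertia (hpT : pPrime p ∈ T) (invT : InvS p T)
    (hN : IsDisc (globalLevel T) N) (c : ↥(Z1 (globalLevel T) N)) (v : ↥T) (m : N)
    (h : ∀ σ ∈ (primeLocalPlace v.1).inertiaSubgroupIn ℚ, (c : GQ → N) σ = N.ρ σ m - m) :
    (dataS p T hpT invT).r1 N v (Submodule.Quotient.mk c)
      ∈ H1ur v.1 (Rep.res (primeLocalToGlobal v.1) N) :=
  resT_mem_H1ur_of_inertia hN c v m h

/-- The image of a space of classes under the restriction at `v` lies in the image of
`H¹(Γ_v, U)` as soon as every class has a representative which is, up to a coboundary, of the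
form `i ∘ s` on the local group. -/
theorem map_r1_le_range_H1map (hpT : pPrime p ∈ T) (invT : InvS p T)
    (hN : IsDisc (globalLevel T) N) (v : ↥T)
    {U : Rep.{0} (ZMod p) (primeLocalGaloisGroup v.1)}
    (i : U ⟶ Rep.res (primeLocalToGlobal v.1) N) (hi : Function.Injective i.hom)
    (W : Submodule (ZMod p) (Abs.H1 (globalLevel T) N))
    (hW : ∀ x ∈ W, ∃ (c : ↥(Z1 (globalLevel T) N)) (m : N)
      (s : primeLocalGaloisGroup v.1 → U), Submodule.Quotient.mk c = x ∧
        ∀ g : primeLocalGaloisGroup v.1, (c : GQ → N) (primeLocalToGlobal v.1 g)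
          = N.ρ (primeLocalToGlobal v.1 g) m - m + i.hom (s g)) :
    W.map ((dataS p T hpT invT).r1 N v)
      ≤ LinearMap.range (H1map (localLevel (primeLocalToGlobal v.1)) i) := by
  rintro _ ⟨x, hx, rfl⟩
  obtain ⟨c, m, s, rfl, h⟩ := hW x hx
  exact resT_mem_range_H1map hN c v i hi m s h

/-- Dimension form: the image of `W` at `v` is no bigger than the image of `H¹(Γ_v, U)`. -/
theorem finrank_map_r1_le (hpT : pPrime p ∈ T) (invT : InvS p T)
    (hN : IsDisc (globalLevel T) N) (v : ↥T)
    {U : Rep.{0} (ZMod p) (primeLocalGaloisGroup v.1)}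
    (i : U ⟶ Rep.res (primeLocalToGlobal v.1) N) (hi : Function.Injective i.hom)
    (W : Submodule (ZMod p) (Abs.H1 (globalLevel T) N))
    (hW : ∀ x ∈ W, ∃ (c : ↥(Z1 (globalLevel T) N)) (m : N)
      (s : primeLocalGaloisGroup v.1 → U), Submodule.Quotient.mk c = x ∧
        ∀ g : primeLocalGaloisGroup v.1, (c : GQ → N) (primeLocalToGlobal v.1 g)
          = N.ρ (primeLocalToGlobal v.1 g) m - m + i.hom (s g))
    [Module.Finite (ZMod p)
      ↥(LinearMap.range (H1map (localLevel (primeLocalToGlobal v.1)) i))] :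
    Module.finrank (ZMod p) ↥(W.map ((dataS p T hpT invT).r1 N v))
      ≤ Module.finrank (ZMod p)
          ↥(LinearMap.range (H1map (localLevel (primeLocalToGlobal v.1)) i)) :=
  Submodule.finrank_mono (map_r1_le_range_H1map hpT invT hN v i hi W hW)

end Data

end Fermat.Agent.S56.Loc.LocWrap
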