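import Mathlib

/-!
# S56, local brick LM (core): unipotent lifts are inner on tame inertia

Level-free linear algebra (helper48).  `k` a field of characteristic `p ≠ 2`, `V` a `k`-vector
space of dimension `2`, `J` a group (the inertia group at a prime `q ≠ p`), `r : J →* End V`
(the residual representation on `J`) and `d : J → End V` a derivation over `r`
(`d (σ τ) = d σ ∘ r τ + r σ ∘ d τ`), so that `σ ↦ r σ + ε d σ` is a lift of `r` to the dual
numbers `k[ε]`.

If the lift is unipotent (`(r σ + ε d σ - 1) ^ 2 = 0`, i.e. `hr` and `hrd`), the image of `J` is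
"cyclic up to `q`-power torsion" (`hcyc`, the finite-level form of the procyclicity of tame
inertia) and `r` is non-trivial on `J`, then `d` is inner on `J`:
`d σ = X ∘ r σ - r σ ∘ X` for one trace-zero `X`.

In cohomological language: the class of the lift restricted to the inertia group is trivial.
-/

set_option autoImplicit false

namespace Fermat.Agent.S56.Loc.UnipCore

variable {k : Type*} [Field k] {V : Type*} [AddCommGroup V] [Module k V]

/-- Powers of `1 + N` for a square-zero endomorphism `N`. -/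
theorem one_add_pow_of_sq_zero (N : Module.End k V) (hN : N * N = 0) (m : ℕ) :
    (1 + N) ^ m = 1 + (m : k) • N := by
  induction m with
  | zero => simp
  | succ m ih =>
    rw [pow_succ, ih, mul_add, mul_one, add_mul, one_mul, smul_mul_assoc, hN, smul_zero,
      add_zero, Nat.cast_succ, add_smul, one_smul, add_assoc]

/-- A unipotent (square-zero minus one) endomorphism whose `m`-th power is `1`, with `m`
invertible in `k`, is `1`. -/
theorem eq_one_of_pow_eq_one (u : Module.End k V) (hu : (u - 1) * (u - 1) = 0) {m : ℕ}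
    (hm : (m : k) ≠ 0) (h : u ^ m = 1) : u = 1 := by
  have h1 : u = 1 + (u - 1) := by abel
  have h2 := one_add_pow_of_sq_zero (u - 1) hu m
  rw [← h1, h] at h2
  have h3 : (m : k) • (u - 1) = 0 := by
    have := h2
    rw [left_eq_add] at this
    exact this
  rcases smul_eq_zero.mp h3 with h4 | h4
  · exact absurd h4 hm
  · exact sub_eq_zero.mp h4

/-- **Linear algebra core.**  In dimension `2` with `2` invertible: if `N ≠ 0`, `N ^ 2 = 0` and
`N D + D N = 0`, then `D = X N - N X` for a trace-zero `X`. -/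
theorem exists_comm_eq (hV : Module.finrank k V = 2) (h2 : (2 : k) ≠ 0)
    (N D : Module.End k V) (hN0 : N ≠ 0) (hN2 : N * N = 0) (hND : N * D + D * N = 0) :
    ∃ X : Module.End k V, LinearMap.trace k V X = 0 ∧ D = X * N - N * X := by
  classical
  -- a vector not killed by `N`
  obtain ⟨v₁, hv₁⟩ : ∃ v₁ : V, N v₁ ≠ 0 := by
    by_contra hcon
    exact hN0 (LinearMap.ext fun v => by
      by_contra hv
      exact hcon ⟨v, by simpa using hv⟩)
  set v₀ : V := N v₁ with hv₀
  have hNv₀ : N v₀ = 0 := by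
    have := congrArg (fun f : Module.End k V => f v₁) hN2
    simpa [Module.End.mul_apply] using this
  -- `(v₀, v₁)` is a basis
  have hli : LinearIndependent k ![v₀, v₁] := by
    rw [LinearIndependent.pair_iff]
    intro s t hst
    have h1 : t • v₀ = 0 := by
      have := congrArg N hst
      rw [map_add, map_smul, map_smul, hNv₀, smul_zero, zero_add, map_zero] at this
      exact this
    have ht : t = 0 := by
      rcases smul_eq_zero.mp h1 with h | h
      · exact h
      · exact absurd h hv₁
    rw [ht, zero_smul, add_zero] at hst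
    rcases smul_eq_zero.mp hst with h | h
    · exact ⟨h, ht⟩
    · exact absurd h hv₁
  let b : Module.Basis (Fin 2) k V :=
    basisOfLinearIndependentOfCardEqFinrank hli (by simp [hV])
  have hb0 : b 0 = v₀ := by
    simp [b, coe_basisOfLinearIndependentOfCardEqFinrank]
  have hb1 : b 1 = v₁ := by
    simp [b, coe_basisOfLinearIndependentOfCardEqFinrank]
  have hrepr : ∀ x : V, x = b.repr x 0 • v₀ + b.repr x 1 • v₁ := by
    intro x
    have := b.sum_repr x
    rw [Fin.sum_univ_two, hb0, hb1] at this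
    exact this.symm
  have hcoord : ∀ s t s' t' : k, s • v₀ + t • v₁ = s' • v₀ + t' • v₁ → s = s' ∧ t = t' := by
    intro s t s' t' h
    have h' : (s - s') • v₀ + (t - t') • v₁ = 0 := by
      rw [sub_smul, sub_smul]
      have : s • v₀ - s' • v₀ + (t • v₁ - t' • v₁) = (s • v₀ + t • v₁) - (s' • v₀ + t' • v₁) := by
        abel
      rw [this, h, sub_self]
    have := (LinearIndependent.pair_iff.mp hli) _ _ h'
    exact ⟨sub_eq_zero.mp this.1, sub_eq_zero.mp this.2⟩
  -- coordinates of `D`
  set a : k := b.repr (D v₀) 0 with ha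
  set c : k := b.repr (D v₀) 1 with hc
  set β : k := b.repr (D v₁) 0 with hβ
  set e : k := b.repr (D v₁) 1 with he
  have hD0 : D v₀ = a • v₀ + c • v₁ := hrepr (D v₀)
  have hD1 : D v₁ = β • v₀ + e • v₁ := hrepr (D v₁)
  have hc0 : c = 0 := by
    have h := congrArg (fun f : Module.End k V => f v₀) hND
    simp only [LinearMap.add_apply, Module.End.mul_apply, LinearMap.zero_apply] at h
    rw [hNv₀, map_zero, add_zero, hD0, map_add, map_smul, map_smul, hNv₀, smul_zero, zero_add]
      at h
    rcases smul_eq_zero.mp h with h | h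
    · exact h
    · exact absurd h hv₁
  have hea : e = -a := by
    have h := congrArg (fun f : Module.End k V => f v₁) hND
    simp only [LinearMap.add_apply, Module.End.mul_apply, LinearMap.zero_apply] at h
    rw [hD1, map_add, map_smul, map_smul, hNv₀, smul_zero, zero_add, ← hv₀, hD0, hc0, zero_smul,
      add_zero, ← add_smul] at h
    rcases smul_eq_zero.mp h with h | h
    · exact eq_neg_of_add_eq_zero_left h
    · exact absurd h hv₁
  rw [hc0, zero_smul, add_zero] at hD0
  rw [hea] at hD1
  -- the endomorphism `X`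
  obtain ⟨h, hh⟩ : ∃ h : k, h + h = β := ⟨β / 2, by field_simp; ring⟩
  let X : Module.End k V := b.constr k ![h • v₀ + (-a) • v₁, (-h) • v₁]
  have hX0 : X v₀ = h • v₀ + (-a) • v₁ := by
    have h0 : X (b 0) = h • v₀ + (-a) • v₁ := by simp [X]
    rwa [hb0] at h0
  have hX1 : X v₁ = (-h) • v₁ := by
    have h1 : X (b 1) = (-h) • v₁ := by simp [X]
    rwa [hb1] at h1
  refine ⟨X, ?_, ?_⟩
  · rw [LinearMap.trace_eq_matrix_trace k b X, Matrix.trace_fin_two, LinearMap.toMatrix_apply,
      LinearMap.toMatrix_apply, hb0, hb1, hX0, hX1]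
    have e0 : b.repr (h • v₀ + (-a) • v₁) 0 = h := by
      have h' := hrepr (h • v₀ + (-a) • v₁)
      exact ((hcoord _ _ _ _ h').1).symm
    have e1 : b.repr ((-h) • v₁) 1 = -h := by
      have h' := hrepr ((-h) • v₁)
      have h'' : (0 : k) • v₀ + (-h) • v₁
          = b.repr ((-h) • v₁) 0 • v₀ + b.repr ((-h) • v₁) 1 • v₁ := by
        rw [zero_smul, zero_add]; exact h'
      exact ((hcoord _ _ _ _ h'').2).symm
    rw [e0, e1, add_neg_cancel]
  · refine b.ext fun i => ?_
    fin_cases i
    · show D (b 0) = (X * N - N * X) (b 0)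
      rw [hb0, LinearMap.sub_apply, Module.End.mul_apply, Module.End.mul_apply, hNv₀, map_zero,
        hX0, map_add, map_smul, map_smul, hNv₀, smul_zero, zero_add, ← hv₀, hD0, zero_sub,
        ← neg_smul, neg_neg]
    · show D (b 1) = (X * N - N * X) (b 1)
      rw [hb1, LinearMap.sub_apply, Module.End.mul_apply, Module.End.mul_apply, ← hv₀, hX0, hX1,
        map_smul, ← hv₀, hD1, ← hh]
      module

/-- **LM core.**  A lift `r + ε d` of `r : J →* End V` to the dual numbers which is unipotent,
on a group `J` whose image is cyclic up to `q`-power torsion (`p ∤ q`), with `r` non-trivial,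
is inner: `d σ = X ∘ r σ - r σ ∘ X` with `tr X = 0`. -/
theorem exists_inner_of_unipotent_lift (hV : Module.finrank k V = 2) {p : ℕ} [Fact p.Prime]
    [CharP k p] (hp2 : p ≠ 2) {q : ℕ} (hq : ¬ p ∣ q) {J : Type*} [Group J]
    (r : J →* Module.End k V) (d : J → Module.End k V)
    (hd : ∀ σ τ, d (σ * τ) = d σ * r τ + r σ * d τ)
    (hr : ∀ σ, (r σ - 1) * (r σ - 1) = 0)
    (hrd : ∀ σ, (r σ - 1) * d σ + d σ * (r σ - 1) = 0)
    (hcyc : ∃ ι₀ : J, ∀ ι : J, ∃ a n : ℕ,
      r (((ι₀ ^ a)⁻¹ * ι) ^ (q ^ n)) = 1 ∧ d (((ι₀ ^ a)⁻¹ * ι) ^ (q ^ n)) = 0)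
    (hram : ∃ σ, r σ ≠ 1) :
    ∃ X : Module.End k V, LinearMap.trace k V X = 0 ∧ ∀ σ, d σ = X * r σ - r σ * X := by
  have hp : p.Prime := Fact.out
  have h2 : (2 : k) ≠ 0 := by
    intro h
    have h' : ((2 : ℕ) : k) = 0 := by exact_mod_cast h
    rw [CharP.cast_eq_zero_iff k p] at h'
    exact hp2 ((Nat.prime_dvd_prime_iff_eq hp Nat.prime_two).mp h')
  have hqk : ∀ n : ℕ, ((q ^ n : ℕ) : k) ≠ 0 := by
    intro n h
    rw [CharP.cast_eq_zero_iff k p] at h
    exact hq (hp.dvd_of_dvd_pow h)
  have hd1 : d 1 = 0 := by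
    have h := hd 1 1
    rw [mul_one, map_one, mul_one, one_mul] at h
    exact left_eq_add.mp h
  -- derivations on powers of an element acting trivially
  have hdpow : ∀ w : J, r w = 1 → ∀ m : ℕ, d (w ^ m) = (m : k) • d w := by
    intro w hw m
    induction m with
    | zero => simp [hd1]
    | succ m ih =>
      rw [pow_succ, hd, ih, hw, mul_one, map_pow, hw, one_pow, one_mul, Nat.cast_succ, add_smul,
        one_smul]
  obtain ⟨ι₀, hι₀⟩ := hcyc
  -- every element is a power of `ι₀` as far as `r` and `d` can see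
  have hred : ∀ ι : J, ∃ a : ℕ, r ι = r ι₀ ^ a ∧ d ι = d (ι₀ ^ a) := by
    intro ι
    obtain ⟨a, n, h1, h2⟩ := hι₀ ι
    set w : J := (ι₀ ^ a)⁻¹ * ι with hw
    have hrw : r w = 1 := by
      refine eq_one_of_pow_eq_one (r w) (hr w) (hqk n) ?_
      rw [← map_pow]; exact h1
    have hdw : d w = 0 := by
      have h3 := hdpow w hrw (q ^ n)
      rw [h2] at h3
      rcases smul_eq_zero.mp h3.symm with h | h
      · exact absurd h (hqk n)
      · exact h
    have hι : ι = ι₀ ^ a * w := by rw [hw, mul_inv_cancel_left]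
    refine ⟨a, ?_, ?_⟩
    · rw [hι, map_mul, hrw, mul_one, map_pow]
    · rw [hι, hd, hrw, mul_one, hdw, mul_zero, add_zero]
  set u : Module.End k V := r ι₀ with hu
  have hN0 : u - 1 ≠ 0 := by
    intro h
    have hu1 : u = 1 := sub_eq_zero.mp h
    obtain ⟨σ, hσ⟩ := hram
    obtain ⟨a, ha, -⟩ := hred σ
    rw [hu1, one_pow] at ha
    exact hσ ha
  obtain ⟨X, hXtr, hX⟩ := exists_comm_eq hV h2 (u - 1) (d ι₀) hN0 (hr ι₀) (hrd ι₀)
  have hX' : d ι₀ = X * u - u * X := by
    rw [hX]; noncomm_ring
  have hpow : ∀ a : ℕ, d (ι₀ ^ a) = X * u ^ a - u ^ a * X := by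
    intro a
    induction a with
    | zero => simp [hd1]
    | succ a ih =>
      rw [pow_succ, hd, ih, map_pow, ← hu, hX', pow_succ]
      noncomm_ring
  refine ⟨X, hXtr, fun σ => ?_⟩
  obtain ⟨a, ha, ha'⟩ := hred σ
  rw [ha', hpow a, ha]

end Fermat.Agent.S56.Loc.UnipCore
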