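import Mathlib
import Fermat.Agent.S56.Loc.UnipCore

/-!
# S56, local brick LM: the core for matrices over the dual numbers

(helper48.)  `k` a field of characteristic `p ≠ 2`, `m : J →* M₂(k[ε])` a matrix representation
of a group `J` over the dual numbers `k[ε] = DualNumber k`.  Write `m σ = re (m σ) + ε im (m σ)`.

`exists_inner_of_unipotent_dual`: if every `m σ` is unipotent (`(m σ - 1) ^ 2 = 0`), the image
of `J` is cyclic up to `q`-power torsion (`p ∤ q`) and `re ∘ m` is non-trivial, then there is a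
trace-zero `X ∈ M₂(k)` with `im (m σ) = X * re (m σ) - re (m σ) * X` for all `σ`, i.e.
`m σ = (1 + ε X) * re (m σ) * (1 + ε X)⁻¹`: the lift `m` of `re ∘ m` is trivial on `J`.
-/

set_option autoImplicit false
set_option linter.unusedSectionVars false

namespace Fermat.Agent.S56.Loc.UnipDual

open Fermat.Agent.S56.Loc.UnipCore

variable {k : Type*} [Field k]

/-- The constant part of a matrix over the dual numbers. -/
def re (A : Matrix (Fin 2) (Fin 2) (DualNumber k)) : Matrix (Fin 2) (Fin 2) k :=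
  A.map TrivSqZeroExt.fst

/-- The `ε`-part of a matrix over the dual numbers. -/
def im (A : Matrix (Fin 2) (Fin 2) (DualNumber k)) : Matrix (Fin 2) (Fin 2) k :=
  A.map TrivSqZeroExt.snd

theorem re_apply (A : Matrix (Fin 2) (Fin 2) (DualNumber k)) (i j : Fin 2) :
    re A i j = (A i j).fst := rfl

theorem im_apply (A : Matrix (Fin 2) (Fin 2) (DualNumber k)) (i j : Fin 2) :
    im A i j = (A i j).snd := rfl

theorem ext_re_im {A B : Matrix (Fin 2) (Fin 2) (DualNumber k)} (h1 : re A = re B)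
    (h2 : im A = im B) : A = B := by
  ext i j
  · exact congrFun (congrFun h1 i) j
  · exact congrFun (congrFun h2 i) j

@[simp] theorem re_one : re (1 : Matrix (Fin 2) (Fin 2) (DualNumber k)) = 1 := by
  ext i j
  rw [re_apply, Matrix.one_apply, Matrix.one_apply]
  split_ifs <;> simp

@[simp] theorem im_one : im (1 : Matrix (Fin 2) (Fin 2) (DualNumber k)) = 0 := by
  ext i j
  rw [im_apply, Matrix.one_apply]
  split_ifs <;> simp

@[simp] theorem re_zero : re (0 : Matrix (Fin 2) (Fin 2) (DualNumber k)) = 0 := by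
  ext i j
  simp [re_apply]

@[simp] theorem im_zero : im (0 : Matrix (Fin 2) (Fin 2) (DualNumber k)) = 0 := by
  ext i j
  simp [im_apply]

theorem re_sub (A B : Matrix (Fin 2) (Fin 2) (DualNumber k)) : re (A - B) = re A - re B := by
  ext i j
  simp [re_apply]

theorem im_sub (A B : Matrix (Fin 2) (Fin 2) (DualNumber k)) : im (A - B) = im A - im B := by
  ext i j
  simp [im_apply]

theorem re_mul (A B : Matrix (Fin 2) (Fin 2) (DualNumber k)) : re (A * B) = re A * re B := by
  ext i j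
  simp [re_apply, Matrix.mul_apply, Fin.sum_univ_two]

theorem im_mul (A B : Matrix (Fin 2) (Fin 2) (DualNumber k)) :
    im (A * B) = re A * im B + im A * re B := by
  ext i j
  simp only [im_apply, re_apply, Matrix.mul_apply, Matrix.add_apply, Fin.sum_univ_two,
    TrivSqZeroExt.snd_add, TrivSqZeroExt.snd_mul, smul_eq_mul, MulOpposite.smul_eq_mul_unop,
    MulOpposite.unop_op]
  ring

/-- **LM core, dual-number matrices.** -/
theorem exists_inner_of_unipotent_dual {p : ℕ} [Fact p.Prime] [CharP k p] (hp2 : p ≠ 2) {q : ℕ}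
    (hq : ¬ p ∣ q) {J : Type*} [Group J] (m : J →* Matrix (Fin 2) (Fin 2) (DualNumber k))
    (hm : ∀ σ, (m σ - 1) * (m σ - 1) = 0)
    (hcyc : ∃ ι₀ : J, ∀ ι : J, ∃ a n : ℕ, m (((ι₀ ^ a)⁻¹ * ι) ^ (q ^ n)) = 1)
    (hram : ∃ σ, re (m σ) ≠ 1) :
    ∃ X : Matrix (Fin 2) (Fin 2) k, X.trace = 0 ∧
      ∀ σ, im (m σ) = X * re (m σ) - re (m σ) * X := by
  let e : Matrix (Fin 2) (Fin 2) k ≃ₐ[k] Module.End k (Fin 2 → k) := Matrix.toLinAlgEquiv'
  let r : J →* Module.End k (Fin 2 → k) :=
    { toFun := fun σ => e (re (m σ))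
      map_one' := by rw [map_one, re_one, map_one]
      map_mul' := fun σ τ => by rw [map_mul, re_mul, map_mul] }
  let d : J → Module.End k (Fin 2 → k) := fun σ => e (im (m σ))
  have hr_apply : ∀ σ, r σ = e (re (m σ)) := fun σ => rfl
  have hd_apply : ∀ σ, d σ = e (im (m σ)) := fun σ => rfl
  have hV : Module.finrank k (Fin 2 → k) = 2 := by simp
  have hd : ∀ σ τ, d (σ * τ) = d σ * r τ + r σ * d τ := by
    intro σ τ
    rw [hd_apply, hd_apply, hd_apply, hr_apply, hr_apply, map_mul, im_mul, map_add, map_mul,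
      map_mul, add_comm]
  have hr : ∀ σ, (r σ - 1) * (r σ - 1) = 0 := by
    intro σ
    have h := congrArg re (hm σ)
    rw [re_mul, re_sub, re_one, re_zero] at h
    rw [hr_apply, ← map_one e, ← map_sub, ← map_mul, h, map_zero]
  have hrd : ∀ σ, (r σ - 1) * d σ + d σ * (r σ - 1) = 0 := by
    intro σ
    have h := congrArg im (hm σ)
    rw [im_mul, re_sub, im_sub, re_one, im_one, sub_zero, im_zero] at h
    rw [hr_apply, hd_apply, ← map_one e, ← map_sub, ← map_mul, ← map_mul, ← map_add, h, map_zero]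
  have hcyc' : ∃ ι₀ : J, ∀ ι : J, ∃ a n : ℕ,
      r (((ι₀ ^ a)⁻¹ * ι) ^ (q ^ n)) = 1 ∧ d (((ι₀ ^ a)⁻¹ * ι) ^ (q ^ n)) = 0 := by
    obtain ⟨ι₀, h⟩ := hcyc
    refine ⟨ι₀, fun ι => ?_⟩
    obtain ⟨a, n, han⟩ := h ι
    refine ⟨a, n, ?_, ?_⟩
    · rw [hr_apply, han, re_one, map_one]
    · rw [hd_apply, han, im_one, map_zero]
  have hram' : ∃ σ, r σ ≠ 1 := by
    obtain ⟨σ, hσ⟩ := hram
    refine ⟨σ, fun h => hσ ?_⟩
    rw [hr_apply, ← map_one e] at h
    exact e.injective h
  obtain ⟨XE, hXtr, hX⟩ := exists_inner_of_unipotent_lift hV hp2 hq r d hd hr hrd hcyc' hram'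
  obtain ⟨X, rfl⟩ := e.surjective XE
  refine ⟨X, ?_, fun σ => ?_⟩
  · have : LinearMap.trace k (Fin 2 → k) (Matrix.toLin' X) = X.trace := Matrix.trace_toLin'_eq X
    rw [← this]
    exact hXtr
  · have h := hX σ
    rw [hd_apply, hr_apply, ← map_mul, ← map_mul, ← map_sub] at h
    exact e.injective h

end Fermat.Agent.S56.Loc.UnipDual
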