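import Mathlib
import Fermat.Prelude.Def_GaloisRep_StrictOrdinary
import Fermat.Agent.S53.MatRep
import Fermat.Agent.S56.Loc.UnipDual

/-!
# S56, local brick LO: the shape of a strict-ordinary lift to `k[ε]` on the decomposition group

(helper48.)  `k` a field of characteristic `p ≠ 2`, `ρ : GaloisRepAdic (DualNumber k)` with
`ρ.DetIsCyclotomic p` and `ρ.IsStrictOrdinaryAt p`, `b` ANY basis of `ρ.V`,
`M σ := matOfBasis ρ b σ = re (M σ) + ε im (M σ)`, `P` a place of `ℚ̄` over `p`.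

`exists_adapted`: there are `T₀, S₀ ∈ M₂(k)` inverse to each other and `X ∈ M₂(k)` such that for
every `σ` in the decomposition group of `P`

* `re (M σ) = T₀ * !![x₀ σ, β₀ σ; 0, z₀ σ] * S₀`  (upper triangular in the adapted basis),
* `im (M σ) = X * re (M σ) - re (M σ) * X + β₁ σ • (T₀ * E₁₂ * S₀)`,
* `z₀ σ ^ 2 = 1` and `x₀ σ = a * z₀ σ` whenever `σ μ = μ ^ a` on `μ_p`,

and `z₀ σ = 1` on the inertia group.  So, up to the inner derivation of `X`, the `ε`-part of a
strict-ordinary lift takes values in the line `Hom(V/ℓ, ℓ) = k · T₀ E₁₂ S₀` on which the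
decomposition group acts through the cyclotomic character: the deformation class at `p` comes
from `H¹(G_p, k(ω))`.

Why: in the basis adapted to the ordinary line the matrix is `!![x, β; 0, z]`; `x = a z` (the
strict-ordinary clause at `n = 1`, `p = 0` in `k[ε]`) and `x z = det = a` give `z ^ 2 = 1`, hence
`z ∈ {±1} ⊂ k` (as `p ≠ 2`) and `x = a z ∈ k`: the diagonal has no `ε`-part.
-/

set_option autoImplicit false
set_option linter.unusedSectionVars false

namespace Fermat.Agent.S56.Loc.OrdShape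

local notation "Qb" => AlgebraicClosure ℚ
local notation "GQ" => (AlgebraicClosure ℚ ≃ₐ[ℚ] AlgebraicClosure ℚ)

open Fermat.Agent.S53.MatRep Fermat.Agent.S56.Loc.UnipDual IsLocalRing Matrix

variable {k : Type} [Field k]

/-- The elementary matrix `E₁₂`. -/
def e12 : Matrix (Fin 2) (Fin 2) k := !![0, 1; 0, 0]

/-- **Matrix core.**  Conjugating an upper triangular matrix over the dual numbers whose diagonal
has no `ε`-part: the `ε`-part of the conjugate is an inner term plus a multiple of the conjugate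
of `E₁₂`. -/
theorem im_conj (T S ML : Matrix (Fin 2) (Fin 2) (DualNumber k)) (hTS : T * S = 1)
    (hST : S * T = 1) (h10 : (ML 1 0).snd = 0) (h00 : (ML 0 0).snd = 0)
    (h11 : (ML 1 1).snd = 0) :
    im (T * ML * S) = (im T * re S) * re (T * ML * S) - re (T * ML * S) * (im T * re S)
      + (ML 0 1).snd • (re T * e12 * re S) := by
  have h2 : re S * re T = 1 := by rw [← re_mul, hST, re_one]
  have h3 : re T * im S + im T * re S = 0 := by rw [← im_mul, hTS, im_one]
  have h4 : im S = -(re S * im T * re S) := by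
    have : re S * (re T * im S + im T * re S) = 0 := by rw [h3, mul_zero]
    rw [mul_add, ← mul_assoc, h2, one_mul, ← mul_assoc] at this
    exact eq_neg_of_add_eq_zero_left this
  have h5 : im ML = (ML 0 1).snd • e12 := by
    ext i j
    fin_cases i <;> fin_cases j <;> simp [im_apply, e12, h10, h00, h11]
  have h6 : im T * re S * (re T * re ML * re S) = im T * re ML * re S := by
    rw [mul_assoc (im T), ← mul_assoc (re S), ← mul_assoc (re S), h2, one_mul, ← mul_assoc]
  have hre : re (T * ML * S) = re T * re ML * re S := by rw [re_mul, re_mul]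
  have hL : im (T * ML * S) = re T * re ML * im S + (re T * im ML + im T * re ML) * re S := by
    rw [im_mul, re_mul, im_mul]
  rw [hL, hre, h4, h5, h6]
  simp only [mul_neg, add_mul, Matrix.mul_smul, Matrix.smul_mul, mul_assoc]
  abel

/-- The constant part of a conjugate. -/
theorem re_conj (T S ML : Matrix (Fin 2) (Fin 2) (DualNumber k)) :
    re (T * ML * S) = re T * re ML * re S := by
  rw [re_mul, re_mul]

theorem natCast_dual (n : ℕ) : ((n : ℕ) : DualNumber k) = TrivSqZeroExt.inl (n : k) := by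
  ext <;> simp

theorem natCast_p_dual {p : ℕ} [CharP k p] : ((p ^ 1 : ℕ) : DualNumber k) = 0 := by
  rw [pow_one, natCast_dual, CharP.cast_eq_zero k p, TrivSqZeroExt.inl_zero]

/-- A square root of `1` in the dual numbers (`2 ≠ 0`) is a constant. -/
theorem snd_eq_zero_of_mul_self (h2 : (2 : k) ≠ 0) (z : DualNumber k) (hz : z * z = 1) :
    z.snd = 0 ∧ z.fst * z.fst = 1 := by
  have h1 : z.fst * z.fst = 1 := by
    have := congrArg TrivSqZeroExt.fst hz
    rwa [TrivSqZeroExt.fst_mul, TrivSqZeroExt.fst_one] at this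
  have h3 : z.fst * z.snd + z.fst * z.snd = 0 := by
    have := congrArg TrivSqZeroExt.snd hz
    rw [TrivSqZeroExt.snd_mul, TrivSqZeroExt.snd_one] at this
    simpa [mul_comm] using this
  have hz0 : z.fst ≠ 0 := by
    rintro h
    rw [h, zero_mul] at h1
    exact zero_ne_one h1
  have h4 : (2 : k) * (z.fst * z.snd) = 0 := by rw [two_mul]; exact h3
  rcases mul_eq_zero.mp h4 with h | h
  · exact absurd h h2
  · rcases mul_eq_zero.mp h with h' | h'
    · exact absurd h' hz0
    · exact ⟨h', h1⟩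

/-- The cyclotomic exponent of `σ` on `μ_p`. -/
theorem exists_cyclo_exp {p : ℕ} [Fact p.Prime] {ζ : Qb} (hζ : IsPrimitiveRoot ζ p) (σ : GQ) :
    ∃ a : ℕ, ¬ p ∣ a ∧ σ ζ = ζ ^ a ∧ ∀ μ : Qb, μ ^ p = 1 → σ μ = μ ^ a := by
  have hp : p.Prime := Fact.out
  have hσζ : IsPrimitiveRoot (σ ζ) p := hζ.map_of_injective σ.injective
  obtain ⟨a, -, ha⟩ := hζ.eq_pow_of_pow_eq_one hσζ.pow_eq_one
  refine ⟨a, ?_, ha.symm, ?_⟩
  · intro hdvd
    obtain ⟨c, rfl⟩ := hdvd
    rw [pow_mul, hζ.pow_eq_one, one_pow] at ha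
    exact hσζ.ne_one hp.one_lt ha.symm
  · intro μ hμ
    obtain ⟨j, -, rfl⟩ := hζ.eq_pow_of_pow_eq_one hμ
    rw [map_pow, ← ha, ← pow_mul, ← pow_mul, mul_comm]

/-- **LO, adapted form.** -/
theorem exists_adapted {p : ℕ} [Fact p.Prime] [CharP k p] (hp2 : p ≠ 2)
    (ρ : GaloisRepAdic (DualNumber k)) (b : Module.Basis (Fin 2) (DualNumber k) ρ.V)
    (hdet : ρ.DetIsCyclotomic p) (hso : ρ.IsStrictOrdinaryAt p)
    (P : ValuationSubring Qb) (hP : P.LiesOverPrime p) :
    ∃ (T₀ S₀ X : Matrix (Fin 2) (Fin 2) k) (x₀ z₀ β₀ β₁ : GQ → k),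
      T₀ * S₀ = 1 ∧ S₀ * T₀ = 1 ∧
      (∀ σ ∈ P.decompositionSubgroup ℚ,
        re (matOfBasis ρ b σ) = T₀ * !![x₀ σ, β₀ σ; 0, z₀ σ] * S₀ ∧
        im (matOfBasis ρ b σ) = X * re (matOfBasis ρ b σ) - re (matOfBasis ρ b σ) * X
          + β₁ σ • (T₀ * e12 * S₀) ∧
        z₀ σ * z₀ σ = 1 ∧
        ∀ a : ℕ, (∀ μ : Qb, μ ^ p = 1 → σ μ = μ ^ a) → x₀ σ = (a : k) * z₀ σ) ∧
      ∀ σ ∈ P.inertiaSubgroupIn ℚ, z₀ σ = 1 := by
  classical
  have hp : p.Prime := Fact.out
  have h2 : (2 : k) ≠ 0 := by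
    intro h
    have h' : ((2 : ℕ) : k) = 0 := by exact_mod_cast h
    rw [CharP.cast_eq_zero_iff k p] at h'
    exact hp2 ((Nat.prime_dvd_prime_iff_eq hp Nat.prime_two).mp h')
  obtain ⟨ζ, hζ⟩ : ∃ ζ : Qb, IsPrimitiveRoot ζ p :=
    HasEnoughRootsOfUnity.exists_primitiveRoot Qb p
  obtain ⟨L, ⟨bL, hL⟩, -, hI, hxz⟩ := hso.2 P hP
  set T : Matrix (Fin 2) (Fin 2) (DualNumber k) := b.toMatrix bL with hT
  set S : Matrix (Fin 2) (Fin 2) (DualNumber k) := bL.toMatrix b with hS
  have hTS : T * S = 1 := Module.Basis.toMatrix_mul_toMatrix_flip b bL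
  have hST : S * T = 1 := Module.Basis.toMatrix_mul_toMatrix_flip bL b
  have hM : ∀ σ : GQ, matOfBasis ρ b σ = T * matOfBasis ρ bL σ * S := by
    intro σ
    rw [matOfBasis_eq_toMatrix, matOfBasis_eq_toMatrix]
    exact (basis_toMatrix_mul_linearMap_toMatrix_mul_basis_toMatrix b bL b bL (ρ.ρ σ)).symm
  -- membership in the line
  have hLmem : ∀ v : ρ.V, v ∈ L → bL.repr v 1 = 0 := by
    intro v hv
    rw [hL, Submodule.mem_span_singleton] at hv
    obtain ⟨c, rfl⟩ := hv
    simp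
  have hb0L : bL 0 ∈ L := by rw [hL]; exact Submodule.mem_span_singleton_self _
  -- the shape of the matrices on the decomposition group
  have hshape : ∀ σ ∈ P.decompositionSubgroup ℚ,
      matOfBasis ρ bL σ 1 0 = 0 ∧ (matOfBasis ρ bL σ 0 0).snd = 0 ∧
      (matOfBasis ρ bL σ 1 1).snd = 0 ∧
      (matOfBasis ρ bL σ 1 1).fst * (matOfBasis ρ bL σ 1 1).fst = 1 ∧
      ∀ a : ℕ, (∀ μ : Qb, μ ^ p = 1 → σ μ = μ ^ a) →
        (matOfBasis ρ bL σ 0 0).fst = (a : k) * (matOfBasis ρ bL σ 1 1).fst := by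
    intro σ hσ
    obtain ⟨x, z, hx, hz, hcyc⟩ := hxz σ hσ
    have e00 : matOfBasis ρ bL σ 0 0 = x := by
      rw [matOfBasis_apply, hx _ hb0L]; simp
    have e10 : matOfBasis ρ bL σ 1 0 = 0 := by
      rw [matOfBasis_apply, hx _ hb0L]; simp
    have e11 : matOfBasis ρ bL σ 1 1 = z := by
      rw [matOfBasis_apply]
      have h := hLmem _ (hz (bL 1))
      rw [map_sub, Finsupp.sub_apply, sub_eq_zero] at h
      rw [h]; simp
    have hxa : ∀ a : ℕ, (∀ μ : Qb, μ ^ p = 1 → σ μ = μ ^ a) → x = (a : DualNumber k) * z := by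
      intro a ha
      have h := hcyc 1 a (by simpa using ha)
      rw [natCast_p_dual, Ideal.span_singleton_zero, Ideal.mem_bot, sub_eq_zero] at h
      exact h
    obtain ⟨a, hpa, -, ha⟩ := exists_cyclo_exp hζ σ
    have hak : (a : k) ≠ 0 := by
      intro h
      rw [CharP.cast_eq_zero_iff k p] at h
      exact hpa h
    have hdet' : x * z = (a : DualNumber k) := by
      have h := hdet.2 1 σ a (by simpa using ha)
      rw [natCast_p_dual, Ideal.span_singleton_zero, Ideal.mem_bot, sub_eq_zero] at h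
      rw [← h, ← LinearMap.det_toMatrix bL, ← matOfBasis_eq_toMatrix, Matrix.det_fin_two, e00,
        e11, e10, mul_zero, sub_zero]
    have hzz : z * z = 1 := by
      have h := hdet'
      rw [hxa a ha, mul_assoc] at h
      have hunit : IsUnit ((a : ℕ) : DualNumber k) := by
        rw [natCast_dual, TrivSqZeroExt.isUnit_iff_isUnit_fst, TrivSqZeroExt.fst_inl]
        exact isUnit_iff_ne_zero.mpr hak
      have h' : ((a : ℕ) : DualNumber k) * (z * z) = (a : DualNumber k) * 1 := by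
        rw [h, mul_one]
      exact hunit.mul_left_cancel h'
    obtain ⟨hz1, hz0⟩ := snd_eq_zero_of_mul_self h2 z hzz
    refine ⟨e10, ?_, ?_, ?_, ?_⟩
    · rw [e00, hxa a ha, natCast_dual, TrivSqZeroExt.snd_mul, TrivSqZeroExt.snd_inl, hz1]
      simp
    · rw [e11, hz1]
    · rw [e11, hz0]
    · intro a' ha'
      rw [e00, e11, hxa a' ha', natCast_dual, TrivSqZeroExt.fst_mul, TrivSqZeroExt.fst_inl]
  refine ⟨re T, re S, im T * re S, fun σ => (matOfBasis ρ bL σ 0 0).fst,
    fun σ => (matOfBasis ρ bL σ 1 1).fst, fun σ => (matOfBasis ρ bL σ 0 1).fst,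
    fun σ => (matOfBasis ρ bL σ 0 1).snd, ?_, ?_, ?_, ?_⟩
  · rw [← re_mul, hTS, re_one]
  · rw [← re_mul, hST, re_one]
  · intro σ hσ
    obtain ⟨e10, e00, e11, hzz, hxa⟩ := hshape σ hσ
    refine ⟨?_, ?_, hzz, hxa⟩
    · rw [hM σ, re_conj]
      congr 2
      ext i j
      fin_cases i <;> fin_cases j <;> simp [re_apply, e10]
    · rw [hM σ]
      exact im_conj T S (matOfBasis ρ bL σ) hTS hST (by rw [e10]; rfl) e00 e11
  · intro σ hσ
    have h := hLmem _ (hI σ hσ (bL 1))
    rw [map_sub, Finsupp.sub_apply, sub_eq_zero] at h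
    have e11 : matOfBasis ρ bL σ 1 1 = 1 := by
      rw [matOfBasis_apply, h]; simp
    show (matOfBasis ρ bL σ 1 1).fst = 1
    rw [e11, TrivSqZeroExt.fst_one]

end Fermat.Agent.S56.Loc.OrdShape
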