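import Mathlib
import Fermat.Agent.S56.Loc.OrdShape

/-!
# S56, local brick LO: the canonical line of a strict-ordinary lift

(helper48.)  Setting of `OrdShape`: `ρ : GaloisRepAdic (DualNumber k)` strict-ordinary at `p`
with cyclotomic determinant, `b` any basis, `M σ := matOfBasis ρ b σ`, `P` a place over `p`.

Let `σ₀` be an element of the inertia group of `P` acting non-trivially on `μ_p` and `u ≠ 0` a
vector in the range of `re (M σ₀) - 1` (so `u` is determined, up to a scalar, by the RESIDUAL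
matrices `re ∘ M` alone).  `nil u` is the nilpotent matrix with range and kernel `k · u`.

`exists_canonical`: there are a trace-zero `X ∈ M₂(k)` and functions `β, z₀` with, for every `σ`
in the decomposition group of `P`,

* `im (M σ) = X * re (M σ) - re (M σ) * X + β σ • nil u`,
* `z₀ σ ^ 2 = 1`, `nil u * re (M σ) = z₀ σ • nil u`, and
  `re (M σ) * nil u = (a * z₀ σ) • nil u` whenever `σ μ = μ ^ a` on `μ_p`.

Hence all strict-ordinary lifts with the same residual matrices have, after an inner change,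
their cocycles `σ ↦ im (M σ) * (re (M σ))⁻¹` on the decomposition group with values in the SAME
line `k · nil u`, on which `σ` acts (by conjugation through `re (M σ)`) by the mod-`p` cyclotomic
character.
-/

set_option autoImplicit false
set_option linter.unusedSectionVars false

namespace Fermat.Agent.S56.Loc.OrdCanon

local notation "Qb" => AlgebraicClosure ℚ
local notation "GQ" => (AlgebraicClosure ℚ ≃ₐ[ℚ] AlgebraicClosure ℚ)

open Fermat.Agent.S53.MatRep Fermat.Agent.S56.Loc.UnipDual Fermat.Agent.S56.Loc.OrdShape Matrix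

variable {k : Type} [Field k]

/-- The nilpotent matrix with range and kernel `k · u`. -/
def nil (u : Fin 2 → k) : Matrix (Fin 2) (Fin 2) k := vecMulVec u ![-(u 1), u 0]

theorem nil_apply (u : Fin 2 → k) (i j : Fin 2) : nil u i j = u i * (![-(u 1), u 0] : Fin 2 → k) j :=
  rfl

theorem nil_mulVec (u v : Fin 2 → k) : nil u *ᵥ v = (u 0 * v 1 - u 1 * v 0) • u := by
  ext i
  fin_cases i <;> simp [nil, Matrix.mulVec, dotProduct, vecMulVec_apply, Fin.sum_univ_two] <;> ring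

theorem nil_mulVec_self (u : Fin 2 → k) : nil u *ᵥ u = 0 := by
  rw [nil_mulVec, mul_comm, sub_self, zero_smul]

theorem nil_mul_nil (u : Fin 2 → k) : nil u * nil u = 0 := by
  ext i j
  fin_cases i <;> fin_cases j <;>
    simp [nil, Matrix.mul_apply, vecMulVec_apply, Fin.sum_univ_two] <;> ring

theorem vecMulVec_eq_smul_nil_aux (t s u : Fin 2 → k) (c γ : k) (ht : t = c⁻¹ • u)
    (hγ0 : s 0 = γ * -(u 1)) (hγ1 : s 1 = γ * u 0) : vecMulVec t s = (c⁻¹ * γ) • nil u := by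
  ext i j
  rw [vecMulVec_apply, Matrix.smul_apply, nil_apply, ht, Pi.smul_apply, smul_eq_mul, smul_eq_mul]
  fin_cases j
  · simp only [Fin.zero_eta, Matrix.cons_val_zero]
    rw [hγ0]; ring
  · simp only [Fin.mk_one, Matrix.cons_val_one, Matrix.cons_val_zero]
    rw [hγ1]; ring

/-- A rank-one matrix `t ⊗ s` with `s ⬝ t = 0` is a multiple of `nil u` for `u = c • t`,
`c ≠ 0`. -/
theorem vecMulVec_eq_smul_nil (t s u : Fin 2 → k) (c : k) (hc : c ≠ 0) (hu : u = c • t)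
    (hst : s 0 * t 0 + s 1 * t 1 = 0) : ∃ κ : k, vecMulVec t s = κ • nil u := by
  have ht : t = c⁻¹ • u := by rw [hu, smul_smul, inv_mul_cancel₀ hc, one_smul]
  have hsu : s 0 * u 0 + s 1 * u 1 = 0 := by
    rw [hu]
    simp only [Pi.smul_apply, smul_eq_mul]
    linear_combination c * hst
  by_cases h0 : u 0 = 0
  · by_cases h1 : u 1 = 0
    · refine ⟨0, ?_⟩
      have hu0 : u = 0 := by
        ext i
        fin_cases i
        · exact h0
        · exact h1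
      rw [ht, hu0, smul_zero, zero_smul]
      ext i j
      simp [vecMulVec_apply]
    · have hs1 : s 1 = 0 := by
        rw [h0, mul_zero, zero_add] at hsu
        exact (mul_eq_zero.mp hsu).resolve_right h1
      refine ⟨c⁻¹ * (-(s 0) / u 1), vecMulVec_eq_smul_nil_aux t s u c _ ht ?_ ?_⟩
      · field_simp
      · rw [h0, mul_zero, hs1]
  · refine ⟨c⁻¹ * (s 1 / u 0), vecMulVec_eq_smul_nil_aux t s u c _ ht ?_ ?_⟩
    · field_simp
      linear_combination hsu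
    · field_simp

/-- The relation `ζ ^ a = ζ` for a primitive `p`-th root of unity and `(a : k) = 1` in
characteristic `p`. -/
theorem pow_eq_self_of_cast_eq_one {p : ℕ} [Fact p.Prime] [CharP k p] {ζ : Qb}
    (hζ : IsPrimitiveRoot ζ p) {a : ℕ} (ha : (a : k) = 1) : ζ ^ a = ζ := by
  have h1 : (a : k) = ((1 : ℕ) : k) := by rw [ha, Nat.cast_one]
  have h2 : a ≡ 1 [MOD p] := (CharP.natCast_eq_natCast k p).mp h1
  have h3 : ζ ^ a = ζ ^ 1 := by
    rw [pow_eq_pow_mod a hζ.pow_eq_one, pow_eq_pow_mod 1 hζ.pow_eq_one]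
    exact congrArg (fun n : ℕ => ζ ^ n) h2
  rw [h3, pow_one]

/-- **LO, canonical form, with a complement.**  Besides the canonical line `k · nil u` the
statement produces a trace-zero `H` with `H * H = 1` (so `H ∉ k · nil u`) whose commutator with
every `re (M σ)`, `σ` in the decomposition group, lies in `k · nil u`. -/
theorem exists_canonical_full {p : ℕ} [Fact p.Prime] [CharP k p] (hp2 : p ≠ 2)
    (ρ : GaloisRepAdic (DualNumber k)) (b : Module.Basis (Fin 2) (DualNumber k) ρ.V)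
    (hdet : ρ.DetIsCyclotomic p) (hso : ρ.IsStrictOrdinaryAt p)
    (P : ValuationSubring Qb) (hP : P.LiesOverPrime p)
    {ζ : Qb} (hζ : IsPrimitiveRoot ζ p) {σ₀ : GQ} (hσ₀ : σ₀ ∈ P.inertiaSubgroupIn ℚ)
    (hσ₀ζ : σ₀ ζ ≠ ζ) (u w : Fin 2 → k) (hu0 : u ≠ 0)
    (hu : (re (matOfBasis ρ b σ₀) - 1) *ᵥ w = u) :
    ∃ (X H : Matrix (Fin 2) (Fin 2) k) (β z₀ : GQ → k), X.trace = 0 ∧ H.trace = 0 ∧
      H * H = 1 ∧
      ∀ σ ∈ P.decompositionSubgroup ℚ,
        im (matOfBasis ρ b σ) = X * re (matOfBasis ρ b σ) - re (matOfBasis ρ b σ) * X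
          + β σ • nil u ∧
        z₀ σ * z₀ σ = 1 ∧
        nil u * re (matOfBasis ρ b σ) = z₀ σ • nil u ∧
        (∀ a : ℕ, (∀ μ : Qb, μ ^ p = 1 → σ μ = μ ^ a) →
          re (matOfBasis ρ b σ) * nil u = ((a : k) * z₀ σ) • nil u) ∧
        ∃ κ' : k, re (matOfBasis ρ b σ) * H - H * re (matOfBasis ρ b σ) = κ' • nil u := by
  have hp : p.Prime := Fact.out
  have h2 : (2 : k) ≠ 0 := by
    intro h
    have h' : ((2 : ℕ) : k) = 0 := by exact_mod_cast h
    rw [CharP.cast_eq_zero_iff k p] at h'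
    exact hp2 ((Nat.prime_dvd_prime_iff_eq hp Nat.prime_two).mp h')
  obtain ⟨T₀, S₀, X, x₀, z₀, β₀, β₁, hTS, hST, hD, hI⟩ := exists_adapted hp2 ρ b hdet hso P hP
  have hσ₀D : σ₀ ∈ P.decompositionSubgroup ℚ := by
    obtain ⟨τ, -, rfl⟩ := hσ₀
    exact τ.2
  -- the inertia element `σ₀`
  obtain ⟨hre0, -, -, hx0⟩ := hD σ₀ hσ₀D
  obtain ⟨a₀, -, ha₀ζ, ha₀⟩ := exists_cyclo_exp hζ σ₀
  have hz1 : z₀ σ₀ = 1 := hI σ₀ hσ₀
  have hx1 : x₀ σ₀ = (a₀ : k) := by rw [hx0 a₀ ha₀, hz1, mul_one]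
  have ha1 : (a₀ : k) ≠ 1 := by
    intro h
    exact hσ₀ζ (by rw [ha₀ζ]; exact pow_eq_self_of_cast_eq_one hζ h)
  -- the line
  set t : Fin 2 → k := fun i => T₀ i 0 with ht
  set s : Fin 2 → k := fun j => S₀ 1 j with hs
  have hTes : T₀ * e12 * S₀ = vecMulVec t s := by
    ext i j
    simp [e12, Matrix.mul_apply, Fin.sum_univ_two, vecMulVec_apply, ht, hs]
  have hst : s 0 * t 0 + s 1 * t 1 = 0 := by
    have := congrFun (congrFun hST 1) 0
    simpa [Matrix.mul_apply, Fin.sum_univ_two, ht, hs] using this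
  set y : Fin 2 → k := S₀ *ᵥ w with hy
  set c : k := ((a₀ : k) - 1) * y 0 + β₀ σ₀ * y 1 with hc
  have hu' : u = c • t := by
    rw [← hu, hre0, hx1, hz1]
    have h1 : (T₀ * !![(a₀ : k), β₀ σ₀; 0, 1] * S₀ - 1) *ᵥ w
        = T₀ *ᵥ (!![(a₀ : k), β₀ σ₀; 0, 1] *ᵥ y - y) := by
      rw [Matrix.sub_mulVec, Matrix.one_mulVec, Matrix.mulVec_sub, hy, Matrix.mulVec_mulVec,
        Matrix.mulVec_mulVec, Matrix.mulVec_mulVec, hTS, Matrix.one_mulVec]
    rw [h1]
    ext i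
    simp only [Matrix.mulVec, dotProduct, Fin.sum_univ_two, Pi.sub_apply, Pi.smul_apply,
      smul_eq_mul, Matrix.of_apply, Matrix.cons_val', Matrix.cons_val_zero, Matrix.cons_val_one,
      Matrix.cons_val_fin_one, ht, hc]
    ring
  have hc0 : c ≠ 0 := by
    intro h
    rw [h, zero_smul] at hu'
    exact hu0 hu'
  obtain ⟨κ, hκ⟩ := vecMulVec_eq_smul_nil t s u c hc0 hu' hst
  have hκ0 : κ ≠ 0 := by
    intro h
    rw [h, zero_smul] at hκ
    have h1 : (e12 : Matrix (Fin 2) (Fin 2) k) = S₀ * (T₀ * e12 * S₀) * T₀ := by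
      have e : S₀ * (T₀ * e12 * S₀) * T₀ = (S₀ * T₀) * e12 * (S₀ * T₀) := by
        simp only [mul_assoc]
      rw [e, hST, one_mul, mul_one]
    rw [hTes, hκ, mul_zero, zero_mul] at h1
    have := congrFun (congrFun h1 0) 1
    simp [e12] at this
  have hnil : nil u = κ⁻¹ • (T₀ * e12 * S₀) := by
    rw [hTes, hκ, smul_smul, inv_mul_cancel₀ hκ0, one_smul]
  -- the complement
  have hHtr : (T₀ * !![(1 : k), 0; 0, -1] * S₀).trace = 0 := by
    rw [Matrix.trace_mul_cycle, hST, one_mul, Matrix.trace_fin_two_of]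
    ring
  have hDD : (!![(1 : k), 0; 0, -1] : Matrix (Fin 2) (Fin 2) k) * !![(1 : k), 0; 0, -1] = 1 := by
    rw [Matrix.mul_fin_two, Matrix.one_fin_two]
    simp
  have hHH : T₀ * !![(1 : k), 0; 0, -1] * S₀ * (T₀ * !![(1 : k), 0; 0, -1] * S₀) = 1 := by
    have e : T₀ * !![(1 : k), 0; 0, -1] * S₀ * (T₀ * !![(1 : k), 0; 0, -1] * S₀)
        = T₀ * (!![(1 : k), 0; 0, -1] * (S₀ * T₀ * !![(1 : k), 0; 0, -1])) * S₀ := by
      simp only [mul_assoc]
    rw [e, hST, one_mul, hDD, mul_one, hTS]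
  refine ⟨X - (X.trace / 2) • (1 : Matrix (Fin 2) (Fin 2) k), T₀ * !![(1 : k), 0; 0, -1] * S₀,
    fun σ => β₁ σ * κ, z₀, ?_, hHtr, hHH, ?_⟩
  · rw [Matrix.trace_sub, Matrix.trace_smul, Matrix.trace_one, Fintype.card_fin, smul_eq_mul]
    have : (X.trace / 2) * ((2 : ℕ) : k) = X.trace := by
      push_cast
      field_simp
    rw [this, sub_self]
  · intro σ hσ
    obtain ⟨hre, him, hzz, hxa⟩ := hD σ hσ
    refine ⟨?_, hzz, ?_, ?_, ?_⟩
    · rw [him, hTes, hκ, smul_smul]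
      congr 1
      rw [sub_mul, mul_sub, Matrix.smul_mul, Matrix.mul_smul, one_mul, mul_one]
      abel
    · rw [hnil, hre, Matrix.smul_mul]
      have h1 : T₀ * e12 * S₀ * (T₀ * !![x₀ σ, β₀ σ; 0, z₀ σ] * S₀)
          = T₀ * (e12 * (S₀ * T₀ * !![x₀ σ, β₀ σ; 0, z₀ σ])) * S₀ := by
        simp only [mul_assoc]
      have h3 : (e12 : Matrix (Fin 2) (Fin 2) k) * !![x₀ σ, β₀ σ; 0, z₀ σ] = z₀ σ • e12 := by
        ext i j
        fin_cases i <;> fin_cases j <;> simp [e12, Matrix.mul_apply, Fin.sum_univ_two]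
      rw [h1, hST, one_mul, h3, Matrix.mul_smul, Matrix.smul_mul, smul_comm]
    · intro a ha
      rw [hnil, hre, Matrix.mul_smul]
      have h1 : T₀ * !![x₀ σ, β₀ σ; 0, z₀ σ] * S₀ * (T₀ * e12 * S₀)
          = T₀ * (!![x₀ σ, β₀ σ; 0, z₀ σ] * (S₀ * T₀ * e12)) * S₀ := by
        simp only [mul_assoc]
      have h3 : !![x₀ σ, β₀ σ; 0, z₀ σ] * (e12 : Matrix (Fin 2) (Fin 2) k) = x₀ σ • e12 := by
        ext i j
        fin_cases i <;> fin_cases j <;> simp [e12, Matrix.mul_apply, Fin.sum_univ_two]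
      rw [h1, hST, one_mul, h3, Matrix.mul_smul, Matrix.smul_mul, smul_comm, hxa a ha]
    · have h4 : !![x₀ σ, β₀ σ; 0, z₀ σ] * (!![(1 : k), 0; 0, -1] : Matrix (Fin 2) (Fin 2) k)
          - !![(1 : k), 0; 0, -1] * !![x₀ σ, β₀ σ; 0, z₀ σ] = (-(2 * β₀ σ)) • e12 := by
        ext i j
        fin_cases i <;> fin_cases j <;>
          simp [e12, Matrix.mul_apply, Fin.sum_univ_two] <;> ring
      have e1 : T₀ * !![x₀ σ, β₀ σ; 0, z₀ σ] * S₀ * (T₀ * !![(1 : k), 0; 0, -1] * S₀)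
          = T₀ * (!![x₀ σ, β₀ σ; 0, z₀ σ] * (S₀ * T₀ * !![(1 : k), 0; 0, -1])) * S₀ := by
        simp only [mul_assoc]
      have e2 : T₀ * !![(1 : k), 0; 0, -1] * S₀ * (T₀ * !![x₀ σ, β₀ σ; 0, z₀ σ] * S₀)
          = T₀ * (!![(1 : k), 0; 0, -1] * (S₀ * T₀ * !![x₀ σ, β₀ σ; 0, z₀ σ])) * S₀ := by
        simp only [mul_assoc]
      refine ⟨-(2 * β₀ σ) * κ, ?_⟩
      rw [hre, e1, e2, hST, one_mul, one_mul, ← sub_mul, ← mul_sub, h4, Matrix.mul_smul,
        Matrix.smul_mul, hTes, hκ, smul_smul]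

/-- **LO, canonical form.** -/
theorem exists_canonical {p : ℕ} [Fact p.Prime] [CharP k p] (hp2 : p ≠ 2)
    (ρ : GaloisRepAdic (DualNumber k)) (b : Module.Basis (Fin 2) (DualNumber k) ρ.V)
    (hdet : ρ.DetIsCyclotomic p) (hso : ρ.IsStrictOrdinaryAt p)
    (P : ValuationSubring Qb) (hP : P.LiesOverPrime p)
    {ζ : Qb} (hζ : IsPrimitiveRoot ζ p) {σ₀ : GQ} (hσ₀ : σ₀ ∈ P.inertiaSubgroupIn ℚ)
    (hσ₀ζ : σ₀ ζ ≠ ζ) (u w : Fin 2 → k) (hu0 : u ≠ 0)
    (hu : (re (matOfBasis ρ b σ₀) - 1) *ᵥ w = u) :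
    ∃ (X : Matrix (Fin 2) (Fin 2) k) (β z₀ : GQ → k), X.trace = 0 ∧
      ∀ σ ∈ P.decompositionSubgroup ℚ,
        im (matOfBasis ρ b σ) = X * re (matOfBasis ρ b σ) - re (matOfBasis ρ b σ) * X
          + β σ • nil u ∧
        z₀ σ * z₀ σ = 1 ∧
        nil u * re (matOfBasis ρ b σ) = z₀ σ • nil u ∧
        ∀ a : ℕ, (∀ μ : Qb, μ ^ p = 1 → σ μ = μ ^ a) →
          re (matOfBasis ρ b σ) * nil u = ((a : k) * z₀ σ) • nil u := by
  obtain ⟨X, H, β, z₀, hX, -, -, h⟩ :=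
    exists_canonical_full hp2 ρ b hdet hso P hP hζ hσ₀ hσ₀ζ u w hu0 hu
  exact ⟨X, β, z₀, hX, fun σ hσ =>
    ⟨(h σ hσ).1, (h σ hσ).2.1, (h σ hσ).2.2.1, (h σ hσ).2.2.2.1⟩⟩

end Fermat.Agent.S56.Loc.OrdCanon
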