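import Mathlib
import Fermat.Prelude.Def_GaloisRep_LocalConditions
import Fermat.Agent.S53.MatRep
import Fermat.Agent.CFT.LocalBr.UnramTame
import Fermat.Agent.S55.Glue.PlacesAbove
import Fermat.Agent.S55.Glue.LevelGalois
import Fermat.Agent.S56.Loc.UnipDual

/-!
# S56, local brick LM: lifts to `k[ε]` that are unipotent on inertia at `q ≠ p`

(helper48.)  `k` a field of characteristic `p ≠ 2`, `ρ : GaloisRepAdic (DualNumber k)` a lift to
the dual numbers, `b` a basis of `ρ.V`, `M σ := matOfBasis ρ b σ = re (M σ) + ε im (M σ)`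
(`S53/MatRep`, `S56/Loc/UnipDual`), `q ≠ p` a prime and `P` a place of `ℚ̄` over `q`.

* `exists_inner_on_inertia` : if `ρ.IsUnipotentOnInertiaAt q` and the constant part `re ∘ M` is
  non-trivial on the inertia group of `P`, there is a trace-zero `X ∈ M₂(k)` with
  `im (M σ) = X * re (M σ) - re (M σ) * X` for every `σ` in the inertia group of `P`.
* `exists_inner_on_inertia_of_residual` : the same with the non-triviality read off the frozen
  vocabulary: `ρ.residual ≃ ρbar.baseChangeAlong ψ` and `¬ ρbar.IsUnramifiedAt q`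
  (the case `q ∈ Smin ∖ {p}` of S56).

So the deformation class of a minimally ramified (unipotent) lift is trivial on inertia at `q`.
Inputs: tame inertia is procyclic (`CFT/LocalBr/UnramTame.exists_generator_of_le_inertia`),
transitivity of `Gal(ℚ̄/ℚ)` on the places over `q` (`S55/Glue/PlacesAbove.exists_smul_eq`).
-/

set_option autoImplicit false
set_option linter.unusedSectionVars false

open scoped Pointwise

namespace Fermat.Agent.S56.Loc.UnipInertia

local notation "Qb" => AlgebraicClosure ℚ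
local notation "GQ" => (AlgebraicClosure ℚ ≃ₐ[ℚ] AlgebraicClosure ℚ)

open Fermat.Agent.S53.MatRep Fermat.Agent.S56.Loc.UnipDual IsLocalRing

variable {k : Type} [Field k]

theorem mem_maximalIdeal_dual_iff (x : DualNumber k) :
    x ∈ maximalIdeal (DualNumber k) ↔ x.fst = 0 := by
  rw [mem_maximalIdeal, mem_nonunits_iff, TrivSqZeroExt.isUnit_iff_isUnit_fst, isUnit_iff_ne_zero,
    not_not]

theorem maximalIdeal_dual_sq : maximalIdeal (DualNumber k) ^ 2 = ⊥ := by
  rw [pow_two, ← le_bot_iff, Ideal.mul_le]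
  intro x hx y hy
  rw [mem_maximalIdeal_dual_iff] at hx hy
  rw [Ideal.mem_bot]
  ext
  · rw [TrivSqZeroExt.fst_mul, hx, zero_mul, TrivSqZeroExt.fst_zero]
  · rw [TrivSqZeroExt.snd_mul, hx, hy, zero_smul, MulOpposite.op_zero, zero_smul, add_zero,
      TrivSqZeroExt.snd_zero]

/-- A lift to the dual numbers factors through a finite level. -/
theorem factors_matOfBasis_dual (ρ : GaloisRepAdic (DualNumber k))
    (b : Module.Basis (Fin 2) (DualNumber k) ρ.V) :
    GaloisFactorsThroughFiniteLevel (matOfBasis ρ b) :=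
  factors_of_isContMat_of_pow_eq_bot (isContMat_matOfBasis ρ b) maximalIdeal_dual_sq

/-- Cayley–Hamilton: a matrix with characteristic polynomial `(X - 1) ^ 2` is unipotent. -/
theorem sub_one_mul_sub_one_of_charpoly {A : Type} [CommRing A] [IsLocalRing A]
    (ρ : GaloisRepAdic A) (b : Module.Basis (Fin 2) A ρ.V) (σ : GQ)
    (h : LinearMap.charpoly (ρ.ρ σ) = (Polynomial.X - 1) ^ 2) :
    (matOfBasis ρ b σ - 1) * (matOfBasis ρ b σ - 1) = 0 := by
  have h1 : (matOfBasis ρ b σ).charpoly = (Polynomial.X - 1) ^ 2 := by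
    rw [matOfBasis_eq_toMatrix, LinearMap.charpoly_toMatrix]
    exact h
  have h2 := Matrix.aeval_self_charpoly (matOfBasis ρ b σ)
  rw [h1] at h2
  simpa [pow_two] using h2

/-- **LM, matrix form.** A lift to the dual numbers which is unipotent on inertia at `q ≠ p` and
residually ramified at `P` is inner on the inertia group of `P`. -/
theorem exists_inner_on_inertia {p : ℕ} [Fact p.Prime] [CharP k p] (hp2 : p ≠ 2) {q : ℕ}
    (hq : q.Prime) (hqp : q ≠ p) (ρ : GaloisRepAdic (DualNumber k))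
    (b : Module.Basis (Fin 2) (DualNumber k) ρ.V) (hun : ρ.IsUnipotentOnInertiaAt q)
    (P : ValuationSubring Qb) (hP : P.LiesOverPrime q)
    (hram : ∃ σ ∈ P.inertiaSubgroupIn ℚ, re (matOfBasis ρ b σ) ≠ 1) :
    ∃ X : Matrix (Fin 2) (Fin 2) k, X.trace = 0 ∧ ∀ σ ∈ P.inertiaSubgroupIn ℚ,
      im (matOfBasis ρ b σ) = X * re (matOfBasis ρ b σ) - re (matOfBasis ρ b σ) * X := by
  have hp : p.Prime := Fact.out
  have hpq : ¬ p ∣ q := fun h => hqp ((Nat.prime_dvd_prime_iff_eq hp hq).mp h).symm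
  obtain ⟨F, hFfin, hF⟩ := factors_matOfBasis_dual ρ b
  have := hFfin
  obtain ⟨ι₀, hι₀, hgen⟩ := Fermat.Agent.CFT.LocalBr.Unram.exists_generator_of_le_inertia hq hP
    (P.inertiaSubgroupIn ℚ) le_rfl F
  let J : Subgroup GQ := P.inertiaSubgroupIn ℚ
  let m : ↥J →* Matrix (Fin 2) (Fin 2) (DualNumber k) := (matOfBasis ρ b).comp J.subtype
  have hm_apply : ∀ σ : ↥J, m σ = matOfBasis ρ b (σ : GQ) := fun σ => rfl
  have hm : ∀ σ : ↥J, (m σ - 1) * (m σ - 1) = 0 := fun σ =>
    sub_one_mul_sub_one_of_charpoly ρ b (σ : GQ) (hun P hP (σ : GQ) σ.2)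
  have hcyc : ∃ ι₀ : ↥J, ∀ ι : ↥J, ∃ a n : ℕ, m (((ι₀ ^ a)⁻¹ * ι) ^ (q ^ n)) = 1 := by
    refine ⟨⟨ι₀, hι₀⟩, fun ι => ?_⟩
    obtain ⟨a, n, han⟩ := hgen (ι : GQ) ι.2
    refine ⟨a, n, ?_⟩
    rw [hm_apply]
    refine hF _ fun x hx => ?_
    have := (IntermediateField.mem_fixingSubgroup_iff F _).mp han x hx
    simpa using this
  have hram' : ∃ σ : ↥J, re (m σ) ≠ 1 := by
    obtain ⟨σ, hσ, h⟩ := hram
    exact ⟨⟨σ, hσ⟩, h⟩
  obtain ⟨X, hXtr, hX⟩ := exists_inner_of_unipotent_dual hp2 hpq m hm hcyc hram'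
  exact ⟨X, hXtr, fun σ hσ => hX ⟨σ, hσ⟩⟩

/-- If the constant part of the matrix of `σ` is `1`, then `σ` acts trivially on the residual
representation. -/
theorem residual_eq_one_of_re_eq_one (ρ : GaloisRepAdic (DualNumber k))
    (b : Module.Basis (Fin 2) (DualNumber k) ρ.V) (σ : GQ) (h : re (matOfBasis ρ b σ) = 1) :
    ρ.residual.ρ σ = 1 := by
  have h1 : matOfBasisRes ρ.residual (residualBasis ρ b) σ = 1 := by
    rw [matOfBasisRes_residual, mapMat_apply']
    ext i j
    rw [Matrix.map_apply]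
    have hij : (matOfBasis ρ b σ i j).fst = (1 : Matrix (Fin 2) (Fin 2) k) i j := by
      rw [← h]; rfl
    have hmem : matOfBasis ρ b σ i j - (1 : Matrix (Fin 2) (Fin 2) (DualNumber k)) i j
        ∈ maximalIdeal (DualNumber k) := by
      rw [mem_maximalIdeal_dual_iff, TrivSqZeroExt.fst_sub, hij, Matrix.one_apply,
        Matrix.one_apply]
      split_ifs <;> simp
    have h2 := (residue_eq_zero_iff _).mpr hmem
    rw [map_sub, sub_eq_zero] at h2
    rw [h2, Matrix.one_apply, Matrix.one_apply]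
    split_ifs <;> simp
  rw [matOfBasisRes_eq_toMatrix] at h1
  have h3 : LinearMap.toMatrix (residualBasis ρ b) (residualBasis ρ b) (ρ.residual.ρ σ)
      = LinearMap.toMatrix (residualBasis ρ b) (residualBasis ρ b) 1 := by
    rw [h1]; exact (LinearMap.toMatrix_one _).symm
  exact (LinearMap.toMatrix (residualBasis ρ b) (residualBasis ρ b)).injective h3

/-- A residual representation ramified at `q` is non-trivial on the inertia group of EVERY place
over `q`. -/
theorem exists_inertia_ne_one {k' : Type} [Field k'] (ρbar : ResidualGaloisRep k') {q : ℕ}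
    (hq : q.Prime) (hram : ¬ ρbar.IsUnramifiedAt q) (P : ValuationSubring Qb)
    (hP : P.LiesOverPrime q) : ∃ σ ∈ P.inertiaSubgroupIn ℚ, ρbar.ρ σ ≠ 1 := by
  unfold ResidualGaloisRep.IsUnramifiedAt at hram
  push Not at hram
  obtain ⟨A, hA, σ₀, hσ₀, hne⟩ := hram
  obtain ⟨τ, hτ⟩ := Fermat.Agent.S55.Glue.PlacesAbove.exists_smul_eq hq hA hP
  refine ⟨τ * σ₀ * τ⁻¹, ?_, fun h => hne ?_⟩
  · rw [← hτ]
    exact Fermat.Agent.S55.Glue.conj_mem_inertiaSubgroupIn hσ₀ τ
  · rw [map_mul, map_mul] at h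
    have h1 : ρbar.ρ τ⁻¹ * ρbar.ρ τ = 1 := by rw [← map_mul, inv_mul_cancel, map_one]
    have h2 : ρbar.ρ τ * ρbar.ρ τ⁻¹ = 1 := by rw [← map_mul, mul_inv_cancel, map_one]
    calc ρbar.ρ σ₀ = ρbar.ρ τ⁻¹ * (ρbar.ρ τ * ρbar.ρ σ₀ * ρbar.ρ τ⁻¹) * ρbar.ρ τ := by
          rw [mul_assoc, mul_assoc, mul_assoc, h1, mul_one, ← mul_assoc, h1, one_mul]
      _ = 1 := by rw [h, mul_one, h1]

/-- Triviality of an element descends along a base change of residual representations. -/
theorem eq_one_of_baseChangeAlong_eq_one {k' : Type} [Field k'] (ψ : k →+* k')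
    (ρbar : ResidualGaloisRep k) (σ : GQ) (h : (ρbar.baseChangeAlong ψ).ρ σ = 1) :
    ρbar.ρ σ = 1 := by
  obtain ⟨b0⟩ := nonempty_basisRes ρbar
  have h1 : matOfBasisRes (ρbar.baseChangeAlong ψ) (baseChangeBasisRes ψ ρbar b0) σ = 1 := by
    rw [matOfBasisRes_eq_toMatrix, h]; exact LinearMap.toMatrix_one _
  rw [matOfBasisRes_baseChangeAlong, mapMat_eq_one_iff_of_injective ψ ψ.injective] at h1
  rw [matOfBasisRes_eq_toMatrix] at h1
  have h3 : LinearMap.toMatrix b0 b0 (ρbar.ρ σ) = LinearMap.toMatrix b0 b0 1 := by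
    rw [h1]; exact (LinearMap.toMatrix_one _).symm
  exact (LinearMap.toMatrix b0 b0).injective h3

/-- **LM in the frozen vocabulary.**  `ρ` a lift of `ρbar` to the dual numbers, unipotent on
inertia at a prime `q ≠ p` where `ρbar` is ramified: in any basis, the `ε`-part of `ρ` is inner
on the inertia group of every place `P` over `q`. -/
theorem exists_inner_on_inertia_of_residual {p : ℕ} [Fact p.Prime] [CharP k p] (hp2 : p ≠ 2)
    {q : ℕ} (hq : q.Prime) (hqp : q ≠ p) (ρbar : ResidualGaloisRep k)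
    (ψ : k →+* ResidueField (DualNumber k)) (ρ : GaloisRepAdic (DualNumber k))
    (hres : ρ.residual.IsEquiv (ρbar.baseChangeAlong ψ)) (hram : ¬ ρbar.IsUnramifiedAt q)
    (hun : ρ.IsUnipotentOnInertiaAt q) (b : Module.Basis (Fin 2) (DualNumber k) ρ.V)
    (P : ValuationSubring Qb) (hP : P.LiesOverPrime q) :
    ∃ X : Matrix (Fin 2) (Fin 2) k, X.trace = 0 ∧ ∀ σ ∈ P.inertiaSubgroupIn ℚ,
      im (matOfBasis ρ b σ) = X * re (matOfBasis ρ b σ) - re (matOfBasis ρ b σ) * X := by
  refine exists_inner_on_inertia hp2 hq hqp ρ b hun P hP ?_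
  obtain ⟨σ, hσ, hne⟩ := exists_inertia_ne_one ρbar hq hram P hP
  refine ⟨σ, hσ, fun h => hne ?_⟩
  have h1 := residual_eq_one_of_re_eq_one ρ b σ h
  obtain ⟨e⟩ := hres
  refine eq_one_of_baseChangeAlong_eq_one ψ ρbar σ ?_
  refine LinearMap.ext fun x => ?_
  have h2 := e.map_apply σ (e.toLinearEquiv.symm x)
  rw [h1, Module.End.one_apply, LinearEquiv.apply_symm_apply] at h2
  rw [Module.End.one_apply]
  exact h2.symm

end Fermat.Agent.S56.Loc.UnipInertia
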