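import Mathlib
import Fermat.Agent.S56.TangentAd
import Fermat.Agent.S56.Loc.UnipInertia
import Fermat.Agent.S56.Loc.OrdCanon
import Fermat.Agent.Lib.InertiaCycloP

/-!
# S56, local bricks LM and LO on the matrix interface of `TangentSel.SelMat`

(helper48.)  `k` a field of characteristic `p ≠ 2`, `r : G_ℚ →* M₂(k)` a matrix representation
(in the application `r = matOfBasisRes ρbar b0`), `c : G_ℚ → M₂(k)`, and a lift
`ρ : GaloisRepAdic k[ε]` whose matrices in a basis `bb` are `r σ + ε c σ`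
(`hmat : matOfBasis ρ bb σ = (r σ).map inl + (c σ).map inr`, the last clause of
`TangentSel.SelMat`).  `adOf r c σ = c σ * r σ⁻¹` is the `ad`-valued cocycle (`S56/TangentAd`).

* `exists_inner_on_inertia_of_hmat` (**LM**): `q ≠ p`, `ρ` unipotent on inertia at `q`, `r`
  non-trivial on the inertia group of `P ∣ q`: there is a trace-zero `X` with
  `adOf r c σ = X - r σ * X * r σ⁻¹` for all `σ` in the inertia group of `P`
  (the class of `adOf r c` is unramified at `q`: it is the coboundary of `-X` on inertia).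
  `exists_inner_on_inertia_of_ramified`: the same with `r = matOfBasisRes ρbar b0` and
  `¬ ρbar.IsUnramifiedAt q`.
* `exists_canonical_of_hmat` (**LO**): `ρ` strict-ordinary at `p` with cyclotomic determinant,
  `u ≠ 0` in the range of `r σ₀ - 1` for an inertia element `σ₀` at `P ∣ p` moving `ζ_p`:
  there are trace-zero `X`, `H` and `γ : G_ℚ → k` with `H * H = 1` and, for all `σ` in the
  decomposition group of `P`,
  `adOf r c σ = X - r σ * X * r σ⁻¹ + γ σ • nil u`,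
  `r σ * nil u * r σ⁻¹ = a • nil u` whenever `σ` acts on `μ_p` by `μ ↦ μ ^ a`, and
  `r σ * H * r σ⁻¹ - H ∈ k · nil u`.
* `exists_line` : one `u ≠ 0`, depending on `r` and `P` only, which works for EVERY such lift.
* `exists_inertia_cyclo_ne_one` : an inertia element at `P ∣ p` acting on `μ_p` by an exponent
  `a` with `(a : k) ≠ 1` (so the line `k · nil u` has no invariants).
-/

set_option autoImplicit false
set_option linter.unusedSectionVars false

namespace Fermat.Agent.S56.Loc.MatLoc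

local notation "Qb" => AlgebraicClosure ℚ
local notation "GQ" => (AlgebraicClosure ℚ ≃ₐ[ℚ] AlgebraicClosure ℚ)

open Fermat.Agent.S53.MatRep Fermat.Agent.S56.Loc.UnipDual Fermat.Agent.S56.Loc.OrdShape
  Fermat.Agent.S56.Loc.OrdCanon Matrix

variable {k : Type} [Field k]

/-! ### Constant part and `ε`-part of `A + ε C` -/

theorem re_map_add_map (A C : Matrix (Fin 2) (Fin 2) k) :
    re (A.map (TrivSqZeroExt.inl : k → DualNumber k)
      + C.map (TrivSqZeroExt.inr : k → DualNumber k)) = A := by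
  ext i j
  simp [re_apply]

theorem im_map_add_map (A C : Matrix (Fin 2) (Fin 2) k) :
    im (A.map (TrivSqZeroExt.inl : k → DualNumber k)
      + C.map (TrivSqZeroExt.inr : k → DualNumber k)) = C := by
  ext i j
  simp [im_apply]

/-! ### LM: unipotent lifts at `q ≠ p` -/

/-- **LM on the matrix interface.**  A lift `r + ε c` which is unipotent on inertia at `q ≠ p`,
with `r` non-trivial on the inertia group of `P ∣ q`: on that inertia group `c` is inner and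
`adOf r c` is the coboundary of `-X`. -/
theorem exists_inner_on_inertia_of_hmat {p : ℕ} [Fact p.Prime] [CharP k p] (hp2 : p ≠ 2) {q : ℕ}
    (hq : q.Prime) (hqp : q ≠ p) (r : GQ →* Matrix (Fin 2) (Fin 2) k)
    (c : GQ → Matrix (Fin 2) (Fin 2) k) (ρ : GaloisRepAdic (DualNumber k))
    (bb : Module.Basis (Fin 2) (DualNumber k) ρ.V)
    (hmat : ∀ σ : GQ, matOfBasis ρ bb σ = (r σ).map (TrivSqZeroExt.inl : k → DualNumber k)
      + (c σ).map (TrivSqZeroExt.inr : k → DualNumber k))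
    (hun : ρ.IsUnipotentOnInertiaAt q) (P : ValuationSubring Qb) (hP : P.LiesOverPrime q)
    (hram : ∃ σ ∈ P.inertiaSubgroupIn ℚ, r σ ≠ 1) :
    ∃ X : Matrix (Fin 2) (Fin 2) k, X.trace = 0 ∧ ∀ σ ∈ P.inertiaSubgroupIn ℚ,
      c σ = X * r σ - r σ * X ∧ TangentAd.adOf r c σ = X - r σ * X * r σ⁻¹ := by
  have hre : ∀ σ, re (matOfBasis ρ bb σ) = r σ := fun σ => by rw [hmat, re_map_add_map]
  have him : ∀ σ, im (matOfBasis ρ bb σ) = c σ := fun σ => by rw [hmat, im_map_add_map]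
  have hram' : ∃ σ ∈ P.inertiaSubgroupIn ℚ, re (matOfBasis ρ bb σ) ≠ 1 := by
    obtain ⟨σ, hσ, h⟩ := hram
    refine ⟨σ, hσ, ?_⟩
    rw [hre]
    exact h
  obtain ⟨X, hX0, hX⟩ :=
    Fermat.Agent.S56.Loc.UnipInertia.exists_inner_on_inertia hp2 hq hqp ρ bb hun P hP hram'
  refine ⟨X, hX0, fun σ hσ => ?_⟩
  have h1 : c σ = X * r σ - r σ * X := by
    have h2 := hX σ hσ
    rw [him, hre] at h2
    exact h2
  have hinv : r σ * r σ⁻¹ = 1 := by rw [← map_mul, mul_inv_cancel, map_one]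
  refine ⟨h1, ?_⟩
  rw [TangentAd.adOf_apply, h1, sub_mul, mul_assoc X, hinv, mul_one]

/-- A residual representation ramified at `q` has non-trivial matrices on the inertia group of
every place over `q`. -/
theorem exists_matOfBasisRes_ne_one (ρbar : ResidualGaloisRep k)
    (b0 : Module.Basis (Fin 2) k ρbar.V) {q : ℕ} (hq : q.Prime)
    (hram : ¬ ρbar.IsUnramifiedAt q) (P : ValuationSubring Qb) (hP : P.LiesOverPrime q) :
    ∃ σ ∈ P.inertiaSubgroupIn ℚ, matOfBasisRes ρbar b0 σ ≠ 1 := by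
  obtain ⟨σ, hσ, hne⟩ :=
    Fermat.Agent.S56.Loc.UnipInertia.exists_inertia_ne_one ρbar hq hram P hP
  refine ⟨σ, hσ, fun h => hne ?_⟩
  rw [matOfBasisRes_eq_toMatrix] at h
  have h3 : LinearMap.toMatrix b0 b0 (ρbar.ρ σ) = LinearMap.toMatrix b0 b0 1 := by
    rw [h]
    exact (LinearMap.toMatrix_one _).symm
  exact (LinearMap.toMatrix b0 b0).injective h3

/-- **LM in the vocabulary of `TangentSel.SelMat`** (the case `q ∈ Smin ∖ {p}` of S56). -/
theorem exists_inner_on_inertia_of_ramified {p : ℕ} [Fact p.Prime] [CharP k p] (hp2 : p ≠ 2)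
    {q : ℕ} (hq : q.Prime) (hqp : q ≠ p) (ρbar : ResidualGaloisRep k)
    (b0 : Module.Basis (Fin 2) k ρbar.V) (hram : ¬ ρbar.IsUnramifiedAt q)
    (c : GQ → Matrix (Fin 2) (Fin 2) k) (ρ : GaloisRepAdic (DualNumber k))
    (bb : Module.Basis (Fin 2) (DualNumber k) ρ.V)
    (hmat : ∀ σ : GQ, matOfBasis ρ bb σ
      = (matOfBasisRes ρbar b0 σ).map (TrivSqZeroExt.inl : k → DualNumber k)
        + (c σ).map (TrivSqZeroExt.inr : k → DualNumber k))
    (hun : ρ.IsUnipotentOnInertiaAt q) (P : ValuationSubring Qb) (hP : P.LiesOverPrime q) :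
    ∃ X : Matrix (Fin 2) (Fin 2) k, X.trace = 0 ∧ ∀ σ ∈ P.inertiaSubgroupIn ℚ,
      c σ = X * matOfBasisRes ρbar b0 σ - matOfBasisRes ρbar b0 σ * X ∧
      TangentAd.adOf (matOfBasisRes ρbar b0) c σ
        = X - matOfBasisRes ρbar b0 σ * X * matOfBasisRes ρbar b0 σ⁻¹ :=
  exists_inner_on_inertia_of_hmat hp2 hq hqp (matOfBasisRes ρbar b0) c ρ bb hmat hun P hP
    (exists_matOfBasisRes_ne_one ρbar b0 hq hram P hP)

/-! ### LO: strict-ordinary lifts at `p` -/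

/-- If `N * A = z • N`, `z ^ 2 = 1` and `A * B = 1` then `N * B = z • N`. -/
theorem mul_inv_of_mul_eq_smul {A B N : Matrix (Fin 2) (Fin 2) k} {z : k} (hAB : A * B = 1)
    (hz : z * z = 1) (hN : N * A = z • N) : N * B = z • N := by
  have e1 : N = z • (N * B) := by
    calc N = N * (A * B) := by rw [hAB, mul_one]
      _ = N * A * B := by rw [mul_assoc]
      _ = z • (N * B) := by rw [hN, Matrix.smul_mul]
  calc N * B = (z * z) • (N * B) := by rw [hz, one_smul]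
    _ = z • (z • (N * B)) := by rw [smul_smul]
    _ = z • N := by rw [← e1]

/-- **LO on the matrix interface.** -/
theorem exists_canonical_of_hmat {p : ℕ} [Fact p.Prime] [CharP k p] (hp2 : p ≠ 2)
    (r : GQ →* Matrix (Fin 2) (Fin 2) k) (c : GQ → Matrix (Fin 2) (Fin 2) k)
    (ρ : GaloisRepAdic (DualNumber k)) (bb : Module.Basis (Fin 2) (DualNumber k) ρ.V)
    (hmat : ∀ σ : GQ, matOfBasis ρ bb σ = (r σ).map (TrivSqZeroExt.inl : k → DualNumber k)
      + (c σ).map (TrivSqZeroExt.inr : k → DualNumber k))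
    (hdet : ρ.DetIsCyclotomic p) (hso : ρ.IsStrictOrdinaryAt p)
    (P : ValuationSubring Qb) (hP : P.LiesOverPrime p)
    {ζ : Qb} (hζ : IsPrimitiveRoot ζ p) {σ₀ : GQ} (hσ₀ : σ₀ ∈ P.inertiaSubgroupIn ℚ)
    (hσ₀ζ : σ₀ ζ ≠ ζ) (u w : Fin 2 → k) (hu0 : u ≠ 0) (hu : (r σ₀ - 1) *ᵥ w = u) :
    ∃ (X H : Matrix (Fin 2) (Fin 2) k) (γ : GQ → k), X.trace = 0 ∧ H.trace = 0 ∧ H * H = 1 ∧
      ∀ σ ∈ P.decompositionSubgroup ℚ,
        TangentAd.adOf r c σ = X - r σ * X * r σ⁻¹ + γ σ • nil u ∧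
        (∀ a : ℕ, (∀ μ : Qb, μ ^ p = 1 → σ μ = μ ^ a) →
          r σ * nil u * r σ⁻¹ = (a : k) • nil u) ∧
        ∃ κ : k, r σ * H * r σ⁻¹ - H = κ • nil u := by
  have hre : ∀ σ, re (matOfBasis ρ bb σ) = r σ := fun σ => by rw [hmat, re_map_add_map]
  have him : ∀ σ, im (matOfBasis ρ bb σ) = c σ := fun σ => by rw [hmat, im_map_add_map]
  have hu' : (re (matOfBasis ρ bb σ₀) - 1) *ᵥ w = u := by
    rw [hre]
    exact hu
  obtain ⟨X, H, β, z₀, hX0, hH0, hHH, h⟩ :=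
    exists_canonical_full hp2 ρ bb hdet hso P hP hζ hσ₀ hσ₀ζ u w hu0 hu'
  have key : ∀ σ ∈ P.decompositionSubgroup ℚ,
      TangentAd.adOf r c σ = X - r σ * X * r σ⁻¹ + (β σ * z₀ σ) • nil u ∧
      (∀ a : ℕ, (∀ μ : Qb, μ ^ p = 1 → σ μ = μ ^ a) →
        r σ * nil u * r σ⁻¹ = (a : k) • nil u) ∧
      ∃ κ : k, r σ * H * r σ⁻¹ - H = κ • nil u := by
    intro σ hσ
    obtain ⟨hc, hzz, hnr, hrn, κ', hκ'⟩ := h σ hσ
    rw [him, hre] at hc
    rw [hre] at hnr
    rw [hre] at hκ'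
    have hinv : r σ * r σ⁻¹ = 1 := by rw [← map_mul, mul_inv_cancel, map_one]
    have hn' : nil u * r σ⁻¹ = z₀ σ • nil u := mul_inv_of_mul_eq_smul hinv hzz hnr
    refine ⟨?_, fun a ha => ?_, κ' * z₀ σ, ?_⟩
    · rw [TangentAd.adOf_apply, hc, add_mul, sub_mul, mul_assoc X, hinv, mul_one,
        Matrix.smul_mul, hn', smul_smul]
    · have h1 := hrn a ha
      rw [hre] at h1
      rw [h1, Matrix.smul_mul, hn', smul_smul, mul_assoc, hzz, mul_one]
    · have e : r σ * H * r σ⁻¹ - H = (r σ * H - H * r σ) * r σ⁻¹ := by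
        rw [sub_mul, mul_assoc H, hinv, mul_one]
      rw [e, hκ', Matrix.smul_mul, hn', smul_smul]
  exact ⟨X, H, fun σ => β σ * z₀ σ, hX0, hH0, hHH, key⟩

/-- A lift `r + ε c` which is strict-ordinary at `p` with cyclotomic determinant forces `r` to
be non-trivial at every inertia element (at `P ∣ p`) which moves `ζ_p`. -/
theorem ne_one_of_hmat {p : ℕ} [Fact p.Prime] [CharP k p] (hp2 : p ≠ 2)
    (r : GQ →* Matrix (Fin 2) (Fin 2) k) (c : GQ → Matrix (Fin 2) (Fin 2) k)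
    (ρ : GaloisRepAdic (DualNumber k)) (bb : Module.Basis (Fin 2) (DualNumber k) ρ.V)
    (hmat : ∀ σ : GQ, matOfBasis ρ bb σ = (r σ).map (TrivSqZeroExt.inl : k → DualNumber k)
      + (c σ).map (TrivSqZeroExt.inr : k → DualNumber k))
    (hdet : ρ.DetIsCyclotomic p) (hso : ρ.IsStrictOrdinaryAt p)
    (P : ValuationSubring Qb) (hP : P.LiesOverPrime p)
    {ζ : Qb} (hζ : IsPrimitiveRoot ζ p) {σ₀ : GQ} (hσ₀ : σ₀ ∈ P.inertiaSubgroupIn ℚ)
    (hσ₀ζ : σ₀ ζ ≠ ζ) : r σ₀ ≠ 1 := by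
  obtain ⟨T₀, S₀, X, x₀, z₀, β₀, β₁, hTS, hST, hD, hI⟩ := exists_adapted hp2 ρ bb hdet hso P hP
  have hσ₀D : σ₀ ∈ P.decompositionSubgroup ℚ := by
    obtain ⟨τ, -, rfl⟩ := hσ₀
    exact τ.2
  obtain ⟨hre0, -, -, hx0⟩ := hD σ₀ hσ₀D
  obtain ⟨a₀, -, ha₀ζ, ha₀⟩ := exists_cyclo_exp hζ σ₀
  have hz1 : z₀ σ₀ = 1 := hI σ₀ hσ₀
  have hx1 : x₀ σ₀ = (a₀ : k) := by rw [hx0 a₀ ha₀, hz1, mul_one]
  intro h1
  have hre1 : re (matOfBasis ρ bb σ₀) = 1 := by rw [hmat, re_map_add_map, h1]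
  rw [hre0] at hre1
  have hB : !![x₀ σ₀, β₀ σ₀; 0, z₀ σ₀] = (1 : Matrix (Fin 2) (Fin 2) k) := by
    have e : S₀ * (T₀ * !![x₀ σ₀, β₀ σ₀; 0, z₀ σ₀] * S₀) * T₀
        = S₀ * T₀ * !![x₀ σ₀, β₀ σ₀; 0, z₀ σ₀] * (S₀ * T₀) := by
      simp only [mul_assoc]
    rw [hST, one_mul, mul_one, hre1, mul_one, hST] at e
    exact e.symm
  have hx : x₀ σ₀ = 1 := by
    have h00 := congrFun (congrFun hB 0) 0
    simpa using h00
  have ha1 : (a₀ : k) = 1 := by rw [← hx1, hx]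
  exact hσ₀ζ (by rw [ha₀ζ]; exact pow_eq_self_of_cast_eq_one hζ ha1)

/-- A non-zero `2 × 2` matrix does not kill every vector. -/
theorem exists_mulVec_ne_zero {A : Matrix (Fin 2) (Fin 2) k} (hA : A ≠ 0) :
    ∃ w : Fin 2 → k, A *ᵥ w ≠ 0 := by
  by_contra hcon
  have hcon' : ∀ w : Fin 2 → k, A *ᵥ w = 0 := fun w =>
    Classical.byContradiction fun h => hcon ⟨w, h⟩
  apply hA
  have h1 : Matrix.toLin' A = 0 := LinearMap.ext fun w => by
    rw [Matrix.toLin'_apply, hcon' w, LinearMap.zero_apply]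
  exact Matrix.toLin'.injective (by rw [h1, map_zero])

/-- **The canonical line of LO, uniformly in the lift.**  There is a vector `u ≠ 0`, depending
only on `r` and the place `P ∣ p`, such that EVERY lift `r + ε c` which is strict-ordinary at `p`
with cyclotomic determinant has, on the decomposition group of `P`,
`adOf r c σ = (coboundary of -X) + γ σ • nil u`; moreover `σ` acts on `nil u` by conjugation
through the mod-`p` cyclotomic character, and there is a trace-zero `H` with `H * H = 1`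
(hence `H ∉ k · nil u`) which is invariant modulo `k · nil u`. -/
theorem exists_line {p : ℕ} [Fact p.Prime] [CharP k p] (hp2 : p ≠ 2)
    (r : GQ →* Matrix (Fin 2) (Fin 2) k) (P : ValuationSubring Qb) (hP : P.LiesOverPrime p) :
    ∃ u : Fin 2 → k, u ≠ 0 ∧
      ∀ (c : GQ → Matrix (Fin 2) (Fin 2) k) (ρ : GaloisRepAdic (DualNumber k))
        (bb : Module.Basis (Fin 2) (DualNumber k) ρ.V),
        (∀ σ : GQ, matOfBasis ρ bb σ = (r σ).map (TrivSqZeroExt.inl : k → DualNumber k)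
          + (c σ).map (TrivSqZeroExt.inr : k → DualNumber k)) →
        ρ.DetIsCyclotomic p → ρ.IsStrictOrdinaryAt p →
        ∃ (X H : Matrix (Fin 2) (Fin 2) k) (γ : GQ → k), X.trace = 0 ∧ H.trace = 0 ∧
          H * H = 1 ∧
          ∀ σ ∈ P.decompositionSubgroup ℚ,
            TangentAd.adOf r c σ = X - r σ * X * r σ⁻¹ + γ σ • nil u ∧
            (∀ a : ℕ, (∀ μ : Qb, μ ^ p = 1 → σ μ = μ ^ a) →
              r σ * nil u * r σ⁻¹ = (a : k) • nil u) ∧
            ∃ κ : k, r σ * H * r σ⁻¹ - H = κ • nil u := by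
  have hp : p.Prime := Fact.out
  haveI : NeZero p := ⟨hp.ne_zero⟩
  haveI : NeZero (p : Qb) := ⟨Nat.cast_ne_zero.mpr hp.ne_zero⟩
  obtain ⟨ζ, hζ⟩ := HasEnoughRootsOfUnity.exists_primitiveRoot Qb p
  obtain ⟨σ₀, hσ₀, hσ₀ζ⟩ :=
    Fermat.Agent.Lib.InertiaCycloP.exists_mem_inertia_ne hp hp2 P hP hζ
  by_cases h1 : r σ₀ = 1
  · refine ⟨fun _ => 1, ?_, fun c ρ bb hmat hdet hso => ?_⟩
    · intro h
      have h0 := congrFun h 0
      exact one_ne_zero h0
    · exact absurd h1 (ne_one_of_hmat hp2 r c ρ bb hmat hdet hso P hP hζ hσ₀ hσ₀ζ)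
  · have hA : r σ₀ - 1 ≠ 0 := sub_ne_zero.mpr h1
    obtain ⟨w, hw⟩ := exists_mulVec_ne_zero hA
    exact ⟨(r σ₀ - 1) *ᵥ w, hw, fun c ρ bb hmat hdet hso =>
      exists_canonical_of_hmat hp2 r c ρ bb hmat hdet hso P hP hζ hσ₀ hσ₀ζ _ w hw rfl⟩

/-- An inertia element at `P ∣ p` acting on `μ_p` through an exponent `a` with `(a : k) ≠ 1`. -/
theorem exists_inertia_cyclo_ne_one {p : ℕ} [Fact p.Prime] [CharP k p] (hp2 : p ≠ 2)
    (P : ValuationSubring Qb) (hP : P.LiesOverPrime p) :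
    ∃ σ₀ ∈ P.inertiaSubgroupIn ℚ, ∃ a : ℕ, (∀ μ : Qb, μ ^ p = 1 → σ₀ μ = μ ^ a) ∧
      (a : k) ≠ 1 := by
  have hp : p.Prime := Fact.out
  haveI : NeZero p := ⟨hp.ne_zero⟩
  haveI : NeZero (p : Qb) := ⟨Nat.cast_ne_zero.mpr hp.ne_zero⟩
  obtain ⟨ζ, hζ⟩ := HasEnoughRootsOfUnity.exists_primitiveRoot Qb p
  obtain ⟨σ₀, hσ₀, hσ₀ζ⟩ :=
    Fermat.Agent.Lib.InertiaCycloP.exists_mem_inertia_ne hp hp2 P hP hζ
  obtain ⟨a₀, -, ha₀ζ, ha₀⟩ := exists_cyclo_exp hζ σ₀
  refine ⟨σ₀, hσ₀, a₀, ha₀, fun h => hσ₀ζ ?_⟩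
  rw [ha₀ζ]
  exact pow_eq_self_of_cast_eq_one hζ h

/-- No non-zero multiple of `nil u` squares to `1`: a matrix `H` with `H * H = 1` is not in the
line `k · nil u`. -/
theorem ne_smul_nil_of_mul_self_eq_one {H : Matrix (Fin 2) (Fin 2) k} (hH : H * H = 1)
    (u : Fin 2 → k) (a : k) : H ≠ a • nil u := by
  intro h
  rw [h, Matrix.smul_mul, Matrix.mul_smul, nil_mul_nil, smul_zero, smul_zero] at hH
  have h00 := congrFun (congrFun hH 0) 0
  simp at h00

end Fermat.Agent.S56.Loc.MatLoc
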