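/-
S56 / LOC, brick LM at the class level (helper48): the `hur` binder of
`GW/Numeric.finrank_le_card_mul` at the primes `v ∈ Smin ∖ {p}`.

`k` a field of characteristic `p ≠ 2`, `r : G_ℚ →* M₂(k)`, `(M, j)` ANY model of `ad⁰`
(`Sel.ClassMap.IsAdModel r M j`), `M` discrete at level `T`, `v ∈ T` a prime `≠ p` such that `r`
is non-trivial on the inertia group of the distinguished place above `v`.

* `r1_mem_H1ur_of_unipotent` : a class `[z]` with `j (z σ) = c σ * r σ⁻¹`, where `r + ε c` are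
  the matrices of a lift to `k[ε]` which is unipotent on inertia at `v`, restricts to an
  unramified class at `v`;
* `r1_mem_H1ur_of_zero` : the same for `c = 0`;
* `hur_of_unipotent` : the `hur` binder for a space `W` of classes in the shape of
  `Sel.ClassMapCond.ClassBound`.
-/
import Fermat.Agent.S56.Sel.ClassMap
import Fermat.Agent.S56.Loc.MatLoc
import Fermat.Agent.S56.Loc.LocWrap

set_option autoImplicit false

open CategoryTheory groupCohomology ExtCitation

namespace Fermat.Agent.S56.Loc.ModelLM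

open Fermat.Agent.S53.MatRep Fermat.Agent.S55 Fermat.Agent.S55.Abs Fermat.Agent.S55.Count
  Fermat.Agent.S55.Base Fermat.Agent.S55.Base.EvalQ Fermat.Agent.S55.Glue
  Fermat.Agent.S56.GW.LevelLowerUr Fermat.Agent.S56.Sel.ClassMap

local notation "Qb" => AlgebraicClosure ℚ

variable {p : ℕ} [Fact p.Prime] {k : Type} [Field k]
  {r : GQ →* Matrix (Fin 2) (Fin 2) k} {M : Rep.{0} (ZMod p) GQ}
  {j : M →+ Matrix (Fin 2) (Fin 2) k} {T : Finset Nat.Primes}

/-- **LM at the class level.**  The class of a cocycle `z` with `j ∘ z = adOf r c`, where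
`r + ε c` is a lift which is unipotent on inertia at `v ≠ p` and `r` is ramified at `v`,
restricts to an unramified class at `v`. -/
theorem r1_mem_H1ur_of_unipotent [CharP k p] (hp2 : p ≠ 2) (hM : IsAdModel r M j)
    (hpT : pPrime p ∈ T) (invT : InvS p T) (hN : IsDisc (globalLevel T) M) (v : ↥T)
    (hvp : (v.1 : ℕ) ≠ p)
    (hram : ∃ σ ∈ (primeLocalPlace v.1).inertiaSubgroupIn ℚ, r σ ≠ 1)
    (c : GQ → Matrix (Fin 2) (Fin 2) k) (z : ↥(Z1 (globalLevel T) M))
    (hz : ∀ σ : GQ, j ((z : GQ → M) σ) = TangentAd.adOf r c σ)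
    (ρ : GaloisRepAdic (DualNumber k)) (bb : Module.Basis (Fin 2) (DualNumber k) ρ.V)
    (hmat : ∀ σ : GQ, matOfBasis ρ bb σ = (r σ).map (TrivSqZeroExt.inl : k → DualNumber k)
      + (c σ).map (TrivSqZeroExt.inr : k → DualNumber k))
    (hun : ρ.IsUnipotentOnInertiaAt (v.1 : ℕ)) :
    (dataS p T hpT invT).r1 M v (Submodule.Quotient.mk z)
      ∈ H1ur v.1 (Rep.res (primeLocalToGlobal v.1) M) := by
  obtain ⟨X, hX0, hX⟩ := Fermat.Agent.S56.Loc.MatLoc.exists_inner_on_inertia_of_hmat hp2 v.1.2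
    hvp r c ρ bb hmat hun (primeLocalPlace v.1) (UnramLevel.liesOverPrime_primeLocalPlace v.1)
    hram
  obtain ⟨m₀, hm₀⟩ := hM.surj X hX0
  refine Fermat.Agent.S56.Loc.LocWrap.r1_mem_H1ur_of_inertia hpT invT hN z v (-m₀)
    fun σ hσ => hM.inj ?_
  have e : j (M.ρ σ (-m₀) - -m₀) = X - r σ * X * r σ⁻¹ := by
    rw [map_sub, hM.equiv, map_neg, hm₀, Matrix.mul_neg, Matrix.neg_mul, sub_neg_eq_add,
      neg_add_eq_sub]
  rw [e, hz σ]
  exact (hX σ hσ).2

/-- The class of a cocycle `z` with `j ∘ z = adOf r 0` is trivial, in particular unramified. -/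
theorem r1_mem_H1ur_of_zero (hM : IsAdModel r M j) (hpT : pPrime p ∈ T) (invT : InvS p T)
    (hN : IsDisc (globalLevel T) M) (v : ↥T) (z : ↥(Z1 (globalLevel T) M))
    (hz : ∀ σ : GQ, j ((z : GQ → M) σ) = TangentAd.adOf r 0 σ) :
    (dataS p T hpT invT).r1 M v (Submodule.Quotient.mk z)
      ∈ H1ur v.1 (Rep.res (primeLocalToGlobal v.1) M) := by
  refine Fermat.Agent.S56.Loc.LocWrap.r1_mem_H1ur_of_inertia hpT invT hN z v 0
    fun σ _ => hM.inj ?_
  rw [hz σ, TangentAd.adOf_apply, Pi.zero_apply, zero_mul, map_zero, sub_zero, map_zero]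

/-- **The `hur` binder at `v ∈ Smin ∖ {p}`.**  `C` a set of matrix cochains all of whose non-zero
elements are the `ε`-part of a lift which is unipotent on inertia at `v`; `W` a space of classes
`[z]` with `j ∘ z = adOf r c`, `c ∈ C`.  Then every class of `W` is unramified at `v`. -/
theorem hur_of_unipotent [CharP k p] (hp2 : p ≠ 2) (hM : IsAdModel r M j)
    (hpT : pPrime p ∈ T) (invT : InvS p T) (hN : IsDisc (globalLevel T) M) (v : ↥T)
    (hvp : (v.1 : ℕ) ≠ p)
    (hram : ∃ σ ∈ (primeLocalPlace v.1).inertiaSubgroupIn ℚ, r σ ≠ 1)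
    (C : Set (GQ → Matrix (Fin 2) (Fin 2) k))
    (hlift : ∀ c ∈ C, c ≠ 0 → ∃ ρ : GaloisRepAdic (DualNumber k),
      ρ.IsUnipotentOnInertiaAt (v.1 : ℕ) ∧
      ∃ bb : Module.Basis (Fin 2) (DualNumber k) ρ.V, ∀ σ : GQ,
        matOfBasis ρ bb σ = (r σ).map (TrivSqZeroExt.inl : k → DualNumber k)
          + (c σ).map (TrivSqZeroExt.inr : k → DualNumber k))
    (W : Submodule (ZMod p) (Abs.H1 (globalLevel T) M))
    (hW : ∀ x ∈ W, ∃ c ∈ C, ∃ z : ↥(Z1 (globalLevel T) M), x = Submodule.Quotient.mk z ∧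
      ∀ σ : GQ, j ((z : GQ → M) σ) = TangentAd.adOf r c σ) :
    ∀ x ∈ W, (dataS p T hpT invT).r1 M v x ∈ H1ur v.1 (Rep.res (primeLocalToGlobal v.1) M) := by
  intro x hx
  obtain ⟨c, hc, z, rfl, hz⟩ := hW x hx
  by_cases h0 : c = 0
  · subst h0
    exact r1_mem_H1ur_of_zero hM hpT invT hN v z hz
  · obtain ⟨ρ, hun, bb, hmat⟩ := hlift c hc h0
    exact r1_mem_H1ur_of_unipotent hp2 hM hpT invT hN v hvp hram c z hz ρ bb hmat hun

end Fermat.Agent.S56.Loc.ModelLM
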