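/-
S56 / brick LO, the count (LO-1) (helper146; literal and proof plan of helper57 #6864, dealt as
a twin by the TW ledger L-18): for `p` odd and a finite `𝔽_p[G_p]`-module `N` on which the local
Galois group `G_p = Gal(ℚ̄_p/ℚ_p)` acts through the mod `p` cyclotomic character,

  `dim H¹(G_p, N) ≤ 2 dim N`.

Proof (Kummer theory, no local Euler characteristic).  In an `𝔽_p`-basis of `N` a level cocycle
`c` has coordinates `c_j` with `c_j (s t) = ω(s) c_j t + c_j s`, so `g ↦ ζ ^ (c_j g)` is a level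
`1`-cocycle with values in `ℚ̄_p^×`; Hilbert 90 gives `β_j` with `g β_j = β_j ζ ^ (c_j g)`, and
`β_j ^ p ∈ ℚ_p^×`.  The map `c ↦ ([β_j ^ p])_j` to `(ℚ_p^× / (ℚ_p^×)^p)^(dim N)` is injective
modulo coboundaries, and `[ℚ_p^× : (ℚ_p^×)^p] = p · |μ_p(ℤ_p)| · |𝔽_p| = p²` for `p` odd.

* `rootsOfUnity_padicInt_eq_bot` : `μ_p(ℤ_p) = 1` for `p` odd;
* `index_range_pow_padic` : `[ℚ_p^× : (ℚ_p^×)^p] = p²` for `p` odd;
* `exists_kummer_twist` : the Kummer generator of an `ω`-twisted level cocycle;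
* `finite_H1_card_le` : `H¹` is finite of cardinality `≤ (p²)^(dim N)`;
* `finrank_H1_le_two_mul` : the exit, in the Prelude spelling of the local group at `p`.
-/
import Fermat.Agent.CFT.LocalBr.Fin
import Fermat.Agent.S55.Abs.Bridge

set_option autoImplicit false

open CategoryTheory groupCohomology ExtCitation

namespace Fermat.Agent.S56.Loc.OrdH1Twin

open Fermat.Agent.S55 Fermat.Agent.S55.Abs Fermat.Agent.CFT Fermat.Agent.CFT.LocalBr
  Fermat.Agent.CFT.LocalBr.Fin Fermat.Agent.CFT.Local Fermat.Agent.S55.Glue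

local notation "Qb" => AlgebraicClosure ℚ

variable (p : ℕ) [Fact p.Prime]

/-! ### `[ℚ_p^× : (ℚ_p^×)^p] = p²` -/

/-- `ℤ_p` has no non-trivial `p`-th root of unity (`p` odd). -/
theorem rootsOfUnity_padicInt_eq_bot (hp2 : p ≠ 2) : rootsOfUnity p ℤ_[p] = ⊥ := by
  have hp : p.Prime := Fact.out
  rw [eq_bot_iff]
  intro u hu
  rw [Subgroup.mem_bot]
  have hup : u ^ p = 1 := (mem_rootsOfUnity p u).1 hu
  have hpe : ((p : ℕ) : ℤ_[p]) = (p : ℤ_[p]) ^ 1 * ((1 : ℤ_[p]ˣ) : ℤ_[p]) := by simp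
  have hu1 : u ∈ principalUnits ℤ_[p] 1 := by
    show (u : ℤ_[p]) - 1 ∈ IsLocalRing.maximalIdeal ℤ_[p] ^ 1
    rw [pow_one, ← PadicInt.ker_toZMod, RingHom.mem_ker, map_sub, map_one, sub_eq_zero]
    have h1 : PadicInt.toZMod (u : ℤ_[p]) ^ p = 1 := by
      rw [← map_pow, ← Units.val_pow_eq_pow_val, hup, Units.val_one, map_one]
    rw [ZMod.pow_card] at h1
    exact h1
  have hne : 1 < 1 * (p - 1) := by
    have := hp.two_le
    omega
  exact eq_one_of_pow_prime_eq_one PadicInt.irreducible_p hp hpe 1 le_rfl hne hu1 hup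

/-- `[ℚ_p^× : (ℚ_p^×)^p] = p²` for `p` odd. -/
theorem index_range_pow_padic (hp2 : p ≠ 2) :
    (powMonoidHom p : ℚ_[p]ˣ →* ℚ_[p]ˣ).range.index = p ^ 2 := by
  have hp : p.Prime := Fact.out
  have hpe : ((p : ℕ) : ℤ_[p]) = (p : ℤ_[p]) ^ 1 * ((1 : ℤ_[p]ˣ) : ℤ_[p]) := by simp
  have hfin : Finite (IsLocalRing.ResidueField ℤ_[p]) :=
    Finite.of_equiv _ PadicInt.residueField.symm.toEquiv
  rw [index_range_pow_prime_fractionField (O := ℤ_[p]) ℚ_[p] PadicInt.irreducible_p hp hpe,
    rootsOfUnity_padicInt_eq_bot p hp2, Subgroup.card_bot,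
    Nat.card_congr PadicInt.residueField.toEquiv, Nat.card_zmod]
  ring

/-! ### The twisted Kummer generator -/

/-- Twisted equivariance of `a ↦ ζ ^ a`. -/
theorem smul_zp_twist (τ : Gq p) (a : ZMod p) :
    τ • zp p p a = zp p p ((cycloChar p (localGaloisToGlobal p τ) : ZMod p) * a) := by
  have h := muEmb_equivariant p p τ a
  exact congrArg Additive.toMul h

/-- **Kummer generator of an `ω`-twisted level cocycle** `c : G_p → 𝔽_p`: there is
`β ∈ ℚ̄_p^×` with `g β = β ζ ^ (c g)` for all `g`, and `β ^ p ∈ ℚ_p^×`. -/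
theorem exists_kummer_twist (c : Gq p → ZMod p)
    (hc : ∀ s t, c (s * t) = (cycloChar p (localGaloisToGlobal p s) : ZMod p) * c t + c s)
    (F₀ : IntermediateField ℚ Qb) [FiniteDimensional ℚ F₀]
    (hlev : ∀ g s, localGaloisToGlobal p s ∈ F₀.fixingSubgroup → c (g * s) = c g) :
    ∃ (e : ℚ_[p]ˣ) (β : (PadicAlgCl p)ˣ),
      algebraMap ℚ_[p] (PadicAlgCl p) (e : ℚ_[p]) = (β : PadicAlgCl p) ^ p ∧
      ∀ g : Gq p, g • β = β * zp p p (c g) := by
  have := finiteDimensional_localLevelField p F₀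
  obtain ⟨β, hβ⟩ := Cyclic.exists_smul_div_eq_of_levelConstant (⊤ : Subgroup (Gq p))
    (fun g => zp p p (c g))
    (fun g _ h _ => by
      show zp p p (c (g * h)) = g • zp p p (c h) * zp p p (c g)
      rw [hc, zp_add, smul_zp_twist])
    (localLevelField p F₀)
    (fun g _ s _ hsF => by
      show zp p p (c (g * s)) = zp p p (c g)
      rw [hlev g s ((mem_fixingSubgroup_localLevelField_iff p F₀ s).1 hsF)])
  have hβ' : ∀ g : Gq p, g • β = β * zp p p (c g) := fun g => by
    have h := hβ g (Subgroup.mem_top g)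
    rw [div_eq_iff_eq_mul] at h
    rw [h, mul_comm]
  have hfix : ∀ g ∈ (⊥ : IntermediateField ℚ_[p] (PadicAlgCl p)).fixingSubgroup,
      g ((β : PadicAlgCl p) ^ p) = (β : PadicAlgCl p) ^ p := by
    intro g _
    have h := congrArg (fun u : (PadicAlgCl p)ˣ => ((u ^ p : (PadicAlgCl p)ˣ) : PadicAlgCl p))
      (hβ' g)
    simp only [mul_pow, zp_pow, mul_one] at h
    rw [map_pow]
    simpa using h
  have hmem := mem_of_forall_fixingSubgroup (⊥ : IntermediateField ℚ_[p] (PadicAlgCl p)) _ hfix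
  obtain ⟨y, hy⟩ := IntermediateField.mem_bot.1 hmem
  have hy0 : y ≠ 0 := by
    rintro rfl
    rw [map_zero] at hy
    exact (pow_ne_zero p (Units.ne_zero β)) hy.symm
  exact ⟨Units.mk0 y hy0, β, hy, hβ'⟩

/-! ### The count -/

/-- `H¹(G_p, N)` is finite of cardinality at most `(p²)^(dim N)` when `G_p` acts on `N` through
the mod `p` cyclotomic character (`p` odd). -/
theorem finite_H1_card_le (hp2 : p ≠ 2) (N : Rep.{0} (ZMod p) (Gq p)) [Module.Finite (ZMod p) N]
    (hN : ∀ g n, N.ρ g n = ((cycloChar p (localGaloisToGlobal p g) : (ZMod p)ˣ) : ZMod p) • n) :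
    Finite (S55.Abs.H1 (localLevel (localGaloisToGlobal p)) N) ∧
      Nat.card (S55.Abs.H1 (localLevel (localGaloisToGlobal p)) N) ≤
        (p ^ 2) ^ Module.finrank (ZMod p) N := by
  classical
  have hp : p.Prime := Fact.out
  -- the target
  have hidx := index_range_pow_padic p hp2
  have hfi : (powMonoidHom p : ℚ_[p]ˣ →* ℚ_[p]ˣ).range.FiniteIndex :=
    ⟨by rw [hidx]; exact pow_ne_zero 2 hp.ne_zero⟩
  have hQfin : Finite (ℚ_[p]ˣ ⧸ (powMonoidHom p : ℚ_[p]ˣ →* ℚ_[p]ˣ).range) :=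
    Subgroup.finite_quotient_of_finiteIndex
  have hQcard : Nat.card (ℚ_[p]ˣ ⧸ (powMonoidHom p : ℚ_[p]ˣ →* ℚ_[p]ˣ).range) = p ^ 2 := by
    rw [← Subgroup.index_eq_card, hidx]
  -- coordinates
  let b := Module.finBasis (ZMod p) N
  -- the Kummer generators of the coordinates of a level cocycle
  have key : ∀ (z : ↥(Z1 (localLevel (localGaloisToGlobal p)) N))
      (j : Fin (Module.finrank (ZMod p) N)),
      ∃ (e : ℚ_[p]ˣ) (β : (PadicAlgCl p)ˣ),
        algebraMap ℚ_[p] (PadicAlgCl p) (e : ℚ_[p]) = (β : PadicAlgCl p) ^ p ∧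
        ∀ g : Gq p, g • β = β * zp p p (b.repr ((z : Gq p → N) g) j) := by
    rintro ⟨z, ⟨_, ⟨F₀, hF₀, rfl⟩, hlev⟩, hcoc⟩ j
    have := hF₀
    have hcc : ∀ g h : Gq p, z (g * h) = N.ρ g (z h) + z g := (mem_cocycles₁_iff z).1 hcoc
    refine exists_kummer_twist p (fun g => b.repr (z g) j) (fun s t => ?_) F₀ (fun g s hs => ?_)
    · show b.repr (z (s * t)) j = _ * b.repr (z t) j + b.repr (z s) j
      rw [hcc, hN, map_add, map_smul, Finsupp.add_apply, Finsupp.smul_apply, smul_eq_mul]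
    · show b.repr (z (g * s)) j = b.repr (z g) j
      rw [hlev g s hs]
  choose ee ββ hee hββ using key
  let Φ : ↥(Z1 (localLevel (localGaloisToGlobal p)) N) →
      (Fin (Module.finrank (ZMod p) N) → ℚ_[p]ˣ ⧸ (powMonoidHom p : ℚ_[p]ˣ →* ℚ_[p]ˣ).range) :=
    fun z j => QuotientGroup.mk (ee z j)
  -- equal images ⇒ cohomologous
  have hΦ : ∀ z z' : ↥(Z1 (localLevel (localGaloisToGlobal p)) N), Φ z = Φ z' →
      z - z' ∈ (coboundaries₁ N).comap (Z1 (localLevel (localGaloisToGlobal p)) N).subtype := by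
    intro z z' hzz
    have hj : ∀ j, ∃ a : ZMod p, ∀ g : Gq p,
        b.repr ((z : Gq p → N) g) j - b.repr ((z' : Gq p → N) g) j =
          (cycloChar p (localGaloisToGlobal p g) : ZMod p) * a - a := by
      intro j
      have h1 : (ee z j)⁻¹ * ee z' j ∈ (powMonoidHom p : ℚ_[p]ˣ →* ℚ_[p]ˣ).range :=
        QuotientGroup.eq.1 (congrFun hzz j)
      obtain ⟨d, hd⟩ := h1
      have hd' : d ^ p = (ee z j)⁻¹ * ee z' j := hd
      let D : (PadicAlgCl p)ˣ := Units.map (algebraMap ℚ_[p] (PadicAlgCl p)).toMonoidHom d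
      have hD : ∀ g : Gq p, g • D = D := by
        intro g
        ext
        show g (algebraMap ℚ_[p] (PadicAlgCl p) (d : ℚ_[p])) =
          algebraMap ℚ_[p] (PadicAlgCl p) (d : ℚ_[p])
        exact g.commutes _
      have hDp : (D : PadicAlgCl p) ^ p * (ββ z j : PadicAlgCl p) ^ p =
          (ββ z' j : PadicAlgCl p) ^ p := by
        have h2 : ee z j * d ^ p = ee z' j := by rw [hd']; group
        have h3 := congrArg (fun u : ℚ_[p]ˣ => algebraMap ℚ_[p] (PadicAlgCl p) (u : ℚ_[p])) h2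
        simp only [Units.val_mul, Units.val_pow_eq_pow_val, map_mul, map_pow] at h3
        rw [hee z j, hee z' j] at h3
        rw [← h3, mul_comm]
        rfl
      set w : (PadicAlgCl p)ˣ := ββ z j * D / ββ z' j with hw
      have hwp : w ^ p = 1 := by
        rw [hw, div_pow, mul_pow, div_eq_one]
        ext
        simp only [Units.val_mul, Units.val_pow_eq_pow_val]
        rw [← hDp, mul_comm]
      obtain ⟨a, ha⟩ := exists_zp_of_pow_eq_one p w hwp
      refine ⟨a, fun g => ?_⟩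
      have hwg : g • w = zp p p ((cycloChar p (localGaloisToGlobal p g) : ZMod p) * a) := by
        rw [← ha]
        exact smul_zp_twist p g a
      have h4 : g • w = w * (zp p p (b.repr ((z : Gq p → N) g) j) /
          zp p p (b.repr ((z' : Gq p → N) g) j)) := by
        rw [hw, smul_div', smul_mul', hββ z j g, hββ z' j g, hD g]
        rw [div_mul_div_comm, mul_right_comm]
      rw [hwg, ← ha] at h4
      have h5 : zp p p ((cycloChar p (localGaloisToGlobal p g) : ZMod p) * a) *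
          zp p p (b.repr ((z' : Gq p → N) g) j) =
          zp p p a * zp p p (b.repr ((z : Gq p → N) g) j) := by
        rw [h4, mul_assoc, div_mul_cancel]
      rw [← zp_add, ← zp_add] at h5
      have h6 := zp_injective p h5
      linear_combination (-1 : ZMod p) * h6
    choose a ha using hj
    have hm : ∀ j, b.repr (∑ i, a i • b i) j = a j := fun j => congrFun (b.repr_sum_self a) j
    refine ⟨∑ i, a i • b i, ?_⟩
    funext g
    show (d₀₁ N).hom (∑ i, a i • b i) g = (z : Gq p → N) g - (z' : Gq p → N) g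
    rw [d₀₁_hom_apply, hN]
    apply b.ext_elem
    intro j
    simp only [map_sub, map_smul, Finsupp.coe_sub, Finsupp.coe_smul, Pi.sub_apply, Pi.smul_apply,
      smul_eq_mul, hm]
    exact (ha j g).symm
  -- representatives of the classes
  have hsurj : Function.Surjective (Submodule.Quotient.mk
      (p := (coboundaries₁ N).comap (Z1 (localLevel (localGaloisToGlobal p)) N).subtype)) :=
    Submodule.Quotient.mk_surjective _
  have hs : ∀ x : S55.Abs.H1 (localLevel (localGaloisToGlobal p)) N,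
      Submodule.Quotient.mk (Function.surjInv hsurj x) = x := Function.surjInv_eq hsurj
  have hΨ : Function.Injective
      (fun x : S55.Abs.H1 (localLevel (localGaloisToGlobal p)) N =>
        Φ (Function.surjInv hsurj x)) := by
    intro x y hxy
    have h1 := hΦ _ _ hxy
    rw [← hs x, ← hs y]
    exact (Submodule.Quotient.eq _).2 h1
  have hfin : Finite (S55.Abs.H1 (localLevel (localGaloisToGlobal p)) N) :=
    Finite.of_injective _ hΨ
  refine ⟨hfin, ?_⟩
  calc Nat.card (S55.Abs.H1 (localLevel (localGaloisToGlobal p)) N)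
      ≤ Nat.card (Fin (Module.finrank (ZMod p) N) →
          ℚ_[p]ˣ ⧸ (powMonoidHom p : ℚ_[p]ˣ →* ℚ_[p]ˣ).range) :=
        Nat.card_le_card_of_injective _ hΨ
    _ = (p ^ 2) ^ Module.finrank (ZMod p) N := by rw [Nat.card_fun, hQcard, Nat.card_fin]

/-- `dim H¹(G_p, N) ≤ 2 dim N`, for the group `Gal(ℚ̄_p/ℚ_p)`. -/
theorem finrank_H1_le_two_mul_Gq (hp2 : p ≠ 2) (N : Rep.{0} (ZMod p) (Gq p))
    [Module.Finite (ZMod p) N]
    (hN : ∀ g n, N.ρ g n = ((cycloChar p (localGaloisToGlobal p g) : (ZMod p)ˣ) : ZMod p) • n) :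
    Module.Finite (ZMod p) (S55.Abs.H1 (localLevel (localGaloisToGlobal p)) N) ∧
      Module.finrank (ZMod p) (S55.Abs.H1 (localLevel (localGaloisToGlobal p)) N) ≤
        2 * Module.finrank (ZMod p) N := by
  have hp : p.Prime := Fact.out
  obtain ⟨hfin, hcard⟩ := finite_H1_card_le p hp2 N hN
  have hmf : Module.Finite (ZMod p) (S55.Abs.H1 (localLevel (localGaloisToGlobal p)) N) :=
    Module.Finite.of_finite
  refine ⟨hmf, ?_⟩
  have h1 : Nat.card (S55.Abs.H1 (localLevel (localGaloisToGlobal p)) N) =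
      p ^ Module.finrank (ZMod p) (S55.Abs.H1 (localLevel (localGaloisToGlobal p)) N) := by
    rw [Module.natCard_eq_pow_finrank (K := ZMod p), Nat.card_zmod]
  rw [h1, ← pow_mul] at hcard
  exact (Nat.pow_le_pow_iff_right hp.one_lt).1 hcard

variable {p}

/-- **(LO-1).** For `p` odd and a finite `𝔽_p`-module `N` on which the local Galois group at `p`
acts through the mod `p` cyclotomic character: `H¹(G_p, N)` is finite-dimensional and
`dim H¹(G_p, N) ≤ 2 dim N`. -/
theorem finrank_H1_le_two_mul (hp2 : p ≠ 2)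
    (N : Rep.{0} (ZMod p) (primeLocalGaloisGroup (pPrime p))) [Module.Finite (ZMod p) N]
    (hN : ∀ g n, N.ρ g n =
      ((cycloChar p (primeLocalToGlobal (pPrime p) g) : (ZMod p)ˣ) : ZMod p) • n) :
    Module.Finite (ZMod p) (S55.Abs.H1 (localLevel (primeLocalToGlobal (pPrime p))) N) ∧
      Module.finrank (ZMod p) (S55.Abs.H1 (localLevel (primeLocalToGlobal (pPrime p))) N) ≤
        2 * Module.finrank (ZMod p) N :=
  finrank_H1_le_two_mul_Gq p hp2 N hN

end Fermat.Agent.S56.Loc.OrdH1Twin
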