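import Mathlib
import Fermat.Agent.S55.Abs.LES

/-!
# S56, brick LO (ordinary local bound), generic half

(helper56; twin of the generic half of `Loc/OrdCount`.)  `k` a field, `G` a group with a level
family `𝒰`, `i : U ⟶ M` an injective morphism of representations, `D` a subspace of `M` with
`g x - x ∈ i(U)` for `x ∈ D` and `D ∩ i(U) = 0`.

* `finrank_range_H1map_add_le` :
  `dim (image of H¹(U) in H¹(M)) + dim D ≤ dim H¹(U) + dim H⁰(M)`
  (the classes `[g ↦ g x - x]`, `x ∈ D`, die in `H¹(M)`; the kernel of `x ↦ [g ↦ g x - x]` embeds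
  into `H⁰(M)`).
* `finrank_le_of_le_range` : if moreover `dim H¹(U) ≤ 2 e` and `dim D = e`, every subspace `W'` of
  the image of `H¹(U)` in `H¹(M)` has `dim W' ≤ dim H⁰(M) + e`.
-/

set_option autoImplicit false

open CategoryTheory groupCohomology

namespace Fermat.Agent.S56.Loc.OrdCountGen

open Fermat.Agent.S55.Abs

variable {k : Type} [Field k] {G : Type} [Group G] (𝒰 : LevelFamily G) {U M : Rep.{0} k G}

/-- **LO, generic count.**  `dim (range H¹(i)) + dim D ≤ dim H¹(U) + dim H⁰(M)`. -/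
theorem finrank_range_H1map_add_le [Module.Finite k M] (i : U ⟶ M)
    (hi : Function.Injective i.hom) [Module.Finite k (H1 𝒰 U)]
    (D : Submodule k M)
    (hDU : ∀ x ∈ D, ∀ g, ∃ u : U, i.hom u = M.ρ g x - x)
    (hdisj : ∀ x ∈ D, (∃ u : U, i.hom u = x) → x = 0)
    (hlev : ∀ x ∈ D, IsLev₁ 𝒰 (fun g => M.ρ g x - x)) :
    Module.finrank k (LinearMap.range (H1map 𝒰 i)) + Module.finrank k D ≤
      Module.finrank k (H1 𝒰 U) + Module.finrank k (S55.Abs.H0 M) := by
  classical
  have : Module.Finite k U := Module.Finite.of_injective i.hom.toLinearMap hi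
  -- the inverse of `i` on its range
  let e : U ≃ₗ[k] LinearMap.range i.hom.toLinearMap := LinearEquiv.ofInjective i.hom.toLinearMap hi
  have he : ∀ (y : LinearMap.range i.hom.toLinearMap), i.hom (e.symm y) = y.1 := by
    intro y
    have := congrArg Subtype.val (e.apply_symm_apply y)
    exact this
  have hmem : ∀ (x : D) (g : G), M.ρ g x.1 - x.1 ∈ LinearMap.range i.hom.toLinearMap := by
    intro x g
    obtain ⟨u, hu⟩ := hDU x.1 x.2 g
    exact ⟨u, hu⟩
  -- the cochain of `x ∈ D`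
  let t : D → G → U := fun x g => e.symm ⟨M.ρ g x.1 - x.1, hmem x g⟩
  have ht : ∀ (x : D) (g : G), i.hom (t x g) = M.ρ g x.1 - x.1 := fun x g => he _
  have htZ : ∀ x : D, t x ∈ Z1 𝒰 U := by
    intro x
    refine ⟨?_, ?_⟩
    · obtain ⟨V, hV, h⟩ := hlev x.1 x.2
      refine ⟨V, hV, fun g s hs => hi ?_⟩
      rw [ht, ht]
      exact h g s hs
    · refine (mem_cocycles₁_iff _).2 fun g h => hi ?_
      rw [map_add, Rep.hom_comm_apply, ht, ht, ht, map_mul, Module.End.mul_apply, map_sub]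
      abel
  have htadd : ∀ x y : D, t (x + y) = t x + t y := by
    intro x y
    funext g
    apply hi
    rw [Pi.add_apply, map_add, ht, ht, ht, Submodule.coe_add, map_add]
    abel
  have htsmul : ∀ (a : k) (x : D), t (a • x) = a • t x := by
    intro a x
    funext g
    apply hi
    rw [Pi.smul_apply, map_smul, ht, ht, Submodule.coe_smul, map_smul, smul_sub]
  -- `δ : D → H¹(U)`
  let δ : D →ₗ[k] H1 𝒰 U :=
    { toFun := fun x => Submodule.Quotient.mk ⟨t x, htZ x⟩
      map_add' := fun x y => by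
        rw [← Submodule.Quotient.mk_add]
        congr 1
        exact Subtype.ext (htadd x y)
      map_smul' := fun a x => by
        rw [RingHom.id_apply, ← Submodule.Quotient.mk_smul]
        congr 1
        exact Subtype.ext (htsmul a x) }
  have hδ : ∀ x : D, δ x = Submodule.Quotient.mk ⟨t x, htZ x⟩ := fun _ => rfl
  -- `range δ ≤ ker H¹(i)`
  have hle : LinearMap.range δ ≤ LinearMap.ker (H1map 𝒰 i) := by
    rintro _ ⟨x, rfl⟩
    rw [LinearMap.mem_ker, hδ]
    show (Submodule.Quotient.mk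
      (⟨cmap₁ i (t x), cmap₁_mem_Z1 i (htZ x)⟩ : ↥(Z1 𝒰 M)) : H1 𝒰 M) = 0
    rw [Submodule.Quotient.mk_eq_zero, Submodule.mem_comap]
    refine ⟨x.1, funext fun g => ?_⟩
    rw [d₀₁_hom_apply]
    show M.ρ g x.1 - x.1 = i.hom (t x g)
    rw [ht]
  -- the pairs `(x, u)` with `g x - x = i (g u - u)`
  let L : Submodule k (D × U) :=
    { carrier := {z | ∀ g, M.ρ g z.1.1 - z.1.1 = i.hom (U.ρ g z.2 - z.2)}
      add_mem' := by
        intro z z' hz hz' g
        have h1 := hz g
        have h2 := hz' g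
        simp only [Prod.fst_add, Prod.snd_add, Submodule.coe_add, map_add, map_sub] at h1 h2 ⊢
        rw [← sub_eq_zero] at h1 h2 ⊢
        have : (M.ρ g z.1.1 + M.ρ g z'.1.1 - (z.1.1 + z'.1.1)
            - (i.hom (U.ρ g z.2) + i.hom (U.ρ g z'.2) - (i.hom z.2 + i.hom z'.2)))
            = (M.ρ g z.1.1 - z.1.1 - (i.hom (U.ρ g z.2) - i.hom z.2))
              + (M.ρ g z'.1.1 - z'.1.1 - (i.hom (U.ρ g z'.2) - i.hom z'.2)) := by abel
        rw [this, h1, h2, add_zero]
      zero_mem' := by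
        intro g
        simp
      smul_mem' := by
        intro a z hz g
        have h1 := hz g
        simp only [Prod.smul_fst, Prod.smul_snd, Submodule.coe_smul, map_smul, map_sub] at h1 ⊢
        rw [← smul_sub, ← smul_sub, h1] }
  have hL : ∀ z : D × U, z ∈ L ↔ ∀ g, M.ρ g z.1.1 - z.1.1 = i.hom (U.ρ g z.2 - z.2) :=
    fun _ => Iff.rfl
  -- `L` embeds into `H⁰(M)`
  let f : L →ₗ[k] M :=
    ((D.subtype.comp (LinearMap.fst k D U)) - (i.hom.toLinearMap.comp (LinearMap.snd k D U))).comp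
      L.subtype
  have hf : ∀ z : L, f z = z.1.1.1 - i.hom z.1.2 := fun _ => rfl
  have hfinv : ∀ z : L, f z ∈ M.ρ.invariants := by
    intro z g
    have h1 := (hL z.1).1 z.2 g
    rw [hf, map_sub, ← Rep.hom_comm_apply]
    rw [map_sub] at h1
    rw [sub_eq_iff_eq_add] at h1
    rw [h1]
    abel
  have hfinj : Function.Injective (f.codRestrict M.ρ.invariants hfinv) := by
    refine (injective_iff_map_eq_zero _).2 fun z hz => ?_
    have h0 : f z = 0 := congrArg Subtype.val hz
    rw [hf, sub_eq_zero] at h0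
    have hx0 : z.1.1.1 = 0 := hdisj z.1.1.1 z.1.1.2 ⟨z.1.2, h0.symm⟩
    have hu0 : z.1.2 = 0 := by
      apply hi
      rw [← h0, hx0, map_zero]
    exact Subtype.ext (Prod.ext (Subtype.ext hx0) hu0)
  have hLfin : Module.finrank k L ≤ Module.finrank k (S55.Abs.H0 M) :=
    LinearMap.finrank_le_finrank_of_injective hfinj
  -- `ker δ` is covered by `L`
  let pr : L →ₗ[k] D := (LinearMap.fst k D U).comp L.subtype
  have hker : LinearMap.ker δ ≤ LinearMap.range pr := by
    intro x hx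
    rw [LinearMap.mem_ker, hδ, Submodule.Quotient.mk_eq_zero, Submodule.mem_comap] at hx
    obtain ⟨u, hu⟩ := hx
    have hmemL : ((x, u) : D × U) ∈ L := by
      intro g
      have h1 := congrFun hu g
      rw [d₀₁_hom_apply] at h1
      show M.ρ g x.1 - x.1 = i.hom (U.ρ g u - u)
      rw [h1]
      exact (ht x g).symm
    exact ⟨⟨(x, u), hmemL⟩, rfl⟩
  have hkerfin : Module.finrank k (LinearMap.ker δ) ≤ Module.finrank k L :=
    (Submodule.finrank_mono hker).trans (LinearMap.finrank_range_le pr)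
  -- rank-nullity twice
  have h1 := LinearMap.finrank_range_add_finrank_ker δ
  have h2 := LinearMap.finrank_range_add_finrank_ker (H1map 𝒰 i)
  have h3 : Module.finrank k (LinearMap.range δ) ≤ Module.finrank k (LinearMap.ker (H1map 𝒰 i)) :=
    Submodule.finrank_mono hle
  omega

/-- **LO, the `(N2)` shape.**  If moreover `dim H¹(U) ≤ 2 e` and `dim D = e`, every subspace of
the image of `H¹(U)` in `H¹(M)` has dimension `≤ dim H⁰(M) + e`. -/
theorem finrank_le_of_le_range [Module.Finite k M] (i : U ⟶ M)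
    (hi : Function.Injective i.hom) [Module.Finite k (H1 𝒰 U)]
    (D : Submodule k M)
    (hDU : ∀ x ∈ D, ∀ g, ∃ u : U, i.hom u = M.ρ g x - x)
    (hdisj : ∀ x ∈ D, (∃ u : U, i.hom u = x) → x = 0)
    (hlev : ∀ x ∈ D, IsLev₁ 𝒰 (fun g => M.ρ g x - x))
    {e : ℕ} (hH1 : Module.finrank k (H1 𝒰 U) ≤ 2 * e) (hD : Module.finrank k D = e)
    (W' : Submodule k (H1 𝒰 M)) (hW' : W' ≤ LinearMap.range (H1map 𝒰 i)) :
    Module.finrank k W' ≤ Module.finrank k (S55.Abs.H0 M) + e := by
  have h1 := finrank_range_H1map_add_le 𝒰 i hi D hDU hdisj hlev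
  have h2 : Module.finrank k W' ≤ Module.finrank k (LinearMap.range (H1map 𝒰 i)) :=
    Submodule.finrank_mono hW'
  omega

/-- The level hypothesis on `D` is automatic when `M` is discrete. -/
theorem isLev₁_of_isDisc (hM : IsDisc 𝒰 M) (x : M) : IsLev₁ 𝒰 (fun g => M.ρ g x - x) := by
  obtain ⟨V, hV, h⟩ := hM
  refine ⟨V, hV, fun g s hs => ?_⟩
  show M.ρ (g * s) x - x = M.ρ g x - x
  rw [map_mul, Module.End.mul_apply, h s hs x]

/-- `finrank_le_of_le_range` for a discrete `M`. -/
theorem finrank_le_of_le_range_of_isDisc [Module.Finite k M] (hM : IsDisc 𝒰 M) (i : U ⟶ M)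
    (hi : Function.Injective i.hom) [Module.Finite k (H1 𝒰 U)] (D : Submodule k M)
    (hDU : ∀ x ∈ D, ∀ g, ∃ u : U, i.hom u = M.ρ g x - x)
    (hdisj : ∀ x ∈ D, (∃ u : U, i.hom u = x) → x = 0)
    {e : ℕ} (hH1 : Module.finrank k (H1 𝒰 U) ≤ 2 * e) (hD : Module.finrank k D = e)
    (W' : Submodule k (H1 𝒰 M)) (hW' : W' ≤ LinearMap.range (H1map 𝒰 i)) :
    Module.finrank k W' ≤ Module.finrank k (S55.Abs.H0 M) + e :=
  finrank_le_of_le_range 𝒰 i hi D hDU hdisj (fun x _ => isLev₁_of_isDisc 𝒰 hM x) hH1 hD W' hW'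

end Fermat.Agent.S56.Loc.OrdCountGen
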