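/-
S56 / LOC, brick LO at the class level (helper48): the `hp_loc` binder of
`GW/Numeric.finrank_le_card_mul`, strict-ordinary half.

`k` a finite field of characteristic `p ≠ 2`, `|k| = p ^ f`, `r : G_ℚ →* M₂(k)`, `(M, j)` ANY
model of `ad⁰` (`Sel.ClassMap.IsAdModel r M j`), `M` discrete at level `T ∋ p`,
`Γ_p = primeLocalGaloisGroup p`, `r_p = primeLocalToGlobal p`.

* `lineSub j N₀`        : the `𝔽_p`-submodule `{m | j m ∈ k · N₀}` of the model; it has `|k|`
                          elements when `N₀ ≠ 0` has trace zero (`card_lineSub`, `finrank_lineSub`);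
* `exists_lineRep`      : if `Γ` acts on `N₀` through a character `χ` with values in `𝔽_p`, the
                          line is a subrepresentation `U` on which `Γ` acts by `χ`;
* `LO1 p`               : the local count `dim H¹(Γ_p, N) ≤ 2 dim N` for `N` on which `Γ_p` acts
                          through the mod `p` cyclotomic character (a hypothesis here);
* `finrank_map_r1_le_of_line` : the count, given the line `k · nil u` and a complement `H`;
* `hp_loc_ord`          : the `hp_loc` binder for a space `W` of classes `[z]`, `j ∘ z = adOf r c`,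
                          where every non-zero `c` is the `ε`-part of a strictly ordinary lift with
                          cyclotomic determinant:
                          `dim (res_p W) ≤ dim H⁰(Γ_p, M) + f`.
-/
import Fermat.Agent.S56.Sel.ClassMap
import Fermat.Agent.S56.Loc.MatLoc
import Fermat.Agent.S56.Loc.LocWrap
import Fermat.Agent.S56.Loc.OrdCountGen
import Fermat.Agent.CFT.LocalBr.MuEmb
import Fermat.Agent.S55.Glue.LocalRange

set_option autoImplicit false

open CategoryTheory groupCohomology ExtCitation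

namespace Fermat.Agent.S56.Loc.OrdModel

open Fermat.Agent.S53.MatRep Fermat.Agent.S55 Fermat.Agent.S55.Abs Fermat.Agent.S55.Count
  Fermat.Agent.S55.Base Fermat.Agent.S55.Base.EvalQ Fermat.Agent.S55.Glue
  Fermat.Agent.S56.GW.LevelLowerUr Fermat.Agent.S56.Sel.ClassMap Fermat.Agent.S56.Loc.OrdCanon

local notation "Qb" => AlgebraicClosure ℚ

/-! ### The matrix `nil u` -/

section Nil

variable {k : Type} [Field k]

theorem trace_nil (u : Fin 2 → k) : (nil u).trace = 0 := by
  rw [Matrix.trace_fin_two]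
  show u 0 * -(u 1) + u 1 * u 0 = 0
  ring

theorem nil_ne_zero {u : Fin 2 → k} (hu : u ≠ 0) : nil u ≠ 0 := by
  intro h
  apply hu
  have h01 : u 0 * u 0 = 0 := Matrix.ext_iff.mpr h 0 1
  have h10 : u 1 * -(u 1) = 0 := Matrix.ext_iff.mpr h 1 0
  have h0 : u 0 = 0 := mul_self_eq_zero.mp h01
  have h1 : u 1 = 0 := by
    rcases mul_eq_zero.mp h10 with h' | h'
    · exact h'
    · exact neg_eq_zero.mp h'
  exact funext (Fin.forall_fin_two.mpr ⟨h0, h1⟩)

theorem eq_of_smul_eq_smul {N₀ : Matrix (Fin 2) (Fin 2) k} (hN0 : N₀ ≠ 0) {a b : k}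
    (h : a • N₀ = b • N₀) : a = b := by
  by_contra hab
  apply hN0
  have h1 : (a - b) • N₀ = 0 := by rw [sub_smul, h, sub_self]
  ext i i'
  have h2 : (a - b) * N₀ i i' = 0 := Matrix.ext_iff.mpr h1 i i'
  rw [Matrix.zero_apply]
  exact (mul_eq_zero.mp h2).resolve_left (sub_ne_zero.mpr hab)

end Nil

/-! ### Lines in a model -/

section Line

variable {p : ℕ} [Fact p.Prime] {k : Type} [Field k] {A : Type} [AddCommGroup A]
  [Module (ZMod p) A] (j : A →+ Matrix (Fin 2) (Fin 2) k)

theorem zmod_smul_eq_nsmul (t : ZMod p) (m : A) : t • m = t.val • m := by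
  haveI : NeZero p := ⟨(Fact.out : p.Prime).ne_zero⟩
  have h : ((t.val : ℕ) : ZMod p) • m = t.val • m := Nat.cast_smul_eq_nsmul (ZMod p) t.val m
  rw [ZMod.natCast_zmod_val] at h
  exact h

theorem j_zmod_smul (t : ZMod p) (m : A) : j (t • m) = ((t.val : ℕ) : k) • j m := by
  rw [zmod_smul_eq_nsmul, map_nsmul]
  exact (Nat.cast_smul_eq_nsmul k t.val (j m)).symm

/-- The `𝔽_p`-submodule of the elements `m` with `j m ∈ k · N₀`. -/
def lineSub (N₀ : Matrix (Fin 2) (Fin 2) k) : Submodule (ZMod p) A where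
  carrier := {m | ∃ a : k, j m = a • N₀}
  add_mem' := by
    rintro m m' ⟨a, ha⟩ ⟨a', ha'⟩
    exact ⟨a + a', by rw [map_add, ha, ha', add_smul]⟩
  zero_mem' := ⟨0, by rw [map_zero, zero_smul]⟩
  smul_mem' := by
    rintro t m ⟨a, ha⟩
    exact ⟨((t.val : ℕ) : k) * a, by rw [j_zmod_smul, ha, smul_smul]⟩

theorem mem_lineSub (N₀ : Matrix (Fin 2) (Fin 2) k) (m : A) :
    m ∈ lineSub (p := p) j N₀ ↔ ∃ a : k, j m = a • N₀ :=
  Iff.rfl

/-- A line of a model has as many elements as `k`. -/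
theorem card_lineSub (hinj : Function.Injective j)
    (hsurj : ∀ X : Matrix (Fin 2) (Fin 2) k, X.trace = 0 → ∃ m : A, j m = X)
    {N₀ : Matrix (Fin 2) (Fin 2) k} (hN0 : N₀ ≠ 0) (htr : N₀.trace = 0) :
    Nat.card ↥(lineSub (p := p) j N₀) = Nat.card k := by
  classical
  have hchoose : ∀ m : ↥(lineSub (p := p) j N₀), ∃ a : k, j m.1 = a • N₀ := fun m =>
    (mem_lineSub j N₀ m.1).1 m.2
  choose f hf using hchoose
  refine Nat.card_congr (Equiv.ofBijective f ⟨?_, ?_⟩)
  · intro m m' h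
    apply Subtype.ext
    apply hinj
    rw [hf m, hf m', h]
  · intro a
    obtain ⟨m, hm⟩ := hsurj (a • N₀) (by rw [Matrix.trace_smul, htr, smul_zero])
    have hmm : m ∈ lineSub (p := p) j N₀ := (mem_lineSub j N₀ m).2 ⟨a, hm⟩
    exact ⟨⟨m, hmm⟩, (eq_of_smul_eq_smul hN0 (hm.symm.trans (hf ⟨m, hmm⟩))).symm⟩

theorem finite_lineSub [Finite k] (hinj : Function.Injective j)
    (hsurj : ∀ X : Matrix (Fin 2) (Fin 2) k, X.trace = 0 → ∃ m : A, j m = X)
    {N₀ : Matrix (Fin 2) (Fin 2) k} (hN0 : N₀ ≠ 0) (htr : N₀.trace = 0) :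
    Finite ↥(lineSub (p := p) j N₀) := by
  apply Nat.finite_of_card_ne_zero
  rw [card_lineSub j hinj hsurj hN0 htr]
  exact Nat.card_pos.ne'

/-- A line of a model has `𝔽_p`-dimension `f` when `|k| = p ^ f`. -/
theorem finrank_lineSub [Finite k] (hinj : Function.Injective j)
    (hsurj : ∀ X : Matrix (Fin 2) (Fin 2) k, X.trace = 0 → ∃ m : A, j m = X)
    {N₀ : Matrix (Fin 2) (Fin 2) k} (hN0 : N₀ ≠ 0) (htr : N₀.trace = 0) {f : ℕ}
    (hk : Nat.card k = p ^ f) :
    Module.finrank (ZMod p) ↥(lineSub (p := p) j N₀) = f := by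
  have hp : 1 < p := (Fact.out : p.Prime).one_lt
  have hcard := card_lineSub (p := p) j hinj hsurj hN0 htr
  haveI : Finite ↥(lineSub (p := p) j N₀) := finite_lineSub j hinj hsurj hN0 htr
  haveI : Module.Finite (ZMod p) ↥(lineSub (p := p) j N₀) := Module.Finite.of_finite
  have h2 : Nat.card ↥(lineSub (p := p) j N₀)
      = p ^ Module.finrank (ZMod p) ↥(lineSub (p := p) j N₀) := by
    rw [Module.natCard_eq_pow_finrank (K := ZMod p), Nat.card_zmod]
  rw [hcard, hk] at h2
  exact (Nat.pow_right_injective hp h2).symm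

end Line

/-! ### Lines in a model of `ad⁰` -/

section Model

variable {p : ℕ} [Fact p.Prime] {k : Type} [Field k]
  {r : GQ →* Matrix (Fin 2) (Fin 2) k} {M : Rep.{0} (ZMod p) GQ}
  {j : M →+ Matrix (Fin 2) (Fin 2) k}

/-- If `r σ` normalises the line `k · N₀`, then `σ` preserves the line of the model. -/
theorem rho_mem_lineSub (hM : IsAdModel r M j) {N₀ : Matrix (Fin 2) (Fin 2) k} {σ : GQ} {b : k}
    (hb : r σ * N₀ * r σ⁻¹ = b • N₀) {m : M} (hm : m ∈ lineSub (p := p) j N₀) :
    M.ρ σ m ∈ lineSub (p := p) j N₀ := by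
  obtain ⟨a, ha⟩ := (mem_lineSub j N₀ m).1 hm
  refine (mem_lineSub j N₀ _).2 ⟨a * b, ?_⟩
  rw [hM.equiv, ha, Matrix.mul_smul, Matrix.smul_mul, hb, smul_smul]

/-- If `r σ` acts on `N₀` through `t ∈ 𝔽_p`, then `σ` acts on the line of the model through
`t`. -/
theorem rho_eq_smul (hM : IsAdModel r M j) {N₀ : Matrix (Fin 2) (Fin 2) k} {σ : GQ} {t : ZMod p}
    (hb : r σ * N₀ * r σ⁻¹ = ((t.val : ℕ) : k) • N₀) {m : M}
    (hm : m ∈ lineSub (p := p) j N₀) : M.ρ σ m = t • m := by
  obtain ⟨a, ha⟩ := (mem_lineSub j N₀ m).1 hm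
  apply hM.inj
  rw [hM.equiv, j_zmod_smul, ha, Matrix.mul_smul, Matrix.smul_mul, hb, smul_comm]

/-- If `H` is invariant under `r σ` modulo `k · N₀`, then `σ x - x` lies in the line of `N₀` for
`x` in the line of `H`. -/
theorem rho_sub_mem_lineSub (hM : IsAdModel r M j) {N₀ H : Matrix (Fin 2) (Fin 2) k} {σ : GQ}
    {κ : k} (hκ : r σ * H * r σ⁻¹ - H = κ • N₀) {x : M} (hx : x ∈ lineSub (p := p) j H) :
    M.ρ σ x - x ∈ lineSub (p := p) j N₀ := by
  obtain ⟨a, ha⟩ := (mem_lineSub j H x).1 hx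
  refine (mem_lineSub j N₀ _).2 ⟨a * κ, ?_⟩
  rw [map_sub, hM.equiv, ha, Matrix.mul_smul, Matrix.smul_mul, ← smul_sub, hκ, smul_smul]

/-- The line of an involution `H` meets the line of `nil u` trivially. -/
theorem eq_zero_of_mem_lineSub_of_mem (hM : IsAdModel r M j) {H : Matrix (Fin 2) (Fin 2) k}
    (hHH : H * H = 1) (u : Fin 2 → k) {x : M} (hx : x ∈ lineSub (p := p) j H)
    (hx' : x ∈ lineSub (p := p) j (nil u)) : x = 0 := by
  obtain ⟨a, ha⟩ := (mem_lineSub j H x).1 hx
  obtain ⟨b, hb⟩ := (mem_lineSub j (nil u) x).1 hx'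
  have ha0 : a = 0 := by
    by_contra h
    apply MatLoc.ne_smul_nil_of_mul_self_eq_one hHH u (a⁻¹ * b)
    have h1 : a • H = b • nil u := ha.symm.trans hb
    calc H = a⁻¹ • (a • H) := by rw [smul_smul, inv_mul_cancel₀ h, one_smul]
      _ = (a⁻¹ * b) • nil u := by rw [h1, smul_smul]
  apply hM.inj
  rw [ha, ha0, zero_smul, map_zero]

/-- **The line subrepresentation.**  `Γ → G_ℚ` a group homomorphism such that `Γ` acts on the
trace-zero matrix `N₀ ≠ 0` through a function `χ : Γ → 𝔽_p`.  Then the line of `N₀` in the model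
is a subrepresentation `U` of `M|Γ` with `|k|` elements, on which `Γ` acts through `χ`. -/
theorem exists_lineRep [Finite k] (hM : IsAdModel r M j) {Γ : Type} [Group Γ] (loc : Γ →* GQ)
    {N₀ : Matrix (Fin 2) (Fin 2) k} (hN0 : N₀ ≠ 0) (htr : N₀.trace = 0) (χ : Γ → ZMod p)
    (hconj : ∀ g : Γ, r (loc g) * N₀ * r (loc g)⁻¹ = (((χ g).val : ℕ) : k) • N₀) {f : ℕ}
    (hk : Nat.card k = p ^ f) :
    ∃ (U : Rep.{0} (ZMod p) Γ) (i : U ⟶ Rep.res loc M), Function.Injective i.hom ∧
      (∀ a : U, i.hom a ∈ lineSub (p := p) j N₀) ∧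
      (∀ y ∈ lineSub (p := p) j N₀, ∃ a : U, i.hom a = y) ∧
      Module.Finite (ZMod p) U ∧ Module.finrank (ZMod p) U = f ∧
      ∀ (g : Γ) (n : U), U.ρ g n = χ g • n := by
  classical
  have hle : ∀ g : Γ, lineSub (p := p) j N₀
      ≤ (lineSub (p := p) j N₀).comap ((Rep.res loc M).ρ g) := fun g m hm =>
    rho_mem_lineSub hM (hconj g) hm
  haveI hfin : Finite ↥(lineSub (p := p) j N₀) := finite_lineSub j hM.inj hM.surj hN0 htr
  haveI hmfin : Module.Finite (ZMod p) ↥(lineSub (p := p) j N₀) := Module.Finite.of_finite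
  refine ⟨Rep.subrepresentation (Rep.res loc M) (lineSub (p := p) j N₀) hle,
    Rep.subtype (Rep.res loc M) (lineSub (p := p) j N₀) hle, ?_, ?_, ?_, ?_, ?_, ?_⟩
  · intro a b h
    exact Subtype.ext h
  · intro a
    exact a.2
  · intro y hy
    exact ⟨⟨y, hy⟩, rfl⟩
  · exact hmfin
  · exact finrank_lineSub j hM.inj hM.surj hN0 htr hk
  · intro g n
    apply Subtype.ext
    exact rho_eq_smul hM (hconj g) n.2

end Model

/-! ### The count at `p` -/

section Count

variable {p : ℕ} [Fact p.Prime] {k : Type} [Field k]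
  {r : GQ →* Matrix (Fin 2) (Fin 2) k} {M : Rep.{0} (ZMod p) GQ}
  {j : M →+ Matrix (Fin 2) (Fin 2) k}

/-- **(LO-1)** The local count for cyclotomic modules: `dim H¹(Γ_p, N) ≤ 2 dim N` for every finite
`𝔽_p[Γ_p]`-module `N` on which `Γ_p` acts through the mod `p` cyclotomic character. -/
def LO1 (p : ℕ) [Fact p.Prime] : Prop :=
  ∀ (N : Rep.{0} (ZMod p) (primeLocalGaloisGroup (pPrime p))) [Module.Finite (ZMod p) N],
    (∀ (g : primeLocalGaloisGroup (pPrime p)) (n : N), N.ρ g n
        = ((cycloChar p (primeLocalToGlobal (pPrime p) g) : (ZMod p)ˣ) : ZMod p) • n) →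
    Module.Finite (ZMod p) (Abs.H1 (localLevel (primeLocalToGlobal (pPrime p))) N) ∧
      Module.finrank (ZMod p) (Abs.H1 (localLevel (primeLocalToGlobal (pPrime p))) N)
        ≤ 2 * Module.finrank (ZMod p) N

/-- **The count at `p`, given the line.**  `u ≠ 0` such that `Γ_p` acts on `nil u` through the
cyclotomic character, `H` a trace-zero involution invariant under `Γ_p` modulo `k · nil u`, `W` a
space of classes `[z]` such that, for some `m`, the cocycle `z - ∂m` has values in the line of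
`nil u` on `Γ_p`.  Then `dim (res_p W) ≤ dim H⁰(Γ_p, M) + f`. -/
theorem finrank_map_r1_le_of_line [Finite k] (hLO1 : LO1 p) (hM : IsAdModel r M j)
    {T : Finset Nat.Primes} (hpT : pPrime p ∈ T) (invT : InvS p T)
    (hMd : IsDisc (globalLevel T) M) {u : Fin 2 → k} (hu : u ≠ 0)
    {H : Matrix (Fin 2) (Fin 2) k} (hHtr : H.trace = 0) (hHH : H * H = 1)
    (hconj : ∀ g : primeLocalGaloisGroup (pPrime p),
      r (primeLocalToGlobal (pPrime p) g) * nil u * r (primeLocalToGlobal (pPrime p) g)⁻¹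
        = ((((cycloChar p (primeLocalToGlobal (pPrime p) g) : (ZMod p)ˣ) : ZMod p).val : ℕ) : k)
            • nil u)
    (hHg : ∀ g : primeLocalGaloisGroup (pPrime p), ∃ κ : k,
      r (primeLocalToGlobal (pPrime p) g) * H * r (primeLocalToGlobal (pPrime p) g)⁻¹ - H
        = κ • nil u)
    (W : Submodule (ZMod p) (Abs.H1 (globalLevel T) M))
    (hW : ∀ x ∈ W, ∃ (z : ↥(Z1 (globalLevel T) M)) (m : M), Submodule.Quotient.mk z = x ∧
      ∀ g : primeLocalGaloisGroup (pPrime p),
        (z : GQ → M) (primeLocalToGlobal (pPrime p) g)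
          - (M.ρ (primeLocalToGlobal (pPrime p) g) m - m) ∈ lineSub (p := p) j (nil u))
    {f : ℕ} (hk : Nat.card k = p ^ f) :
    Module.finrank (ZMod p) ↥(W.map ((dataS p T hpT invT).r1 M ⟨pPrime p, hpT⟩))
      ≤ Module.finrank (ZMod p) ((dataS p T hpT invT).LH0 M ⟨pPrime p, hpT⟩) + f := by
  classical
  haveI : Finite (Matrix (Fin 2) (Fin 2) k) := inferInstanceAs (Finite (Fin 2 → Fin 2 → k))
  haveI : Finite M := Finite.of_injective j hM.inj
  haveI hMfin : Module.Finite (ZMod p) M := Module.Finite.of_finite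
  haveI : Module.Finite (ZMod p) (Rep.res (primeLocalToGlobal (pPrime p)) M) :=
    inferInstanceAs (Module.Finite (ZMod p) M)
  have hN0 : nil u ≠ 0 := nil_ne_zero hu
  have hNtr : (nil u).trace = 0 := trace_nil u
  have hH0 : H ≠ 0 := by
    intro h
    refine MatLoc.ne_smul_nil_of_mul_self_eq_one hHH u 0 ?_
    rw [h, zero_smul]
  -- the line subrepresentation
  obtain ⟨U, i, hi, hmem, hsurjU, hUfin, hUrank, hUact⟩ :=
    exists_lineRep (p := p) hM (primeLocalToGlobal (pPrime p)) hN0 hNtr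
      (fun g => ((cycloChar p (primeLocalToGlobal (pPrime p) g) : (ZMod p)ˣ) : ZMod p)) hconj hk
  haveI := hUfin
  obtain ⟨hH1fin, hH1le⟩ := hLO1 U hUact
  haveI := hH1fin
  have hH1 : Module.finrank (ZMod p) (Abs.H1 (localLevel (primeLocalToGlobal (pPrime p))) U)
      ≤ 2 * f :=
    hH1le.trans (le_of_eq (congrArg (fun n : ℕ => 2 * n) hUrank))
  -- the complement `D`
  have hdisc : IsDisc (localLevel (primeLocalToGlobal (pPrime p)))
      (Rep.res (primeLocalToGlobal (pPrime p)) M) := LocWrap.isDisc_res_local hMd (pPrime p)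
  have hDU : ∀ x ∈ lineSub (p := p) j H, ∀ g : primeLocalGaloisGroup (pPrime p),
      ∃ a : U, i.hom a = (Rep.res (primeLocalToGlobal (pPrime p)) M).ρ g x - x := by
    intro x hx g
    obtain ⟨κ, hκ⟩ := hHg g
    exact hsurjU _ (rho_sub_mem_lineSub hM hκ hx)
  have hdisj : ∀ x ∈ lineSub (p := p) j H, (∃ a : U, i.hom a = x) → x = 0 := by
    rintro x hx ⟨a, rfl⟩
    exact eq_zero_of_mem_lineSub_of_mem hM hHH u hx (hmem a)
  have hD : Module.finrank (ZMod p) ↥(lineSub (p := p) j H) = f :=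
    finrank_lineSub j hM.inj hM.surj hH0 hHtr hk
  -- the restriction of `W` lies in the image of `H¹(Γ_p, U)`
  have hW' : W.map ((dataS p T hpT invT).r1 M ⟨pPrime p, hpT⟩)
      ≤ LinearMap.range (H1map (localLevel (primeLocalToGlobal (pPrime p))) i) := by
    refine LocWrap.map_r1_le_range_H1map hpT invT hMd ⟨pPrime p, hpT⟩ i hi W ?_
    intro x hx
    obtain ⟨z, m, hzx, hzm⟩ := hW x hx
    choose s hs using fun g : primeLocalGaloisGroup (pPrime p) => hsurjU _ (hzm g)
    refine ⟨z, m, s, hzx, fun g => ?_⟩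
    exact ((congrArg (fun y => M.ρ (primeLocalToGlobal (pPrime p) g) m - m + y) (hs g)).trans
      (add_sub_cancel _ _)).symm
  exact OrdCountGen.finrank_le_of_le_range_of_isDisc
    (localLevel (primeLocalToGlobal (pPrime p))) hdisc i hi (lineSub (p := p) j H) hDU hdisj
    hH1 hD _ hW'

/-- **The `hp_loc` binder, strict-ordinary half.**  `C` a space of matrix cochains all of whose
non-zero elements are the `ε`-part of a strictly ordinary lift with cyclotomic determinant, `W` a
space of classes `[z]` with `j ∘ z = adOf r c`, `c ∈ C`, `|k| = p ^ f`.  Then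
`dim (res_p W) ≤ dim H⁰(Γ_p, M) + f`. -/
theorem hp_loc_ord [Finite k] [CharP k p] (hp2 : p ≠ 2) (hLO1 : LO1 p) (hM : IsAdModel r M j)
    {T : Finset Nat.Primes} (hpT : pPrime p ∈ T) (invT : InvS p T)
    (hMd : IsDisc (globalLevel T) M)
    (C : Submodule k (GQ → Matrix (Fin 2) (Fin 2) k))
    (hlift : ∀ c ∈ C, c ≠ 0 → ∃ ρ : GaloisRepAdic (DualNumber k),
      ρ.DetIsCyclotomic p ∧ ρ.IsStrictOrdinaryAt p ∧
      ∃ bb : Module.Basis (Fin 2) (DualNumber k) ρ.V, ∀ σ : GQ,
        matOfBasis ρ bb σ = (r σ).map (TrivSqZeroExt.inl : k → DualNumber k)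
          + (c σ).map (TrivSqZeroExt.inr : k → DualNumber k))
    (W : Submodule (ZMod p) (Abs.H1 (globalLevel T) M))
    (hW : ∀ x ∈ W, ∃ c ∈ C, ∃ z : ↥(Z1 (globalLevel T) M), x = Submodule.Quotient.mk z ∧
      ∀ σ : GQ, j ((z : GQ → M) σ) = TangentAd.adOf r c σ)
    {f : ℕ} (hk : Nat.card k = p ^ f) :
    Module.finrank (ZMod p) ↥(W.map ((dataS p T hpT invT).r1 M ⟨pPrime p, hpT⟩))
      ≤ Module.finrank (ZMod p) ((dataS p T hpT invT).LH0 M ⟨pPrime p, hpT⟩) + f := by
  classical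
  by_cases hC : ∃ c ∈ C, c ≠ 0
  · obtain ⟨c₁, hc₁, hc₁0⟩ := hC
    obtain ⟨u, hu, hline⟩ := MatLoc.exists_line hp2 r (primeLocalPlace (pPrime p))
      (UnramLevel.liesOverPrime_primeLocalPlace (pPrime p))
    have hg : ∀ g : primeLocalGaloisGroup (pPrime p), primeLocalToGlobal (pPrime p) g
        ∈ (primeLocalPlace (pPrime p)).decompositionSubgroup ℚ := by
      intro g
      rw [← LocalRange.range_primeLocalToGlobal (pPrime p)]
      exact MonoidHom.mem_range.mpr ⟨g, rfl⟩
    obtain ⟨ρ₁, hdet₁, hso₁, bb₁, hmat₁⟩ := hlift c₁ hc₁ hc₁0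
    obtain ⟨_, H, _, -, hHtr, hHH, hH⟩ := hline c₁ ρ₁ bb₁ hmat₁ hdet₁ hso₁
    refine finrank_map_r1_le_of_line hLO1 hM hpT invT hMd hu hHtr hHH ?_ ?_ W ?_ hk
    · intro g
      exact (hH _ (hg g)).2.1
        (((cycloChar p (primeLocalToGlobal (pPrime p) g) : (ZMod p)ˣ) : ZMod p).val)
        (fun μ hμ => Fermat.Agent.CFT.LocalBr.cycloChar_spec p _ hμ)
    · intro g
      exact (hH _ (hg g)).2.2
    · intro x hx
      obtain ⟨c, hc, z, rfl, hz⟩ := hW x hx
      by_cases h0 : c = 0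
      · subst h0
        refine ⟨z, 0, rfl, fun g => ?_⟩
        have hz0 : (z : GQ → M) (primeLocalToGlobal (pPrime p) g) = 0 := by
          apply hM.inj
          rw [hz, TangentAd.adOf_apply, Pi.zero_apply, zero_mul, map_zero]
        have h1 : (z : GQ → M) (primeLocalToGlobal (pPrime p) g)
            - (M.ρ (primeLocalToGlobal (pPrime p) g) 0 - 0) = 0 := by
          rw [hz0, map_zero, sub_zero, sub_zero]
        exact (congrArg (fun y : M => y ∈ lineSub (p := p) j (nil u)) h1).mpr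
          (Submodule.zero_mem _)
      · obtain ⟨ρ, hdet, hso, bb, hmat⟩ := hlift c hc h0
        obtain ⟨X, _, γ, hX0, -, -, hσ⟩ := hline c ρ bb hmat hdet hso
        obtain ⟨m₀, hm₀⟩ := hM.surj X hX0
        refine ⟨z, -m₀, rfl, fun g =>
          (mem_lineSub j (nil u) _).2 ⟨γ (primeLocalToGlobal (pPrime p) g), ?_⟩⟩
        have e : j (M.ρ (primeLocalToGlobal (pPrime p) g) (-m₀) - -m₀)
            = X - r (primeLocalToGlobal (pPrime p) g) * X
                * r (primeLocalToGlobal (pPrime p) g)⁻¹ := by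
          rw [map_sub, hM.equiv, map_neg, hm₀, Matrix.mul_neg, Matrix.neg_mul, sub_neg_eq_add,
            neg_add_eq_sub]
        rw [map_sub, hz, e, (hσ _ (hg g)).1, add_sub_cancel_left]
  · -- no non-zero cochain: `W = 0`
    have hW0 : W = ⊥ := by
      rw [eq_bot_iff]
      intro x hx
      obtain ⟨c, hc, z, rfl, hz⟩ := hW x hx
      have hc0 : c = 0 := by
        by_contra h
        exact hC ⟨c, hc, h⟩
      subst hc0
      have hz0 : z = 0 := by
        apply Subtype.ext
        funext σ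
        apply hM.inj
        have h1 : j ((z : GQ → M) σ) = 0 := by
          rw [hz, TangentAd.adOf_apply, Pi.zero_apply, zero_mul]
        rw [h1]
        exact (map_zero j).symm
      rw [hz0, Submodule.Quotient.mk_zero]
      exact Submodule.zero_mem _
    have h0 : W.map ((dataS p T hpT invT).r1 M ⟨pPrime p, hpT⟩) = ⊥ := by
      rw [hW0, Submodule.map_bot]
    rw [h0, finrank_bot]
    exact Nat.zero_le _

end Count

end Fermat.Agent.S56.Loc.OrdModel
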