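/-
S56 / LOC, the local bricks under the frozen hypotheses (helper48): the binders `hur` (at the
primes of `Smin ∖ {p}`) and `hp_loc` (strict-ordinary half) of `GW/Numeric.finrank_le_card_mul`,
for `r = matOfBasisRes ρbar b0` under `Contract.Hyp`, ANY model `(M, j)` of `ad⁰`, and the
literal lift clause of `TangentSel.SelMat` for the two frozen conditions.

* `charP_of_hyp`     : the residue field has characteristic `p`;
* `hurMin_of_cond`   : `hur` at `v ∈ Smin ∖ {p}` for a condition whose lifts are unipotent on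
                       inertia at `v`; `hurMin_condOrd`, `hurMin_condFlat` : the two frozen ones;
* `lo1`              : the local count (LO-1) (`Loc/OrdH1Twin`) in the shape `OrdModel.LO1`;
* `hp_loc_condOrd`   : `hp_loc` for the frozen strict-ordinary condition.
-/
import Fermat.Agent.S56.Contract
import Fermat.Agent.S56.Loc.ModelLM
import Fermat.Agent.S56.Loc.OrdModel
import Fermat.Agent.S56.Loc.OrdH1Twin

set_option autoImplicit false

open CategoryTheory groupCohomology ExtCitation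

namespace Fermat.Agent.S56.Loc.OrdHyp

open IsLocalRing
open Fermat.Agent.S53.MatRep Fermat.Agent.S55 Fermat.Agent.S55.Abs Fermat.Agent.S55.Count
  Fermat.Agent.S55.Base Fermat.Agent.S55.Base.EvalQ Fermat.Agent.S55.Glue
  Fermat.Agent.S56.GW.LevelLowerUr Fermat.Agent.S56.Sel.ClassMap Fermat.Agent.S56.Contract

local notation "Qb" => AlgebraicClosure ℚ
local notation "Mat" => Matrix (Fin 2) (Fin 2)

variable {𝒪 : Type} [CommRing 𝒪] [IsLocalRing 𝒪] {p : ℕ} [Fact p.Prime]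
  {ρbar : ResidualGaloisRep (ResidueField 𝒪)} {S Smin : Finset ℕ}

/-- Under the frozen hypotheses the residue field has characteristic `p`. -/
theorem charP_of_hyp (hyp : Contract.Hyp 𝒪 p ρbar S Smin) : CharP (ResidueField 𝒪) p := by
  have hp0 : ((p : ℕ) : ResidueField 𝒪) = 0 := by
    have h := (IsLocalRing.residue_eq_zero_iff ((p : ℕ) : 𝒪)).2 hyp.hp𝒪
    rwa [map_natCast] at h
  exact (CharP.charP_iff_prime_eq_zero (Fact.out : p.Prime)).2 hp0

/-- **`hur` at `v ∈ Smin ∖ {p}`**, for a space `W` of classes in the shape of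
`Sel/ClassMapCond.ClassBound` and a condition `𝒟` whose lifts to `k[ε]` are unipotent on inertia
at `v`. -/
theorem hurMin_of_cond (hyp : Contract.Hyp 𝒪 p ρbar S Smin)
    (𝒟 : ∀ ⦃A : Type⦄ [CommRing A] [IsLocalRing A] [Algebra 𝒪 A], GaloisRepAdic A → Prop)
    (b0 : Module.Basis (Fin 2) (ResidueField 𝒪) ρbar.V)
    {T : Finset Nat.Primes} (hpT : pPrime p ∈ T) (invT : InvS p T)
    {M : Rep.{0} (ZMod p) GQ} {j : M →+ Mat (ResidueField 𝒪)}
    (hM : IsAdModel (matOfBasisRes ρbar b0) M j) (hMd : IsDisc (globalLevel T) M)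
    (C : Submodule (ResidueField 𝒪) (GQ → Mat (ResidueField 𝒪)))
    (W : Submodule (ZMod p) (Abs.H1 (globalLevel T) M))
    (hW : ∀ x ∈ W, ∃ c ∈ C, ∃ z : ↥(Z1 (globalLevel T) M), x = Submodule.Quotient.mk z ∧
      ∀ σ : GQ, j ((z : GQ → M) σ) = TangentAd.adOf (matOfBasisRes ρbar b0) c σ)
    (hlift : ∀ c ∈ C, c ≠ 0 → ∃ ρ : GaloisRepAdic (DualNumber (ResidueField 𝒪)), 𝒟 ρ ∧
      ∃ bb : Module.Basis (Fin 2) (DualNumber (ResidueField 𝒪)) ρ.V, ∀ σ : GQ,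
        matOfBasis ρ bb σ
          = (matOfBasisRes ρbar b0 σ).map
              (TrivSqZeroExt.inl : ResidueField 𝒪 → DualNumber (ResidueField 𝒪))
            + (c σ).map (TrivSqZeroExt.inr : ResidueField 𝒪 → DualNumber (ResidueField 𝒪)))
    (v : ↥T) (hv : (v.1 : ℕ) ∈ Smin) (hvp : (v.1 : ℕ) ≠ p)
    (h𝒟 : ∀ ρ : GaloisRepAdic (DualNumber (ResidueField 𝒪)), 𝒟 ρ →
      ρ.IsUnipotentOnInertiaAt (v.1 : ℕ)) :
    ∀ x ∈ W, (dataS p T hpT invT).r1 M v x ∈ H1ur v.1 (Rep.res (primeLocalToGlobal v.1) M) := by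
  haveI : CharP (ResidueField 𝒪) p := charP_of_hyp hyp
  have hram : ∃ σ ∈ (primeLocalPlace v.1).inertiaSubgroupIn ℚ, matOfBasisRes ρbar b0 σ ≠ 1 :=
    MatLoc.exists_matOfBasisRes_ne_one ρbar b0 v.1.2 ((hyp.hmin (v.1 : ℕ) v.1.2 hvp).1 hv)
      (primeLocalPlace v.1) (UnramLevel.liesOverPrime_primeLocalPlace v.1)
  refine ModelLM.hur_of_unipotent hyp.hp2 hM hpT invT hMd v hvp hram
    (C : Set (GQ → Mat (ResidueField 𝒪))) (fun c hc hc0 => ?_) W hW
  obtain ⟨ρ, hD, bb, hmat⟩ := hlift c hc hc0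
  exact ⟨ρ, h𝒟 ρ hD, bb, hmat⟩

/-- `hur` at `v ∈ Smin ∖ {p}` for the frozen strict-ordinary condition of level `Smin ∪ Q`. -/
theorem hurMin_condOrd (hyp : Contract.Hyp 𝒪 p ρbar S Smin) {n : ℕ} (qv : Fin n → ℕ)
    (b0 : Module.Basis (Fin 2) (ResidueField 𝒪) ρbar.V)
    {T : Finset Nat.Primes} (hpT : pPrime p ∈ T) (invT : InvS p T)
    {M : Rep.{0} (ZMod p) GQ} {j : M →+ Mat (ResidueField 𝒪)}
    (hM : IsAdModel (matOfBasisRes ρbar b0) M j) (hMd : IsDisc (globalLevel T) M)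
    (C : Submodule (ResidueField 𝒪) (GQ → Mat (ResidueField 𝒪)))
    (W : Submodule (ZMod p) (Abs.H1 (globalLevel T) M))
    (hW : ∀ x ∈ W, ∃ c ∈ C, ∃ z : ↥(Z1 (globalLevel T) M), x = Submodule.Quotient.mk z ∧
      ∀ σ : GQ, j ((z : GQ → M) σ) = TangentAd.adOf (matOfBasisRes ρbar b0) c σ)
    (hlift : ∀ c ∈ C, c ≠ 0 → ∃ ρ : GaloisRepAdic (DualNumber (ResidueField 𝒪)),
      condOrd 𝒪 p Smin qv ρ ∧
      ∃ bb : Module.Basis (Fin 2) (DualNumber (ResidueField 𝒪)) ρ.V, ∀ σ : GQ,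
        matOfBasis ρ bb σ
          = (matOfBasisRes ρbar b0 σ).map
              (TrivSqZeroExt.inl : ResidueField 𝒪 → DualNumber (ResidueField 𝒪))
            + (c σ).map (TrivSqZeroExt.inr : ResidueField 𝒪 → DualNumber (ResidueField 𝒪)))
    (v : ↥T) (hv : (v.1 : ℕ) ∈ Smin) (hvp : (v.1 : ℕ) ≠ p) :
    ∀ x ∈ W, (dataS p T hpT invT).r1 M v x ∈ H1ur v.1 (Rep.res (primeLocalToGlobal v.1) M) :=
  hurMin_of_cond hyp (condOrd 𝒪 p Smin qv) b0 hpT invT hM hMd C W hW hlift v hv hvp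
    fun _ hρ => hρ.2 (v.1 : ℕ) hv v.1.2 hvp

/-- `hur` at `v ∈ Smin ∖ {p}` for the frozen flat condition of level `Smin ∪ Q`. -/
theorem hurMin_condFlat (hyp : Contract.Hyp 𝒪 p ρbar S Smin) {n : ℕ} (qv : Fin n → ℕ)
    (b0 : Module.Basis (Fin 2) (ResidueField 𝒪) ρbar.V)
    {T : Finset Nat.Primes} (hpT : pPrime p ∈ T) (invT : InvS p T)
    {M : Rep.{0} (ZMod p) GQ} {j : M →+ Mat (ResidueField 𝒪)}
    (hM : IsAdModel (matOfBasisRes ρbar b0) M j) (hMd : IsDisc (globalLevel T) M)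
    (C : Submodule (ResidueField 𝒪) (GQ → Mat (ResidueField 𝒪)))
    (W : Submodule (ZMod p) (Abs.H1 (globalLevel T) M))
    (hW : ∀ x ∈ W, ∃ c ∈ C, ∃ z : ↥(Z1 (globalLevel T) M), x = Submodule.Quotient.mk z ∧
      ∀ σ : GQ, j ((z : GQ → M) σ) = TangentAd.adOf (matOfBasisRes ρbar b0) c σ)
    (hlift : ∀ c ∈ C, c ≠ 0 → ∃ ρ : GaloisRepAdic (DualNumber (ResidueField 𝒪)),
      condFlat 𝒪 p Smin qv ρ ∧
      ∃ bb : Module.Basis (Fin 2) (DualNumber (ResidueField 𝒪)) ρ.V, ∀ σ : GQ,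
        matOfBasis ρ bb σ
          = (matOfBasisRes ρbar b0 σ).map
              (TrivSqZeroExt.inl : ResidueField 𝒪 → DualNumber (ResidueField 𝒪))
            + (c σ).map (TrivSqZeroExt.inr : ResidueField 𝒪 → DualNumber (ResidueField 𝒪)))
    (v : ↥T) (hv : (v.1 : ℕ) ∈ Smin) (hvp : (v.1 : ℕ) ≠ p) :
    ∀ x ∈ W, (dataS p T hpT invT).r1 M v x ∈ H1ur v.1 (Rep.res (primeLocalToGlobal v.1) M) :=
  hurMin_of_cond hyp (condFlat 𝒪 p Smin qv) b0 hpT invT hM hMd C W hW hlift v hv hvp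
    fun _ hρ => hρ.2 (v.1 : ℕ) hv v.1.2 hvp

/-- **(LO-1)** in the shape consumed by `OrdModel.hp_loc_ord`. -/
theorem lo1 (hp2 : p ≠ 2) : OrdModel.LO1 p := fun N _ hN =>
  OrdH1Twin.finrank_H1_le_two_mul hp2 N hN

/-- **`hp_loc` for the frozen strict-ordinary condition.**  `r = matOfBasisRes ρbar b0`, `M` any
model of `ad⁰` discrete at level `T ∋ p`, `C` with the literal lift clause of
`TangentSel.SelMat` for `Contract.condOrd 𝒪 p Smin qv`, `W` a class submodule of `C`,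
`|k| = p ^ f`. -/
theorem hp_loc_condOrd [Finite (ResidueField 𝒪)] (hyp : Contract.Hyp 𝒪 p ρbar S Smin) {n : ℕ}
    (qv : Fin n → ℕ) (b0 : Module.Basis (Fin 2) (ResidueField 𝒪) ρbar.V)
    {T : Finset Nat.Primes} (hpT : pPrime p ∈ T) (invT : InvS p T)
    {M : Rep.{0} (ZMod p) GQ} {j : M →+ Mat (ResidueField 𝒪)}
    (hM : IsAdModel (matOfBasisRes ρbar b0) M j) (hMd : IsDisc (globalLevel T) M)
    (C : Submodule (ResidueField 𝒪) (GQ → Mat (ResidueField 𝒪)))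
    (W : Submodule (ZMod p) (Abs.H1 (globalLevel T) M))
    (hW : ∀ x ∈ W, ∃ c ∈ C, ∃ z : ↥(Z1 (globalLevel T) M), x = Submodule.Quotient.mk z ∧
      ∀ σ : GQ, j ((z : GQ → M) σ) = TangentAd.adOf (matOfBasisRes ρbar b0) c σ)
    (hlift : ∀ c ∈ C, c ≠ 0 → ∃ ρ : GaloisRepAdic (DualNumber (ResidueField 𝒪)),
      condOrd 𝒪 p Smin qv ρ ∧
      ∃ bb : Module.Basis (Fin 2) (DualNumber (ResidueField 𝒪)) ρ.V, ∀ σ : GQ,
        matOfBasis ρ bb σ
          = (matOfBasisRes ρbar b0 σ).map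
              (TrivSqZeroExt.inl : ResidueField 𝒪 → DualNumber (ResidueField 𝒪))
            + (c σ).map (TrivSqZeroExt.inr : ResidueField 𝒪 → DualNumber (ResidueField 𝒪)))
    {f : ℕ} (hk : Nat.card (ResidueField 𝒪) = p ^ f) :
    Module.finrank (ZMod p) ↥(W.map ((dataS p T hpT invT).r1 M ⟨pPrime p, hpT⟩))
      ≤ Module.finrank (ZMod p) ((dataS p T hpT invT).LH0 M ⟨pPrime p, hpT⟩) + f := by
  haveI : CharP (ResidueField 𝒪) p := charP_of_hyp hyp
  refine OrdModel.hp_loc_ord hyp.hp2 (lo1 hyp.hp2) hM hpT invT hMd C (fun c hc hc0 => ?_) W hW hk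
  obtain ⟨ρ, hD, bb, hmat⟩ := hlift c hc hc0
  exact ⟨ρ, hD.1.1, hD.1.2.1, bb, hmat⟩

end Fermat.Agent.S56.Loc.OrdHyp
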