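/-
S56 / brick LQ (helper146): the local bound at a prime `w ≡ 1 mod p`, `w ≠ p`, for a module
unramified at `w`:

  `dim H¹(G_w, N) ≤ dim H¹_ur(G_w, N) + dim H⁰(G_w, N)`.

(With `dim H¹_ur ≤ dim H⁰` this is `h¹ ≤ 2 h⁰`, the Taylor--Wiles term:
`finrank_H1_le_two_mul_H0`.)

Proof.  `A` = the distinguished place above `w`, `K = ℚ(μ_p)`.  Since `w ≡ 1 mod p`, the
decomposition group `D_A` fixes `K` (UR1 + Frobenius on roots of unity), so the Kummer character
`κ` of a `p`-th root of a uniformiser of `K` at `A` is additive on all of `D_A`, hence invariant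
under conjugation.  For a local cocycle `c`, `c = κ • d` on inertia
(`Unram.exists_eq_kummer_smul_on_inertia`), and the cocycle identity gives `s d = d` for all
`s ∈ D_A`.  Evaluation at one inertia element `τ` with `κ τ ≠ 0` is a linear map
`H¹(G_w, N) → H⁰(G_w, N)` whose kernel consists of classes of cocycles vanishing on inertia;
these are unramified cochains (`GW/UrInertia`, helper165).
-/
import Fermat.Agent.S56.GW.UrInertia
import Fermat.Agent.CFT.LocalBr.Unram
import Fermat.Agent.CFT.LocalBr.UnramUnif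
import Fermat.Agent.CFT.Global.G4Asm
import Fermat.Agent.S55.Glue.UnramLevel
import Fermat.Agent.S55.Glue.UnramIntrinsic
import Fermat.Agent.S55.Glue.LocalRange
import Fermat.Agent.S54.Frobenius

set_option autoImplicit false

open CategoryTheory groupCohomology ExtCitation

namespace Fermat.Agent.S56.Loc.TameQ

open Fermat.Agent.S55 Fermat.Agent.S55.Abs Fermat.Agent.S55.Base.EvalQ
  Fermat.Agent.S56.GW.LevelLowerUr Fermat.Agent.CFT.LocalBr.Unram Fermat.Agent.S55.Glue

local notation "Qb" => AlgebraicClosure ℚ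
local notation "GQ" => (AlgebraicClosure ℚ ≃ₐ[ℚ] AlgebraicClosure ℚ)

variable {p : ℕ} [Fact p.Prime]

/-! ### The decomposition group at `w ≡ 1 mod p` fixes `ℚ(μ_p)` -/

/-- If `w ≡ 1 mod p` (`w ≠ p`), the decomposition group of a place over `w` fixes the `p`-th
roots of unity. -/
theorem decomposition_le_fixingSubgroup_cycloField {w : ℕ} (hw : w.Prime) (hwp : w ≠ p)
    (hw1 : w % p = 1) (A : ValuationSubring Qb) (hA : A.LiesOverPrime w) :
    A.decompositionSubgroup ℚ ≤ (cycloField p).fixingSubgroup := by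
  have hp : p.Prime := Fact.out
  intro σ hσ
  rw [mem_fixingSubgroup_cycloField_iff]
  intro x hx
  obtain ⟨φ, hφ⟩ := Fermat.Agent.S54.Frobenius.exists_isFrobeniusAt A hw hA
  have hcop : Nat.Coprime p w := (Nat.coprime_primes hp hw).mpr (Ne.symm hwp)
  have hfd : FiniteDimensional ℚ ↥(cycloField p) := finiteDimensional_cycloField p hp.ne_zero
  have hnorm : Normal ℚ ↥(cycloField p) := UnramLevel.normal_cycloField p
  have hin : A.inertiaSubgroupIn ℚ ≤ (cycloField p).fixingSubgroup := by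
    have h := UnramLevel.inertia_le_fixingSubgroup_sup_cycloField A hA
      (F := (⊥ : IntermediateField ℚ Qb)) (fun g _ => by
        rw [IntermediateField.mem_fixingSubgroup_iff]
        rintro y hy
        obtain ⟨r, rfl⟩ := IntermediateField.mem_bot.1 hy
        exact g.commutes r) hcop
    rwa [bot_sup_eq] at h
  obtain ⟨j, hj⟩ := UnramLevel.exists_frob_pow_eq_on A hw hA hφ (cycloField p) hin hσ
  have hxmem : x ∈ cycloField p := IntermediateField.subset_adjoin ℚ _ hx
  rw [hj x hxmem, UnramLevel.frob_pow_root A hA hφ hcop j hx]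
  -- `w ^ j ≡ 1 mod p`
  have hmod : w ^ j % p = 1 := by
    have h1 : w ^ j % p = (w % p) ^ j % p := Nat.pow_mod w j p
    rw [h1, hw1, one_pow, Nat.mod_eq_of_lt hp.one_lt]
  have hdiv : w ^ j = p * (w ^ j / p) + 1 := by
    have := Nat.div_add_mod (w ^ j) p
    omega
  rw [hdiv, pow_add, pow_mul, hx, one_pow, one_mul, pow_one]

/-! ### The bound -/

/-- **LQ.** For `w ≡ 1 mod p`, `w ≠ p`, and a finite `𝔽_p[G_ℚ]`-module `N` unramified at `w`:
`dim H¹(G_w, N) ≤ dim H¹_ur(G_w, N) + dim H⁰(G_w, N)`. -/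
theorem finrank_H1_le_ur_add_H0 (w : Nat.Primes) (hwp : (w : ℕ) ≠ p) (hw1 : (w : ℕ) % p = 1)
    {S : Finset Nat.Primes} (hwS : w ∉ S) (N : Rep.{0} (ZMod p) GQ) [Module.Finite (ZMod p) N]
    (hN : IsDisc (globalLevel S) N) :
    Module.finrank (ZMod p)
        (S55.Abs.H1 (localLevel (primeLocalToGlobal w)) (Rep.res (primeLocalToGlobal w) N)) ≤
      Module.finrank (ZMod p) ↥(H1ur w (Rep.res (primeLocalToGlobal w) N)) +
        Module.finrank (ZMod p) (S55.Abs.H0 (Rep.res (primeLocalToGlobal w) N)) := by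
  classical
  have hp : p.Prime := Fact.out
  obtain ⟨_, ⟨F₀, hF₀, rfl⟩, hNF⟩ := hN
  have hAw : (primeLocalPlace w).LiesOverPrime (w : ℕ) :=
    UnramLevel.liesOverPrime_primeLocalPlace w
  have hρ : ∀ (g : primeLocalGaloisGroup w) (x : Rep.res (primeLocalToGlobal w) N),
      (Rep.res (primeLocalToGlobal w) N).ρ g x = N.ρ (primeLocalToGlobal w g) x := fun _ _ => rfl
  -- inertia acts trivially
  have hItriv : ∀ g : primeLocalGaloisGroup w,
      primeLocalToGlobal w g ∈ (primeLocalPlace w).inertiaSubgroupIn ℚ →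
      ∀ x : Rep.res (primeLocalToGlobal w) N, (Rep.res (primeLocalToGlobal w) N).ρ g x = x :=
    fun g hg x => by
      rw [hρ]
      exact hNF _ (hF₀.2 w hwS _ hAw hg) x
  -- the Kummer data over `K = ℚ(μ_p)`
  have hKfd : FiniteDimensional ℚ ↥(cycloField p) := finiteDimensional_cycloField p hp.ne_zero
  obtain ⟨ζ, hζ⟩ := Fermat.Agent.CFT.Global.G4Asm.exists_primitiveRoot (p := p) (cycloField p)
    le_rfl
  obtain ⟨π, hπ⟩ := exists_isUniformizerAt (K := cycloField p) (A := primeLocalPlace w) w.2 hAw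
  obtain ⟨θ, hθ⟩ := IsAlgClosed.exists_pow_nat_eq ((π : ↥(cycloField p)) : Qb) hp.pos
  have hθ0 : θ ≠ 0 := root_uniformizer_ne_zero w.2 hAw π hπ θ hθ
  have hz : IsPrimitiveRoot ((ζ : ↥(cycloField p)) : Qb) p :=
    hζ.map_of_injective (f := (cycloField p).val) (cycloField p).val.injective
  have : NeZero p := ⟨hp.ne_zero⟩
  have hex : ∀ σ : ↥(Dloc (cycloField p) (primeLocalPlace w)), ∃ a : ZMod p,
      (σ : GQ) θ = ((ζ : ↥(cycloField p)) : Qb) ^ a.val * θ := by
    intro σ
    have hfix : (σ : GQ) ((π : ↥(cycloField p)) : Qb) = π :=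
      (IntermediateField.mem_fixingSubgroup_iff _ _).mp σ.2.2 _ π.2
    have h1 : ((σ : GQ) θ / θ) ^ p = 1 := by
      rw [div_pow, ← map_pow, hθ, hfix, div_self]
      rw [← hθ]
      exact pow_ne_zero _ hθ0
    obtain ⟨i, hi, hi'⟩ := hz.eq_pow_of_pow_eq_one h1
    refine ⟨(i : ZMod p), ?_⟩
    rw [ZMod.val_natCast_of_lt hi, hi', div_mul_cancel₀ _ hθ0]
  choose κ hκ using hex
  have hκadd := kummer_uniformizer_add w.2 hAw ζ hζ π hπ θ hθ κ hκ
  obtain ⟨τ, hτI, hτ⟩ := exists_inertia_kummer_ne_zero w.2 hAw ζ hζ π hπ θ hθ κ hκ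
  -- the decomposition group is the range of the local group and fixes `K`
  have hD : (primeLocalPlace w).decompositionSubgroup ℚ ≤ (cycloField p).fixingSubgroup :=
    decomposition_le_fixingSubgroup_cycloField w.2 hwp hw1 _ hAw
  have hrange : ∀ g : primeLocalGaloisGroup w,
      primeLocalToGlobal w g ∈ Dloc (cycloField p) (primeLocalPlace w) := fun g => by
    have h1 : primeLocalToGlobal w g ∈ (primeLocalPlace w).decompositionSubgroup ℚ := by
      rw [← LocalRange.range_primeLocalToGlobal]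
      exact ⟨g, rfl⟩
    exact ⟨h1, hD h1⟩
  have hτr : (τ : GQ) ∈ (primeLocalToGlobal w).range := by
    rw [LocalRange.range_primeLocalToGlobal]
    exact τ.2.1
  obtain ⟨τ₀, hτ₀⟩ := hτr
  have hτ₀I : primeLocalToGlobal w τ₀ ∈ (primeLocalPlace w).inertiaSubgroupIn ℚ := by
    rw [hτ₀]; exact hτI
  -- the analysis of one cocycle
  have key : ∀ c : ↥(Z1 (localLevel (primeLocalToGlobal w)) (Rep.res (primeLocalToGlobal w) N)),
      (∀ g : primeLocalGaloisGroup w,
        (Rep.res (primeLocalToGlobal w) N).ρ g ((c : primeLocalGaloisGroup w → Rep.res (primeLocalToGlobal w) N) τ₀) =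
          (c : primeLocalGaloisGroup w → Rep.res (primeLocalToGlobal w) N) τ₀) ∧
      ((c : primeLocalGaloisGroup w → Rep.res (primeLocalToGlobal w) N) τ₀ = 0 →
        (c : primeLocalGaloisGroup w → Rep.res (primeLocalToGlobal w) N) ∈ C1 (urLevel w) (Rep.res (primeLocalToGlobal w) N)) := by
    rintro ⟨c, hcZ⟩
    obtain ⟨⟨_, ⟨F₁, hF₁, rfl⟩, hlev⟩, hcoc⟩ := id hcZ
    have := hF₁
    have hcc : ∀ g h : primeLocalGaloisGroup w,
        c (g * h) = (Rep.res (primeLocalToGlobal w) N).ρ g (c h) + c g :=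
      (mem_cocycles₁_iff c).1 hcoc
    have hc1 : c 1 = 0 := by
      have h1 := hcc 1 1
      rw [mul_one, map_one, Module.End.one_apply] at h1
      have h2 : c 1 + c 1 = c 1 + 0 := by rw [add_zero]; exact h1.symm
      exact add_left_cancel h2
    -- `c` only depends on the image in `G_ℚ`
    have hfib : ∀ g g' : primeLocalGaloisGroup w,
        primeLocalToGlobal w g = primeLocalToGlobal w g' → c g = c g' := by
      intro g g' h
      have h1 : primeLocalToGlobal w (g⁻¹ * g') ∈ F₁.fixingSubgroup := by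
        rw [map_mul, map_inv, h, inv_mul_cancel]
        exact one_mem _
      have h2 := hlev g (g⁻¹ * g') h1
      rw [mul_inv_cancel_left] at h2
      exact h2.symm
    -- descend to `D' = D_A ⊓ Fix K`
    have hpre : ∀ s : ↥(Dloc (cycloField p) (primeLocalPlace w)),
        ∃ h : primeLocalGaloisGroup w, primeLocalToGlobal w h = s := fun s => by
      have h1 : (s : GQ) ∈ (primeLocalToGlobal w).range := by
        rw [LocalRange.range_primeLocalToGlobal]
        exact s.2.1
      exact h1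
    choose pre hpre' using hpre
    let f : ↥(Dloc (cycloField p) (primeLocalPlace w)) → Rep.res (primeLocalToGlobal w) N :=
      fun s => c (pre s)
    have hfspec : ∀ (s : ↥(Dloc (cycloField p) (primeLocalPlace w)))
        (h : primeLocalGaloisGroup w), primeLocalToGlobal w h = s → f s = c h :=
      fun s h hh => hfib _ _ ((hpre' s).trans hh.symm)
    have hfadd : ∀ s t : ↥(Dloc (cycloField p) (primeLocalPlace w)),
        (s : GQ) ∈ (primeLocalPlace w).inertiaSubgroupIn ℚ →
        (t : GQ) ∈ (primeLocalPlace w).inertiaSubgroupIn ℚ → f (s * t) = f s + f t := by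
      intro s t hs _
      have h1 : f (s * t) = c (pre s * pre t) :=
        hfspec (s * t) (pre s * pre t) (by rw [map_mul, hpre', hpre']; rfl)
      rw [h1, hcc, hItriv (pre s) (by rw [hpre']; exact hs), add_comm]
    have hfF : ∀ s : ↥(Dloc (cycloField p) (primeLocalPlace w)),
        (s : GQ) ∈ (primeLocalPlace w).inertiaSubgroupIn ℚ → (s : GQ) ∈ F₁.fixingSubgroup →
        f s = 0 := by
      intro s _ hs
      have h1 := hlev 1 (pre s) (by
        show primeLocalToGlobal w (pre s) ∈ F₁.fixingSubgroup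
        rw [hpre']; exact hs)
      rw [one_mul] at h1
      show c (pre s) = 0
      rw [h1, hc1]
    obtain ⟨d, hd⟩ := exists_eq_kummer_smul_on_inertia w.2 hAw (Ne.symm hwp) ζ hζ π hπ θ hθ κ hκ
      f hfadd F₁ hfF
    have hcτ : c τ₀ = κ τ • d := by
      rw [← hfspec τ τ₀ hτ₀]
      exact hd τ hτI
    constructor
    · intro g
      show (Rep.res (primeLocalToGlobal w) N).ρ g (c τ₀) = c τ₀
      -- the conjugate of `τ` by `g`
      let sD : ↥(Dloc (cycloField p) (primeLocalPlace w)) := ⟨primeLocalToGlobal w g, hrange g⟩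
      have hconjI : ((sD * τ * sD⁻¹ : ↥(Dloc (cycloField p) (primeLocalPlace w))) : GQ) ∈
          (primeLocalPlace w).inertiaSubgroupIn ℚ :=
        conj_mem_inertiaSubgroupIn (hrange g).1 hτI
      have hκconj : κ (sD * τ * sD⁻¹) = κ τ := by
        rw [hκadd, hκadd, add_map_inv hκadd]
        ring
      have hfconj : f (sD * τ * sD⁻¹) = c (g * τ₀ * g⁻¹) :=
        hfspec _ _ (by rw [map_mul, map_mul, map_inv, hτ₀]; rfl)
      have hcconj : c (g * τ₀ * g⁻¹) = (Rep.res (primeLocalToGlobal w) N).ρ g (c τ₀) := by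
        have h1 : c (g * τ₀ * g⁻¹) =
            (Rep.res (primeLocalToGlobal w) N).ρ (g * τ₀) (c g⁻¹) + c (g * τ₀) := hcc _ _
        have h2 : c (g * τ₀) = (Rep.res (primeLocalToGlobal w) N).ρ g (c τ₀) + c g := hcc _ _
        have h3 : c (g * g⁻¹) = (Rep.res (primeLocalToGlobal w) N).ρ g (c g⁻¹) + c g := hcc _ _
        rw [mul_inv_cancel, hc1] at h3
        rw [h1, h2, map_mul, Module.End.mul_apply, hItriv τ₀ hτ₀I]
        have h4 : (Rep.res (primeLocalToGlobal w) N).ρ g (c g⁻¹) = -c g := by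
          rw [eq_neg_iff_add_eq_zero]; exact h3.symm
        rw [h4]
        abel
      rw [← hcconj, ← hfconj, hd _ hconjI, hκconj, hcτ]
    · intro h0
      have h0' : c τ₀ = 0 := h0
      have hd0 : d = 0 := by
        rw [hcτ] at h0'
        exact (smul_eq_zero_iff_right hτ).mp h0'
      refine Fermat.Agent.S56.GW.UrInertia.mem_C1_urLevel_of_cocycle hcZ fun s hs => ?_
      have h1 : f ⟨primeLocalToGlobal w s, hrange s⟩ = c s := hfspec _ s rfl
      show c s = 0
      rw [← h1, hd _ hs, hd0, smul_zero]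
  -- the linear map `Θ : H¹ → H⁰`, evaluation at `τ₀`
  let ev : (primeLocalGaloisGroup w → Rep.res (primeLocalToGlobal w) N) →ₗ[ZMod p]
      Rep.res (primeLocalToGlobal w) N := LinearMap.proj τ₀
  let Θ₀ : ↥(Z1 (localLevel (primeLocalToGlobal w)) (Rep.res (primeLocalToGlobal w) N)) →ₗ[ZMod p]
      ↥((Rep.res (primeLocalToGlobal w) N).ρ.invariants) :=
    LinearMap.codRestrict _ (ev ∘ₗ (Z1 (localLevel (primeLocalToGlobal w))
      (Rep.res (primeLocalToGlobal w) N)).subtype) (fun c g => (key c).1 g)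
  have hΘ₀ : ∀ c : ↥(Z1 (localLevel (primeLocalToGlobal w)) (Rep.res (primeLocalToGlobal w) N)),
      ((Θ₀ c : ↥((Rep.res (primeLocalToGlobal w) N).ρ.invariants)) :
        Rep.res (primeLocalToGlobal w) N) = (c : primeLocalGaloisGroup w → Rep.res (primeLocalToGlobal w) N) τ₀ := fun c => rfl
  have hcob : (coboundaries₁ (Rep.res (primeLocalToGlobal w) N)).comap
      (Z1 (localLevel (primeLocalToGlobal w)) (Rep.res (primeLocalToGlobal w) N)).subtype ≤
        LinearMap.ker Θ₀ := by
    rintro c ⟨m, hm⟩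
    rw [LinearMap.mem_ker]
    apply Subtype.ext
    rw [hΘ₀]
    have h1 : (c : primeLocalGaloisGroup w → Rep.res (primeLocalToGlobal w) N) τ₀ =
        (d₀₁ (Rep.res (primeLocalToGlobal w) N)).hom m τ₀ := by
      rw [hm]; rfl
    rw [h1, d₀₁_hom_apply, hItriv τ₀ hτ₀I, sub_self]
    rfl
  let Θ : S55.Abs.H1 (localLevel (primeLocalToGlobal w)) (Rep.res (primeLocalToGlobal w) N)
      →ₗ[ZMod p] ↥((Rep.res (primeLocalToGlobal w) N).ρ.invariants) :=
    Submodule.liftQ _ Θ₀ hcob
  have hker : LinearMap.ker Θ ≤ H1ur w (Rep.res (primeLocalToGlobal w) N) := by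
    intro x hx
    induction x using Submodule.Quotient.induction_on with
    | H c =>
      have h1 : Θ₀ c = 0 := hx
      have h2 : (c : primeLocalGaloisGroup w → Rep.res (primeLocalToGlobal w) N) τ₀ = 0 := by
        rw [← hΘ₀, h1]; rfl
      exact (mem_H1ur_iff _).2 ⟨c, (key c).2 h2, rfl⟩
  -- dimensions
  by_cases hfin : Module.Finite (ZMod p)
      (S55.Abs.H1 (localLevel (primeLocalToGlobal w)) (Rep.res (primeLocalToGlobal w) N))
  · have e1 := LinearMap.finrank_range_add_finrank_ker Θ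
    have e2 := Submodule.finrank_mono hker
    have : Module.Finite (ZMod p) (Rep.res (primeLocalToGlobal w) N) :=
      inferInstanceAs (Module.Finite (ZMod p) N)
    have e3 : Module.finrank (ZMod p) ↥(LinearMap.range Θ) ≤
        Module.finrank (ZMod p) ↥((Rep.res (primeLocalToGlobal w) N).ρ.invariants) :=
      Submodule.finrank_le _
    have e4 : Module.finrank (ZMod p) (S55.Abs.H0 (Rep.res (primeLocalToGlobal w) N)) =
        Module.finrank (ZMod p) ↥((Rep.res (primeLocalToGlobal w) N).ρ.invariants) := rfl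
    omega
  · rw [Module.finrank_of_not_finite hfin]
    exact Nat.zero_le _

/-- **LQ, final form.** For `w ≡ 1 mod p`, `w ≠ p`, and a finite `𝔽_p[G_ℚ]`-module `N` unramified
at `w`: `h¹(G_w, N) ≤ 2 h⁰(G_w, N)` (with `GW/UrFrob.finrank_H1ur_res_le`, helper165). -/
theorem finrank_H1_le_two_mul_H0 (w : Nat.Primes) (hwp : (w : ℕ) ≠ p) (hw1 : (w : ℕ) % p = 1)
    {S : Finset Nat.Primes} (hwS : w ∉ S) (N : Rep.{0} (ZMod p) GQ) [Module.Finite (ZMod p) N]
    (hN : IsDisc (globalLevel S) N) :
    Module.finrank (ZMod p)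
        (S55.Abs.H1 (localLevel (primeLocalToGlobal w)) (Rep.res (primeLocalToGlobal w) N)) ≤
      2 * Module.finrank (ZMod p) (S55.Abs.H0 (Rep.res (primeLocalToGlobal w) N)) := by
  have h1 := finrank_H1_le_ur_add_H0 w hwp hw1 hwS N hN
  have h2 := Fermat.Agent.S56.GW.UrFrob.finrank_H1ur_res_le hN hwS
  omega

end Fermat.Agent.S56.Loc.TameQ
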