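/-
S56 / brick LQ, the `h⁰` term (helper146): at a prime `q` where a Frobenius acts on a
`2`-dimensional representation `ρ` over `k` with distinct eigenvalues, the invariants of the
local group at `q` on the trace-zero adjoint of `ρ` have `F`-dimension `≤ [k : F]`.

The statements are model-independent: the adjoint module is any `F`-representation `N` with an
injective `F`-linear map `mat` into the `2 × 2` matrices over `k`, with trace-zero values and
`mat (g • x) * ρ g = ρ g * mat x`.

* `eq_zero_of_comm` : a trace-zero `2 × 2` matrix `X` commuting with `R`, `disc R ≠ 0`,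
  `tr (X R) = 0`, is zero (no hypothesis on the characteristic);
* `disc_ne_zero_of_charpoly` : `charpoly R = (X - α)(X - β)`, `α ≠ β` gives `disc R ≠ 0`;
* `finrank_H0_le` : `dim_F H⁰(G, M) ≤ [k : F]` when one `γ ∈ G` acts through conjugation by
  such an `R`;
* `finrank_H0_res_le_of_frob`, `finrank_H0_res_le_of_frob_charpoly` : the same for the local
  group at a prime `q` of `ℚ`, `γ` = a Frobenius at the distinguished place above `q`.
-/
import Fermat.Agent.S55.Abs.LES
import Fermat.Agent.S55.Glue.LocalRange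
import Fermat.Prelude.Def_EllipticCurve_FrobeniusTrace

set_option autoImplicit false

open CategoryTheory groupCohomology ExtCitation

namespace Fermat.Agent.S56.Loc.TameH0

open Fermat.Agent.S55 Fermat.Agent.S55.Glue

local notation "Qb" => AlgebraicClosure ℚ
local notation "GQ" => (AlgebraicClosure ℚ ≃ₐ[ℚ] AlgebraicClosure ℚ)

/-! ### Linear algebra of `2 × 2` matrices -/

/-- A trace-zero `2 × 2` matrix `X` commuting with a matrix `R` of non-zero discriminant and
with `tr (X R) = 0` is zero. -/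
theorem eq_zero_of_comm {k : Type*} [Field k] (R X : Matrix (Fin 2) (Fin 2) k)
    (hdisc : R.trace ^ 2 - 4 * R.det ≠ 0) (hX : X.trace = 0) (hcomm : X * R = R * X)
    (ht : (X * R).trace = 0) : X = 0 := by
  have h00 := congrFun (congrFun hcomm 0) 0
  have h01 := congrFun (congrFun hcomm 0) 1
  have h10 := congrFun (congrFun hcomm 1) 0
  simp only [Matrix.mul_apply, Fin.sum_univ_two] at h00 h01 h10
  rw [Matrix.trace_fin_two] at hX ht
  simp only [Matrix.mul_apply, Fin.sum_univ_two] at ht
  rw [Matrix.trace_fin_two, Matrix.det_fin_two] at hdisc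
  have hx11 : X 1 1 = -X 0 0 := by linear_combination hX
  rw [hx11] at h01 h10 ht
  have hx : X 0 0 * ((R 0 0 + R 1 1) ^ 2 - 4 * (R 0 0 * R 1 1 - R 0 1 * R 1 0)) = 0 := by
    linear_combination (R 0 0 - R 1 1) * ht + R 1 0 * h01 - R 0 1 * h10
  have hy : X 0 1 * ((R 0 0 + R 1 1) ^ 2 - 4 * (R 0 0 * R 1 1 - R 0 1 * R 1 0)) = 0 := by
    linear_combination -(R 0 0 - R 1 1) * h01 + 2 * R 0 1 * (ht + h00)
  have hz : X 1 0 * ((R 0 0 + R 1 1) ^ 2 - 4 * (R 0 0 * R 1 1 - R 0 1 * R 1 0)) = 0 := by
    linear_combination (R 0 0 - R 1 1) * h10 + 2 * R 1 0 * (ht - h00)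
  have hx0 : X 0 0 = 0 := (mul_eq_zero.mp hx).resolve_right hdisc
  have hy0 : X 0 1 = 0 := (mul_eq_zero.mp hy).resolve_right hdisc
  have hz0 : X 1 0 = 0 := (mul_eq_zero.mp hz).resolve_right hdisc
  ext i j
  fin_cases i <;> fin_cases j
  · exact hx0
  · exact hy0
  · exact hz0
  · show X 1 1 = 0
    rw [hx11, hx0, neg_zero]

/-- A `2 × 2` matrix whose characteristic polynomial has two distinct roots has non-zero
discriminant. -/
theorem disc_ne_zero_of_charpoly {k : Type*} [Field k] {R : Matrix (Fin 2) (Fin 2) k} {α β : k}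
    (h : R.charpoly = (Polynomial.X - Polynomial.C α) * (Polynomial.X - Polynomial.C β))
    (hαβ : α ≠ β) : R.trace ^ 2 - 4 * R.det ≠ 0 := by
  rw [Matrix.charpoly_fin_two] at h
  have hα := congrArg (Polynomial.eval α) h
  have hβ := congrArg (Polynomial.eval β) h
  simp only [Polynomial.eval_add, Polynomial.eval_sub, Polynomial.eval_mul, Polynomial.eval_pow,
    Polynomial.eval_X, Polynomial.eval_C, sub_self, zero_mul, mul_zero] at hα hβ
  have h1 : (α - β) * (α + β - R.trace) = 0 := by linear_combination hα - hβ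
  have htr : R.trace = α + β := by
    rcases mul_eq_zero.mp h1 with h2 | h2
    · exact absurd (sub_eq_zero.mp h2) hαβ
    · linear_combination -h2
  have hdet : R.det = α * β := by
    rw [htr] at hα
    linear_combination hα
  rw [htr, hdet]
  have h3 : (α + β) ^ 2 - 4 * (α * β) = (α - β) ^ 2 := by ring
  rw [h3]
  exact pow_ne_zero 2 (sub_ne_zero.mpr hαβ)

/-! ### The invariants -/

/-- If one element `γ` of `G` acts on the matrix model of `M` through conjugation by a matrix
`R` of non-zero discriminant, the invariants of `M` have `F`-dimension at most `[k : F]`: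
`x ↦ tr (mat x * R)` is an injective `F`-linear map `H⁰(G, M) → k`. -/
theorem finrank_H0_le {F k : Type} [Field F] [Field k] [Algebra F k] [Module.Finite F k]
    {G : Type} [Group G] (M : Rep.{0} F G)
    (mat : M →ₗ[F] Matrix (Fin 2) (Fin 2) k) (hinj : Function.Injective mat)
    (htr : ∀ x, (mat x).trace = 0) (γ : G) (R : Matrix (Fin 2) (Fin 2) k)
    (hR : ∀ x, mat (M.ρ γ x) * R = R * mat x)
    (hdisc : R.trace ^ 2 - 4 * R.det ≠ 0) :
    Module.finrank F (S55.Abs.H0 M) ≤ Module.finrank F k := by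
  let Φ : S55.Abs.H0 M →ₗ[F] k :=
    (Matrix.traceLinearMap (Fin 2) F k) ∘ₗ (LinearMap.mulRight F R) ∘ₗ mat ∘ₗ
      (M.ρ.invariants).subtype
  have hΦ : ∀ x : S55.Abs.H0 M, Φ x = (mat x.1 * R).trace := fun _ => rfl
  have hinjΦ : Function.Injective Φ := by
    rw [← LinearMap.ker_eq_bot, LinearMap.ker_eq_bot']
    intro x hx
    rw [hΦ] at hx
    have hcomm : mat x.1 * R = R * mat x.1 := by
      have h1 := hR x.1
      rw [x.2 γ] at h1
      exact h1
    have h1 : mat x.1 = 0 := eq_zero_of_comm R (mat x.1) hdisc (htr _) hcomm hx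
    exact Subtype.ext (hinj (h1.trans (map_zero mat).symm))
  exact LinearMap.finrank_le_finrank_of_injective hinjΦ

/-- **`h⁰` at a Taylor--Wiles prime.**  If a Frobenius `φ` at the distinguished place above `q`
acts through a matrix `ρ φ` of non-zero discriminant, the invariants of the local group at `q`
on `N` have `F`-dimension at most `[k : F]`. -/
theorem finrank_H0_res_le_of_frob {F k : Type} [Field F] [Field k] [Algebra F k]
    [Module.Finite F k] (N : Rep.{0} F GQ)
    (mat : N →ₗ[F] Matrix (Fin 2) (Fin 2) k) (hinj : Function.Injective mat)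
    (htr : ∀ x, (mat x).trace = 0) (ρ : GQ → Matrix (Fin 2) (Fin 2) k)
    (heq : ∀ g x, mat (N.ρ g x) * ρ g = ρ g * mat x)
    (q : Nat.Primes) (φ : GQ) (hφ : (primeLocalPlace q).IsFrobeniusAt φ (q : ℕ))
    (hdisc : (ρ φ).trace ^ 2 - 4 * (ρ φ).det ≠ 0) :
    Module.finrank F (S55.Abs.H0 (Rep.res (primeLocalToGlobal q) N)) ≤ Module.finrank F k := by
  obtain ⟨γ, hγ⟩ : φ ∈ (primeLocalToGlobal q).range := by
    rw [LocalRange.range_primeLocalToGlobal]
    exact hφ.mem_decompositionSubgroup
  refine finrank_H0_le (Rep.res (primeLocalToGlobal q) N) mat hinj htr γ (ρ φ) (fun x => ?_) hdisc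
  have h1 := heq φ x
  rw [← hγ] at h1 ⊢
  exact h1

/-- The same with the eigenvalues of the Frobenius: `charpoly (ρ φ) = (X - α)(X - β)`,
`α ≠ β`. -/
theorem finrank_H0_res_le_of_frob_charpoly {F k : Type} [Field F] [Field k] [Algebra F k]
    [Module.Finite F k] (N : Rep.{0} F GQ)
    (mat : N →ₗ[F] Matrix (Fin 2) (Fin 2) k) (hinj : Function.Injective mat)
    (htr : ∀ x, (mat x).trace = 0) (ρ : GQ → Matrix (Fin 2) (Fin 2) k)
    (heq : ∀ g x, mat (N.ρ g x) * ρ g = ρ g * mat x)
    (q : Nat.Primes) (φ : GQ) (hφ : (primeLocalPlace q).IsFrobeniusAt φ (q : ℕ))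
    {α β : k} (hαβ : α ≠ β)
    (hchar : (ρ φ).charpoly = (Polynomial.X - Polynomial.C α) * (Polynomial.X - Polynomial.C β)) :
    Module.finrank F (S55.Abs.H0 (Rep.res (primeLocalToGlobal q) N)) ≤ Module.finrank F k :=
  finrank_H0_res_le_of_frob N mat hinj htr ρ heq q φ hφ (disc_ne_zero_of_charpoly hchar hαβ)

end Fermat.Agent.S56.Loc.TameH0
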