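/-
S56 / LOC → SEL junction (helper236): the brick `Sel.Contract.HpLocOrdStatement` of
`Sel/Contract.lean` (the `hp_loc` binder of `GW/Numeric.finrank_le_card_mul` at `p`,
strict-ordinary half, for the model of record `Sel.adRep (ZMod p) (matOfBasisRes ρbar b0)`).

* `hpLocOrdStatement : Sel.Contract.HpLocOrdStatement` — one call to
  `Loc/OrdHyp.hp_loc_condOrd` (helper48): the model is `Sel.Contract.isModel_adRep`, it is discrete
  at level `S₀ ∪ Q` because `ρbar` is unramified outside `Smin ⊆ S ⊆ S₀`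
  (`GW/RhoLevel.exists_field_matOfBasisRes`), the lift clause is the last clause of `IsTanSpace`,
  the class clause is `IsClassSpace`, and `|k| = p ^ [k : 𝔽_p]` (`Sel.Contract.card_residueField`).
-/
import Fermat.Agent.S56.Sel.Contract
import Fermat.Agent.S56.Loc.OrdHyp
import Fermat.Agent.S56.GW.RhoLevel

set_option autoImplicit false
set_option linter.style.haveILetI false

open CategoryTheory groupCohomology ExtCitation IsLocalRing

namespace Fermat.Agent.S56.Loc.OrdExit

open Fermat.Agent.S53.MatRep Fermat.Agent.S55 Fermat.Agent.S55.Abs Fermat.Agent.S55.Count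
  Fermat.Agent.S56.GW Fermat.Agent.S56.Sel Fermat.Agent.S56.Sel.Contract

/-- **(P-ORD).**  The image at `p` of a class space of a tangent space of strict-ordinary type
has dimension `≤ h⁰(G_p, ad⁰ ρbar) + [k : 𝔽_p]`. -/
theorem hpLocOrdStatement : HpLocOrdStatement := by
  intro 𝒪 _ _ _ _ _ p _ ρbar S Smin hyp _ b0 S₀ hS₀ n r qv hTW hq hpT C hT W hCW
  haveI : NeZero p := ⟨(Fact.out : p.Prime).ne_zero⟩
  haveI : Module.Finite (ZMod p) (ResidueField 𝒪) := Module.Finite.of_finite
  have hmod := isModel_adRep (p := p) (matOfBasisRes ρbar b0)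
  have hMd : IsDisc (globalLevel (S₀ ∪ Finset.univ.image qv))
      (adRep (ZMod p) (matOfBasisRes ρbar b0)) :=
    hmod.isDisc _ (Fermat.Agent.S56.GW.RhoLevel.exists_field_matOfBasisRes hyp b0 _
      fun q hq' hqS => Finset.subset_union_left (hS₀ q hq' (hyp.hSmin hqS)))
  exact Fermat.Agent.S56.Loc.OrdHyp.hp_loc_condOrd hyp (fun i => (qv i : ℕ)) b0 hpT
    (invS p _) hmod.isAdModel hMd C W hCW hT.2.2.2.2 card_residueField

end Fermat.Agent.S56.Loc.OrdExit
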