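import Mathlib
import Fermat.Agent.CFT.LocalBr.Fin
import Fermat.Agent.S55.Abs.Bridge
import Fermat.Agent.S55.Abs.LES

/-!
# S56, brick LOC.LO (count half): `dim H¹(G_p, N) ≤ 2 dim N` for `N` cyclotomic-isotypic

(helper57.)  `p` an odd prime, `Gq p = Gal(ℚ̄_p/ℚ_p)`.

* `card_rootsOfUnity_padicInt` : `ℤ_p` has no non-trivial `p`-th root of unity (`p` odd);
* `index_range_pow_padic` : `[ℚ_p^× : (ℚ_p^×)^p] = p ^ 2` (`p` odd);
* `exists_kummer_cocycle` : a level map `c : G_p → 𝔽_p` with `c (g h) = c g + ω(g) c h` is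
  `g ↦ log_ζ (g β / β)` for some `β ∈ ℚ̄_p^×` with `β ^ p ∈ ℚ_p^×` (Hilbert 90);
* `finrank_H1_le_two_mul_Gq`, `finrank_H1_le_two_mul` : **(LO-1)** if `G_p` acts on the finite
  `𝔽_p`-module `N` through the mod `p` cyclotomic character, then the level cohomology
  `H¹(G_p, N)` is finite of dimension `≤ 2 dim N`.  (Kummer map into `(ℚ_p^× / p) ^ dim N`,
  coordinatewise in an `𝔽_p`-basis of `N`; no local Euler characteristic.)

Consumer: strict-ordinary deformations at `p` have classes in the image of `H¹(G_p, U)`,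
`U = Hom(V/l, l) = k(ω)`; see `Loc/OrdRange.lean` for the bound on that image.
-/

set_option autoImplicit false

open CategoryTheory groupCohomology ExtCitation IsLocalRing

namespace Fermat.Agent.S56.Loc.OrdCount

open Fermat.Agent.S55.Abs Fermat.Agent.CFT.Local Fermat.Agent.CFT.LocalBr
  Fermat.Agent.CFT.LocalBr.Fin

section Index

variable (p : ℕ) [hp : Fact p.Prime]

/-- `ℤ_p` has no non-trivial `p`-th root of unity when `p` is odd. -/
theorem eq_one_of_pow_eq_one_padicInt (hp2 : p ≠ 2) (u : ℤ_[p]ˣ) (hu : u ^ p = 1) : u = 1 := by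
  have hpp : p.Prime := hp.out
  have hpe : ((p : ℕ) : ℤ_[p]) = (p : ℤ_[p]) ^ 1 * ((1 : ℤ_[p]ˣ) : ℤ_[p]) := by simp
  have hne : 1 < 1 * (p - 1) := by
    have := hpp.two_le
    omega
  refine eq_one_of_pow_prime_eq_one (O := ℤ_[p]) PadicInt.irreducible_p hpp hpe 1 le_rfl hne ?_ hu
  rw [mem_principalUnits, pow_one, ← PadicInt.ker_toZMod, RingHom.mem_ker, map_sub, map_one,
    sub_eq_zero]
  have h1 : (PadicInt.toZMod (u : ℤ_[p])) ^ p = 1 := by
    rw [← map_pow, ← Units.val_pow_eq_pow_val, hu, Units.val_one, map_one]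
  rwa [ZMod.pow_card] at h1

theorem card_rootsOfUnity_padicInt (hp2 : p ≠ 2) : Nat.card (rootsOfUnity p ℤ_[p]) = 1 := by
  rw [Nat.card_eq_one_iff_unique]
  refine ⟨⟨fun a b => ?_⟩, ⟨1⟩⟩
  have ha : (a : ℤ_[p]ˣ) = 1 :=
    eq_one_of_pow_eq_one_padicInt p hp2 a ((mem_rootsOfUnity _ _).1 a.2)
  have hb : (b : ℤ_[p]ˣ) = 1 :=
    eq_one_of_pow_eq_one_padicInt p hp2 b ((mem_rootsOfUnity _ _).1 b.2)
  exact Subtype.ext (ha.trans hb.symm)

theorem card_quotient_span_p_padicInt :
    Nat.card (ℤ_[p] ⧸ Ideal.span {((p : ℕ) : ℤ_[p])}) = p := by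
  have e : (ℤ_[p] ⧸ Ideal.span {((p : ℕ) : ℤ_[p])}) ≃+* ZMod p :=
    (Ideal.quotEquivOfEq (by rw [PadicInt.ker_toZMod, PadicInt.maximalIdeal_eq_span_p])).trans
      (RingHom.quotientKerEquivOfSurjective (ZMod.ringHom_surjective PadicInt.toZMod))
  rw [Nat.card_congr e.toEquiv, Nat.card_eq_fintype_card, ZMod.card]

/-- `[ℚ_p^× : (ℚ_p^×)^p] = p ^ 2` for an odd prime `p`. -/
theorem index_range_pow_padic (hp2 : p ≠ 2) :
    (powMonoidHom p : ℚ_[p]ˣ →* ℚ_[p]ˣ).range.index = p ^ 2 := by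
  have hpp : p.Prime := hp.out
  have hp0 : ((p : ℕ) : ℤ_[p]) ≠ 0 := by
    exact_mod_cast hpp.ne_zero
  have : Finite (ResidueField ℤ_[p]) := Finite.of_equiv _ PadicInt.residueField.symm.toEquiv
  rw [index_range_pow_prime_fractionField' (O := ℤ_[p]) ℚ_[p] hpp hp0,
    card_rootsOfUnity_padicInt p hp2, card_quotient_span_p_padicInt]
  ring

end Index

/-! ### Kummer theory for cyclotomic-isotypic coefficients -/

section Kummer

variable {p : ℕ} [Fact p.Prime]

/-- The Galois action on `ζ ^ a`. -/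
theorem smul_zp_eq (τ : Gq p) (a : ZMod p) :
    τ • zp p p a =
      zp p p (((cycloChar p (localGaloisToGlobal p τ) : (ZMod p)ˣ) : ZMod p) * a) :=
  congrArg Additive.toMul (muEmb_equivariant p p τ a)

/-- **Kummer generator of a twisted character.**  A level map `c : G_p → 𝔽_p` with
`c (g h) = c g + ω(g) c h` is `g ↦ log_ζ (g β / β)` for some `β ∈ ℚ̄_p^×` with `β ^ p ∈ ℚ_p^×`. -/
theorem exists_kummer_cocycle (c : Gq p → ZMod p)
    (hc : ∀ g h, c (g * h) =
      c g + ((cycloChar p (localGaloisToGlobal p g) : (ZMod p)ˣ) : ZMod p) * c h)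
    (hlev : IsLev₁ (localLevel (localGaloisToGlobal p)) c) :
    ∃ (a : ℚ_[p]ˣ) (β : (PadicAlgCl p)ˣ),
      algebraMap ℚ_[p] (PadicAlgCl p) (a : ℚ_[p]) = (β : PadicAlgCl p) ^ p ∧
      ∀ g : Gq p, g • β = β * zp p p (c g) := by
  obtain ⟨V, ⟨F₀, hF₀, rfl⟩, hV⟩ := hlev
  have := hF₀
  have := Fermat.Agent.S55.Glue.finiteDimensional_localLevelField p F₀
  obtain ⟨β, hβ⟩ := Fermat.Agent.CFT.Cyclic.exists_smul_div_eq_of_levelConstant
    (⊤ : Subgroup (Gq p)) (fun g => zp p p (c g))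
    (fun g _ h _ => by
      show zp p p (c (g * h)) = g • zp p p (c h) * zp p p (c g)
      rw [hc, zp_add, smul_zp_eq, mul_comm])
    (Fermat.Agent.S55.Glue.localLevelField p F₀)
    (fun g _ s _ hsF => by
      show zp p p (c (g * s)) = zp p p (c g)
      rw [hV g s ((Fermat.Agent.S55.Glue.mem_fixingSubgroup_localLevelField_iff p F₀ s).1 hsF)])
  have hβ' : ∀ g : Gq p, g • β = β * zp p p (c g) := fun g => by
    have h := hβ g (Subgroup.mem_top g)
    rw [div_eq_iff_eq_mul] at h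
    rw [h, mul_comm]
  have hfix : ∀ g : Gq p, g ((β : PadicAlgCl p) ^ p) = (β : PadicAlgCl p) ^ p := by
    intro g
    have h := congrArg (fun u : (PadicAlgCl p)ˣ => ((u ^ p : (PadicAlgCl p)ˣ) : PadicAlgCl p))
      (hβ' g)
    simp only [mul_pow, zp_pow, mul_one] at h
    rw [map_pow]
    simpa using h
  have hmem := mem_of_forall_fixingSubgroup (⊥ : IntermediateField ℚ_[p] (PadicAlgCl p)) _
    (fun g _ => hfix g)
  obtain ⟨a, ha⟩ := IntermediateField.mem_bot.1 hmem
  have hne : a ≠ 0 := by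
    rintro rfl
    rw [map_zero] at ha
    exact (pow_ne_zero p β.ne_zero) ha.symm
  exact ⟨Units.mk0 a hne, β, ha, hβ'⟩

/-- **(LO-1), `Gq p` form.**  For a finite `𝔽_p[G_p]`-module `N` on which `G_p` acts through the
mod `p` cyclotomic character (`p` odd), `dim H¹(G_p, N) ≤ 2 dim N`. -/
theorem finrank_H1_le_two_mul_Gq (hp2 : p ≠ 2) (N : Rep.{0} (ZMod p) (Gq p))
    [Module.Finite (ZMod p) N]
    (hN : ∀ (g : Gq p) (n : N), N.ρ g n =
      ((cycloChar p (localGaloisToGlobal p g) : (ZMod p)ˣ) : ZMod p) • n) :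
    Module.Finite (ZMod p) (H1 (localLevel (localGaloisToGlobal p)) N) ∧
      Module.finrank (ZMod p) (H1 (localLevel (localGaloisToGlobal p)) N) ≤
        2 * Module.finrank (ZMod p) N := by
  classical
  have hpp : p.Prime := Fact.out
  let b := Module.finBasis (ZMod p) N
  have hcoord : ∀ (z : ↥(Z1 (localLevel (localGaloisToGlobal p)) N))
      (j : Fin (Module.finrank (ZMod p) N)), ∃ (a : ℚ_[p]ˣ) (β : (PadicAlgCl p)ˣ),
      algebraMap ℚ_[p] (PadicAlgCl p) (a : ℚ_[p]) = (β : PadicAlgCl p) ^ p ∧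
      ∀ g : Gq p, g • β = β * zp p p (b.repr (z.1 g) j) := by
    intro z j
    refine exists_kummer_cocycle _ ?_ ?_
    · intro g h
      have h1 := (mem_cocycles₁_iff z.1).1 z.2.2 g h
      rw [h1, hN, map_add, map_smul]
      simp [add_comm]
    · obtain ⟨V, hV, h⟩ := z.2.1
      exact ⟨V, hV, fun g s hs => by
        show b.repr (z.1 (g * s)) j = b.repr (z.1 g) j
        rw [h g s hs]⟩
  choose A B hAB hB using hcoord
  let Φ : ↥(Z1 (localLevel (localGaloisToGlobal p)) N) →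
      (Fin (Module.finrank (ZMod p) N) → ℚ_[p]ˣ ⧸ (powMonoidHom p : ℚ_[p]ˣ →* ℚ_[p]ˣ).range) :=
    fun z j => QuotientGroup.mk (A z j)
  have key : ∀ z z' : ↥(Z1 (localLevel (localGaloisToGlobal p)) N), Φ z = Φ z' →
      z - z' ∈ (coboundaries₁ N).comap (Z1 (localLevel (localGaloisToGlobal p)) N).subtype := by
    intro z z' hΦ
    have ht : ∀ j, ∃ t : ZMod p, ∀ g : Gq p,
        b.repr (z.1 g) j - b.repr (z'.1 g) j =
          t - ((cycloChar p (localGaloisToGlobal p g) : (ZMod p)ˣ) : ZMod p) * t := by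
      intro j
      obtain ⟨u, hu⟩ := QuotientGroup.eq.1 (congrFun hΦ j)
      -- `u ^ p = (A z j)⁻¹ * A z' j`
      let U : (PadicAlgCl p)ˣ := Units.map (algebraMap ℚ_[p] (PadicAlgCl p)).toMonoidHom u
      have hU : ∀ g : Gq p, g • U = U := by
        intro g
        ext
        show g (algebraMap ℚ_[p] (PadicAlgCl p) (u : ℚ_[p])) = _
        rw [AlgEquiv.commutes]
        rfl
      have hUp : B z' j ^ p = B z j ^ p * U ^ p := by
        ext
        have h1 : ((A z' j : ℚ_[p]ˣ) : ℚ_[p]) = (A z j : ℚ_[p]) * (u : ℚ_[p]) ^ p := by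
          have h2 : A z' j = A z j * u ^ p := by
            have h3 : u ^ p = (A z j)⁻¹ * A z' j := hu
            rw [h3, mul_inv_cancel_left]
          rw [h2]
          simp
        have h4 := congrArg (algebraMap ℚ_[p] (PadicAlgCl p)) h1
        rw [map_mul, map_pow, hAB, hAB] at h4
        simpa [U] using h4
      let w : (PadicAlgCl p)ˣ := B z' j * (B z j * U)⁻¹
      have hw : w ^ p = 1 := by
        show (B z' j * (B z j * U)⁻¹) ^ p = 1
        rw [mul_pow, inv_pow, mul_pow, hUp, mul_inv_cancel]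
      obtain ⟨t, ht⟩ := exists_zp_of_pow_eq_one p w hw
      refine ⟨t, fun g => ?_⟩
      have h5 : g • w = w * zp p p (b.repr (z'.1 g) j - b.repr (z.1 g) j) := by
        show g • (B z' j * (B z j * U)⁻¹) = B z' j * (B z j * U)⁻¹ * _
        rw [smul_mul', smul_inv', smul_mul', hB, hB, hU, sub_eq_add_neg, zp_add]
        have hneg : zp p p (-(b.repr (z.1 g) j)) = (zp p p (b.repr (z.1 g) j))⁻¹ := by
          rw [eq_inv_iff_mul_eq_one, ← zp_add, neg_add_cancel]
          simp [zp]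
        rw [hneg]
        simp only [mul_inv_rev]
        ac_rfl
      rw [← ht, smul_zp_eq, ← zp_add] at h5
      have h6 := zp_injective p h5
      linear_combination h6
    choose t ht using ht
    rw [Submodule.mem_comap]
    refine ⟨∑ j, (-(t j)) • b j, ?_⟩
    funext g
    rw [d₀₁_hom_apply, hN]
    apply b.repr.injective
    ext j
    have h7 := ht j g
    simp only [Submodule.subtype_apply, Pi.sub_apply, map_sub, map_smul,
      Finsupp.coe_sub, Finsupp.coe_smul, Pi.smul_apply, smul_eq_mul]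
    rw [h7]
    simp [Finsupp.single_apply]
    ring
  have hinj : Function.Injective
      (fun x : H1 (localLevel (localGaloisToGlobal p)) N =>
        Φ (Function.surjInv (Submodule.mkQ_surjective _) x)) := by
    intro x y hxy
    have h1 := key _ _ hxy
    have h2 := (Submodule.Quotient.eq _).2 h1
    have hx := Function.surjInv_eq (Submodule.mkQ_surjective
      ((coboundaries₁ N).comap (Z1 (localLevel (localGaloisToGlobal p)) N).subtype)) x
    have hy := Function.surjInv_eq (Submodule.mkQ_surjective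
      ((coboundaries₁ N).comap (Z1 (localLevel (localGaloisToGlobal p)) N).subtype)) y
    rw [Submodule.mkQ_apply] at hx hy
    rw [← hx, ← hy]
    exact h2
  have hidx := index_range_pow_padic p hp2
  have hfi : (powMonoidHom p : ℚ_[p]ˣ →* ℚ_[p]ˣ).range.FiniteIndex :=
    ⟨by rw [hidx]; exact pow_ne_zero _ hpp.ne_zero⟩
  have hQfin : Finite (ℚ_[p]ˣ ⧸ (powMonoidHom p : ℚ_[p]ˣ →* ℚ_[p]ˣ).range) :=
    Subgroup.finite_quotient_of_finiteIndex
  have hfin : Finite (H1 (localLevel (localGaloisToGlobal p)) N) := Finite.of_injective _ hinj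
  have hMF : Module.Finite (ZMod p) (H1 (localLevel (localGaloisToGlobal p)) N) :=
    Module.Finite.of_finite
  refine ⟨hMF, ?_⟩
  have hcard := Nat.card_le_card_of_injective _ hinj
  rw [Nat.card_fun, Nat.card_fin, ← Subgroup.index_eq_card, hidx,
    Module.natCard_eq_pow_finrank (K := ZMod p), Nat.card_zmod, ← pow_mul] at hcard
  exact (Nat.pow_le_pow_iff_right hpp.one_lt).1 hcard

/-- **(LO-1).**  For a finite `𝔽_p[G_p]`-module `N` on which the local Galois group at `p` acts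
through the mod `p` cyclotomic character (`p` odd), `dim H¹(G_p, N) ≤ 2 dim N`
(`= dim_{𝔽_p} H¹(G_p, k(ω)) ≤ 2 [k : 𝔽_p]` for `N = k(ω)`). -/
theorem finrank_H1_le_two_mul (hp2 : p ≠ 2)
    (N : Rep.{0} (ZMod p) (primeLocalGaloisGroup (pPrime p))) [Module.Finite (ZMod p) N]
    (hN : ∀ (g : primeLocalGaloisGroup (pPrime p)) (n : N), N.ρ g n =
      ((cycloChar p (primeLocalToGlobal (pPrime p) g) : (ZMod p)ˣ) : ZMod p) • n) :
    Module.Finite (ZMod p) (H1 (localLevel (primeLocalToGlobal (pPrime p))) N) ∧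
      Module.finrank (ZMod p) (H1 (localLevel (primeLocalToGlobal (pPrime p))) N) ≤
        2 * Module.finrank (ZMod p) N :=
  finrank_H1_le_two_mul_Gq hp2 N hN

end Kummer

end Fermat.Agent.S56.Loc.OrdCount
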